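import Fermat.Agent.F4.DDT.Retract

/-!
# F4 / Cf / Retract : seat ACF-5b — retracts for `α¹` injective, `k[G/V]` as a retract of `k[G/V']`
(owner helper49; the two stubs of `F4/Cf/Assembly.lean`, proved here under the names
`A1Inj_of_retract_pf`, `permRep_retract_pf`)

* `A1Inj_of_retract_pf` : `A1Inj` passes to retracts (special case of `A1Inj_of_sum`);
* `permRep_retract_pf`  : for `V' ≤ V` of finite index invertible in `k`, `k[G/V]` is a retract of
  `k[G/V']` (`i` = pull-back along `G/V' → G/V`, `r` = average over the fibres).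
-/

set_option autoImplicit false

open CategoryTheory groupCohomology

namespace Fermat.Agent.F4Cf

open Fermat.Agent.F4

variable {G : Type} [Group G]

/-- Retracts, `α¹` injective. -/
theorem A1Inj_of_retract_pf {k : Type} [Field k] (𝓤 : Levels G) (K : Cx k G)
    (inv : HH2 𝓤 K →ₗ[k] k) {N N₁ : Rep.{0} k G}
    (i : N →ₗ[k] N₁) (hi : ∀ (g : G) (n : N), i (N.ρ g n) = N₁.ρ g (i n))
    (r : N₁ →ₗ[k] N) (hr : ∀ (g : G) (n : N₁), r (N₁.ρ g n) = N.ρ g (r n))
    (hri : ∀ n, r (i n) = n)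
    (hN : IsSmooth 𝓤 N) (hfin : Module.Finite k N)
    (hN₁ : IsSmooth 𝓤 N₁) (hfin₁ : Module.Finite k N₁)
    (h : A1Inj 𝓤 K N₁ inv hN₁ hfin₁) : A1Inj 𝓤 K N inv hN hfin :=
  A1Inj_of_sum 𝓤 K inv (P := N) (ι := Unit) (fun _ => N₁) (fun _ => r) (fun _ => i)
    (fun _ => hr) (fun _ => hi) (fun x => by simp [hri]) hN hfin (fun _ => hN₁)
    (fun _ => hfin₁) (fun _ => h)

section Perm

variable (k : Type) [Field k] {V V' : Subgroup G} (hle : V' ≤ V)

lemma quotientMapOfLE_smul (g : G) (x : G ⧸ V') :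
    Subgroup.quotientMapOfLE hle (g • x) = g • Subgroup.quotientMapOfLE hle x := by
  induction x using QuotientGroup.induction_on with
  | H a => rfl

lemma quotientEquivProdOfLE_fst (x : G ⧸ V') :
    (Subgroup.quotientEquivProdOfLE hle x).1 = Subgroup.quotientMapOfLE hle x := by
  induction x using QuotientGroup.induction_on with
  | H a => rfl

lemma quotientMapOfLE_symm (y : G ⧸ V) (t : ↥V ⧸ V'.subgroupOf V) :
    Subgroup.quotientMapOfLE hle ((Subgroup.quotientEquivProdOfLE hle).symm (y, t)) = y := by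
  rw [← quotientEquivProdOfLE_fst, Equiv.apply_symm_apply]

/-- The fibre coordinate of `g • x`, for `x` in the fibre of `y` with coordinate `t`. -/
noncomputable def fibreShift (g : G) (y : G ⧸ V) (t : ↥V ⧸ V'.subgroupOf V) :
    ↥V ⧸ V'.subgroupOf V :=
  (Subgroup.quotientEquivProdOfLE hle (g • (Subgroup.quotientEquivProdOfLE hle).symm (y, t))).2

lemma symm_fibreShift (g : G) (y : G ⧸ V) (t : ↥V ⧸ V'.subgroupOf V) :
    (Subgroup.quotientEquivProdOfLE hle).symm (g • y, fibreShift hle g y t)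
      = g • (Subgroup.quotientEquivProdOfLE hle).symm (y, t) := by
  rw [Equiv.symm_apply_eq]
  refine Prod.ext ?_ rfl
  rw [quotientEquivProdOfLE_fst, quotientMapOfLE_smul, quotientMapOfLE_symm]

lemma fibreShift_injective (g : G) (y : G ⧸ V) : Function.Injective (fibreShift hle g y) := by
  intro t t' h
  have h1 := symm_fibreShift hle g y t
  have h2 := symm_fibreShift hle g y t'
  rw [h] at h1
  have h3 := h1.symm.trans h2
  have h4 := (MulAction.injective g) h3
  have h5 := (Subgroup.quotientEquivProdOfLE hle).symm.injective h4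
  exact (Prod.ext_iff.1 h5).2

/-- Pull-back of functions along `G/V' → G/V`. -/
def pullPerm : ((G ⧸ V) → k) →ₗ[k] ((G ⧸ V') → k) :=
  LinearMap.funLeft k k (Subgroup.quotientMapOfLE hle)

/-- Average over the fibres of `G/V' → G/V`. -/
noncomputable def avgPerm [Fintype (↥V ⧸ V'.subgroupOf V)] :
    ((G ⧸ V') → k) →ₗ[k] ((G ⧸ V) → k) where
  toFun f y := ((V'.relIndex V : ℕ) : k)⁻¹ *
    ∑ t : ↥V ⧸ V'.subgroupOf V, f ((Subgroup.quotientEquivProdOfLE hle).symm (y, t))
  map_add' f f' := by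
    funext y
    simp only [Pi.add_apply, Finset.sum_add_distrib, mul_add]
  map_smul' c f := by
    funext y
    simp only [Pi.smul_apply, smul_eq_mul, RingHom.id_apply, Finset.mul_sum]
    refine Finset.sum_congr rfl fun t _ => ?_
    ring

/-- `k[G/V]` is a retract of `k[G/V']` for `V' ≤ V` of finite index invertible in `k`. -/
theorem permRep_retract_pf {V V' : Subgroup G} (hle : V' ≤ V)
    (hfin : V'.relIndex V ≠ 0) (hidx : ((V'.relIndex V : ℕ) : k) ≠ 0) :
    ∃ (i : permRep k V →ₗ[k] permRep k V') (r : permRep k V' →ₗ[k] permRep k V),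
      (∀ (g : G) (n : permRep k V), i ((permRep k V).ρ g n) = (permRep k V').ρ g (i n)) ∧
      (∀ (g : G) (n : permRep k V'), r ((permRep k V').ρ g n) = (permRep k V).ρ g (r n)) ∧
      ∀ n, r (i n) = n := by
  have hfinT : Finite (↥V ⧸ V'.subgroupOf V) := Nat.finite_of_card_ne_zero hfin
  let _ : Fintype (↥V ⧸ V'.subgroupOf V) := Fintype.ofFinite _
  have hcard : Fintype.card (↥V ⧸ V'.subgroupOf V) = V'.relIndex V := by
    rw [← Nat.card_eq_fintype_card]
    rfl
  refine ⟨pullPerm k hle, avgPerm k hle, ?_, ?_, ?_⟩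
  · intro g n
    funext x
    show (n : (G ⧸ V) → k) (g⁻¹ • Subgroup.quotientMapOfLE hle x)
      = (n : (G ⧸ V) → k) (Subgroup.quotientMapOfLE hle (g⁻¹ • x))
    rw [quotientMapOfLE_smul]
  · intro g n
    funext y
    show ((V'.relIndex V : ℕ) : k)⁻¹ * ∑ t : ↥V ⧸ V'.subgroupOf V,
        (n : (G ⧸ V') → k) (g⁻¹ • (Subgroup.quotientEquivProdOfLE hle).symm (y, t))
      = ((V'.relIndex V : ℕ) : k)⁻¹ * ∑ t : ↥V ⧸ V'.subgroupOf V,
        (n : (G ⧸ V') → k) ((Subgroup.quotientEquivProdOfLE hle).symm (g⁻¹ • y, t))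
    congr 1
    have hbij : Function.Bijective (fibreShift hle g⁻¹ y) :=
      (Finite.injective_iff_bijective).1 (fibreShift_injective hle g⁻¹ y)
    rw [← Function.Bijective.sum_comp hbij
      (fun t => (n : (G ⧸ V') → k) ((Subgroup.quotientEquivProdOfLE hle).symm (g⁻¹ • y, t)))]
    refine Finset.sum_congr rfl fun t _ => ?_
    rw [symm_fibreShift]
  · intro n
    funext y
    show ((V'.relIndex V : ℕ) : k)⁻¹ * ∑ t : ↥V ⧸ V'.subgroupOf V,
        (n : (G ⧸ V) → k) (Subgroup.quotientMapOfLE hle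
          ((Subgroup.quotientEquivProdOfLE hle).symm (y, t)))
      = (n : (G ⧸ V) → k) y
    simp only [quotientMapOfLE_symm]
    rw [Finset.sum_const, Finset.card_univ, hcard, nsmul_eq_mul, ← mul_assoc,
      inv_mul_cancel₀ hidx, one_mul]

end Perm

end Fermat.Agent.F4Cf
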