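import Fermat.Agent.F4.Cf.Statements
import Fermat.Agent.F4.Cf.Retract
import Fermat.Agent.F4.DDT.Main

/-!
# F4 / Cf / Assembly : from a class formation mod `p` to the duality properties (seat ACF-5)

`D : UCData p K C I Q` (so `K = 𝔽_p ⊗ᴸ C`), `h : PCF p 𝓤 C U₀`, `inv` ANY injective linear form
on `HH²(G, K)`.  Then

* `a2inj_of_PCF`  : `A2Inj` for `𝔽_p[G/U]`, `U` open of index prime to `p`;
* `a1surj_of_PCF` : `A1Surj` for the same `U` (given the finiteness of `Hom_sm(U, 𝔽_p)`);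
* `a1inj_of_PCF_le` : `A1Inj` for `𝔽_p[G/V]`, `V` open, `V ≤ U₀`;
* `a1inj_of_PCF`  : `A1Inj` for `𝔽_p[G/V]`, `V` open  (retract to `V ⊓ U₀`).

Inputs: the formation-level statements of `F4/Cf/Statements.lean` over every open subgroup,
helper9's `F4/UC/Bridge.lean`, helper48's `F4/Shapiro/R2.lean` + `Torsion.lean`, and DDT.
-/

set_option autoImplicit false

open CategoryTheory groupCohomology

namespace Fermat.Agent.F4Cf

open Fermat.Agent.F4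

variable {G : Type} [Group G] {p : ℕ} [Fact p.Prime] {𝓤 : Levels G} {C I Q : Rep.{0} ℤ G}
  {K : Cx (ZMod p) G} {U₀ : Subgroup G}

/-! ### The assembly -/

section

variable (D : UCData p K C I Q) (hI : IsSmooth 𝓤 I) (h : PCF p 𝓤 C U₀)
  (inv : HH2 𝓤 K →ₗ[ZMod p] ZMod p) (hinv : Function.Injective inv)

include D hI h hinv in
/-- `inv ≠ 0`, as soon as `G` has a nonzero smooth character. -/
theorem exists_inv_ne_zero (hχ : ∃ χ : G → ZMod p, IsSmChar 𝓤 χ ∧ χ ≠ 0) :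
    ∃ c : ↥(ZZ2 𝓤 K), inv (HH2π 𝓤 K c) ≠ 0 := by
  obtain ⟨χ, hχs, hχ0⟩ := hχ
  obtain ⟨z, hz, hzχ⟩ := D.kF3 hI (f3sm h) χ hχs.1 hχs.2 hχ0
  refine ⟨⟨UC.cupχ z χ, UCData.cupχ_mem_ZZ2 hz hχs.1 hχs.2⟩, fun h0 => hzχ ?_⟩
  have h1 := (map_eq_zero_iff inv hinv).1 h0
  exact (HH2π_eq_zero_iff 𝓤 K _).1 h1

lemma natCast_card_ne_zero {U : Subgroup G} [Fintype (G ⧸ U)] (hidx : ¬ p ∣ U.index) :
    ((Fintype.card (G ⧸ U) : ℕ) : ZMod p) ≠ 0 := by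
  intro h0
  apply hidx
  rw [Subgroup.index, Nat.card_eq_fintype_card]
  exact (ZMod.natCast_eq_zero_iff _ _).1 h0

include D hI h hinv in
/-- **(G1a)** `α²` is injective for `𝔽_p[G/U]`, `p ∤ [G : U]`. -/
theorem a2inj_of_PCF (hχ : ∃ χ : G → ZMod p, IsSmChar 𝓤 χ ∧ χ ≠ 0)
    (U : Subgroup G) (hU : 𝓤.IsOpen U) (hidx : ¬ p ∣ U.index) :
    A2Inj 𝓤 K (permRep (ZMod p) U) inv := by
  have := hU.finite_quotient
  letI := Fintype.ofFinite (G ⧸ U)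
  have hres := h.res hU
  exact a2Inj_permRep_of_dep U K inv hU (natCast_card_ne_zero hidx)
    (D.depHH2_res_of_H1p0 hI U (h1slack hres).h1p0 (f1sm hres))
    (exists_inv_ne_zero D hI h inv hinv hχ)

include D hI h hinv in
/-- `A2InjU` for `p ∤ [G : U]`. -/
theorem a2injU_of_PCF (hχ : ∃ χ : G → ZMod p, IsSmChar 𝓤 χ ∧ χ ≠ 0)
    (U : Subgroup G) [Fintype (G ⧸ U)] (hU : 𝓤.IsOpen U) (hidx : ¬ p ∣ U.index) :
    A2InjU U K inv hU :=
  a2InjU_of_permRep U K inv hU (a2inj_of_PCF D hI h inv hinv hχ U hU hidx)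

include D hI h hinv in
/-- **(G1b)** `α¹` is surjective for `𝔽_p[G/U]`, `p ∤ [G : U]`. -/
theorem a1surj_of_PCF (hχ : ∃ χ : G → ZMod p, IsSmChar 𝓤 χ ∧ χ ≠ 0)
    (U : Subgroup G) (hU : 𝓤.IsOpen U) (hidx : ¬ p ∣ U.index)
    (hfin : Module.Finite (ZMod p) ↥(Z1 (𝓤.sub U) (Rep.trivial (ZMod p) ↥U (ZMod p)))) :
    A1Surj 𝓤 K (permRep (ZMod p) U) inv (permRep_smooth 𝓤 hU) (permRep_finite 𝓤 hU) := by
  have := hU.finite_quotient
  letI := Fintype.ofFinite (G ⧸ U)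
  have hres := h.res hU
  exact a1Surj_permRep_of_nondeg U K inv hU
    (a2injU_of_PCF D hI h inv hinv hχ U hU hidx) hfin
    (D.cupNondegRight_res hI U (f3sm hres))

include D hI h hinv in
/-- `A2InjU` for EVERY open subgroup, by dévissage. -/
theorem a2injU_all (hχ : ∃ χ : G → ZMod p, IsSmChar 𝓤 χ ∧ χ ≠ 0)
    (hfin : ∀ U : Subgroup G, 𝓤.IsOpen U → ¬ p ∣ U.index →
      Module.Finite (ZMod p) ↥(Z1 (𝓤.sub U) (Rep.trivial (ZMod p) ↥U (ZMod p))))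
    (V : Subgroup G) [Fintype (G ⧸ V)] (hV : 𝓤.IsOpen V) : A2InjU V K inv hV := by
  have hd := ddt_primeTo 𝓤 K (D.smoothK hI) inv
    (fun U hU hidx => a2inj_of_PCF D hI h inv hinv hχ U hU hidx)
    (fun U hU hidx => a1surj_of_PCF D hI h inv hinv hχ U hU hidx (hfin U hU hidx))
    (permRep (ZMod p) V) (permRep_smooth 𝓤 hV) (permRep_finite 𝓤 hV)
  exact a2InjU_of_permRep V K inv hV hd.1

include D hI h hinv in
/-- **(G2), below `U₀`**: `α¹` is injective for `𝔽_p[G/V]`, `V` open, `V ≤ U₀`. -/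
theorem a1inj_of_PCF_le (hχ : ∃ χ : G → ZMod p, IsSmChar 𝓤 χ ∧ χ ≠ 0)
    (hfin : ∀ U : Subgroup G, 𝓤.IsOpen U → ¬ p ∣ U.index →
      Module.Finite (ZMod p) ↥(Z1 (𝓤.sub U) (Rep.trivial (ZMod p) ↥U (ZMod p))))
    (V : Subgroup G) (hV : 𝓤.IsOpen V) (hle : V ≤ U₀) :
    A1Inj 𝓤 K (permRep (ZMod p) V) inv (permRep_smooth 𝓤 hV) (permRep_finite 𝓤 hV) := by
  have := hV.finite_quotient
  letI := Fintype.ofFinite (G ⧸ V)
  have hres := h.res hV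
  have htop : U₀.subgroupOf V = ⊤ := Subgroup.subgroupOf_eq_top.2 hle
  have hres' : PCF p (𝓤.sub V) (Rep.res V.subtype C) ⊤ := htop ▸ hres
  exact a1Inj_permRep_of_nondeg V K inv hV (a2injU_all D hI h inv hinv hχ hfin V hV)
    (D.cupNondegLeft_res hI V (h1slack hres).h1p0 (f4sm hres'))

include D hI h hinv in
/-- **(G2)**: `α¹` is injective for `𝔽_p[G/V]`, `V` open  (retract to `V ⊓ U₀`). -/
theorem a1inj_of_PCF (hχ : ∃ χ : G → ZMod p, IsSmChar 𝓤 χ ∧ χ ≠ 0)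
    (hfin : ∀ U : Subgroup G, 𝓤.IsOpen U → ¬ p ∣ U.index →
      Module.Finite (ZMod p) ↥(Z1 (𝓤.sub U) (Rep.trivial (ZMod p) ↥U (ZMod p))))
    (V : Subgroup G) (hV : 𝓤.IsOpen V) :
    A1Inj 𝓤 K (permRep (ZMod p) V) inv (permRep_smooth 𝓤 hV) (permRep_finite 𝓤 hV) := by
  have hV' : 𝓤.IsOpen (V ⊓ U₀) := by
    obtain ⟨W, hW, hWV⟩ := hV
    obtain ⟨W₀, hW₀, hW₀U⟩ := h.open₀
    obtain ⟨W', hW', hle⟩ := 𝓤.directed W hW W₀ hW₀
    exact ⟨W', hW', hle.trans (inf_le_inf hWV hW₀U)⟩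
  have hn : U₀.Normal := h.normal₀
  have hdvd : (V ⊓ U₀).relIndex V ∣ U₀.index := by
    rw [Subgroup.inf_relIndex_left]
    exact Subgroup.relIndex_dvd_index_of_normal U₀ V
  have hidx0 : U₀.index ≠ 0 := fun h0 => h.index₀ (h0 ▸ dvd_zero p)
  have hrel0 : (V ⊓ U₀).relIndex V ≠ 0 := fun h0 => hidx0 (by
    rw [h0] at hdvd
    exact zero_dvd_iff.1 hdvd)
  have hrelp : (((V ⊓ U₀).relIndex V : ℕ) : ZMod p) ≠ 0 := by
    intro h0
    exact h.index₀ (((ZMod.natCast_eq_zero_iff _ _).1 h0).trans hdvd)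
  obtain ⟨i, r, hi, hr, hri⟩ :=
    permRep_retract_pf (ZMod p) (inf_le_left : V ⊓ U₀ ≤ V) hrel0 hrelp
  exact A1Inj_of_retract_pf 𝓤 K inv i hi r hr hri (permRep_smooth 𝓤 hV) (permRep_finite 𝓤 hV)
    (permRep_smooth 𝓤 hV') (permRep_finite 𝓤 hV')
    (a1inj_of_PCF_le D hI h inv hinv hχ hfin (V ⊓ U₀) hV' inf_le_right)

end

end Fermat.Agent.F4Cf
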