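import Fermat.Agent.F4.Cf.Defs
import Fermat.Agent.F4.Loc.Datum.CycloLevel

/-!
# F4 / Cf / CharGQ : seat R-C0 — a non-zero smooth character `G_S → 𝔽_p`  (helper26)

`exists_char_GQ_pf` : for `p ∈ S` there is a non-zero additive character `χ : G_ℚ → ZMod p`,
locally constant for the levels of `G_S`: `χ = φ ∘ (mod p) ∘ χ_{cyc, p²}` where `φ` is any non-zero
linear form on `(ℤ/p²)ˣ ⊗ 𝔽_p` (non-zero because `p ∣ #(ℤ/p²)ˣ`), trivial on `Gal(ℚ̄/ℚ(μ_{p²}))`.

* `modChar_surjective_GQ` : the mod `n` cyclotomic character of `G_ℚ` is surjective;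
* `exists_addChar_ne_zero` : a finite commutative group of order divisible by `p` has a
  non-zero additive character to `ZMod p`;
* `exists_char_GQ_pf` : the statement of the stub `exists_char_GQ` of `F4/Cf/Recip.lean`.
-/

set_option autoImplicit false

open ExtCitation

namespace Fermat.Agent.F4Cf

open Fermat.Agent.F4

section Surj

variable (n : ℕ) [NeZero n]

/-- The mod `n` cyclotomic character of `G_ℚ` is surjective. -/
theorem modChar_surjective_GQ : Function.Surjective (Cyclo.modChar n) := by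
  intro u
  obtain ⟨ζ, hζ⟩ := HasEnoughRootsOfUnity.exists_primitiveRoot Cyclo.Qb n
  have hn : 0 < n := Nat.pos_of_ne_zero (NeZero.ne n)
  have hcop : Nat.Coprime (u : ZMod n).val n := ZMod.val_coe_unit_coprime u
  have hζu : IsPrimitiveRoot (ζ ^ (u : ZMod n).val) n := hζ.pow_of_coprime _ hcop
  have h1 : minpoly ℚ ζ = minpoly ℚ (ζ ^ (u : ZMod n).val) := by
    rw [← Polynomial.cyclotomic_eq_minpoly_rat hζ hn,
      ← Polynomial.cyclotomic_eq_minpoly_rat hζu hn]
  have : Algebra.IsAlgebraic ℚ Cyclo.Qb := AlgebraicClosure.isAlgebraic ℚ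
  have : IsAlgClosure ℚ Cyclo.Qb := ⟨inferInstance, inferInstance⟩
  have : Normal ℚ Cyclo.Qb := IsAlgClosure.normal ℚ Cyclo.Qb
  have hroot : Polynomial.aeval ζ (minpoly ℚ (ζ ^ (u : ZMod n).val)) = 0 := by
    rw [← h1]; exact minpoly.aeval _ _
  obtain ⟨σ, hσ⟩ := minpoly.exists_algEquiv_of_root
    (Algebra.IsAlgebraic.isAlgebraic (R := ℚ) (ζ ^ (u : ZMod n).val)) hroot
  refine ⟨σ, ?_⟩
  apply Units.ext
  apply Cyclo.modChar_unique
  intro t ht
  obtain ⟨i, -, rfl⟩ := hζ.eq_pow_of_pow_eq_one ht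
  rw [map_pow, hσ, ← pow_mul, ← pow_mul, mul_comm]

end Surj

section AddChar

/-- A finite commutative group of order divisible by `p` has a non-zero additive character with
values in `ZMod p`. -/
theorem exists_addChar_ne_zero (p : ℕ) [Fact p.Prime] (A : Type) [AddCommGroup A] [Finite A]
    (hA : p ∣ Nat.card A) : ∃ f : A →+ ZMod p, ∃ a : A, f a ≠ 0 := by
  classical
  have : Fintype A := Fintype.ofFinite A
  obtain ⟨x, hx⟩ := exists_prime_addOrderOf_dvd_card' (G := A) p hA
  have hx0 : x ≠ 0 := by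
    rintro rfl
    rw [addOrderOf_zero] at hx
    exact (Fact.out : p.Prime).one_lt.ne hx
  have hpx : p • x = 0 := by rw [← hx]; exact addOrderOf_nsmul_eq_zero x
  -- multiplication by `p` is not injective, hence not surjective
  have hninj : ¬ Function.Injective (fun a : A => p • a) := by
    intro h
    apply hx0
    apply h
    show p • x = p • (0 : A)
    rw [hpx, smul_zero]
  have hnsurj : ¬ Function.Surjective (fun a : A => p • a) := fun h =>
    hninj (Finite.injective_iff_surjective.2 h)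
  obtain ⟨b, hb⟩ : ∃ b : A, ∀ a : A, p • a ≠ b := by
    by_contra hcon
    push Not at hcon
    exact hnsurj fun b => hcon b
  -- the class of `b` in `A / pA` is non-zero
  have hv : (ModN.mkQ p : A →+ ModN A p) b ≠ 0 := by
    intro h0
    have hmem : b ∈ LinearMap.range (LinearMap.lsmul ℤ A (p : ℤ)) :=
      (Submodule.Quotient.mk_eq_zero _).1 h0
    obtain ⟨a, ha⟩ := hmem
    apply hb a
    rw [← ha]
    simp
  obtain ⟨φ, hφ⟩ : ∃ φ : Module.Dual (ZMod p) (ModN A p), φ ((ModN.mkQ p : A →+ ModN A p) b) ≠ 0 := by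
    by_contra hcon
    push Not at hcon
    exact hv ((Module.forall_dual_apply_eq_zero_iff (ZMod p) _).1 hcon)
  exact ⟨φ.toAddMonoidHom.comp (ModN.mkQ p : A →+ ModN A p), b, hφ⟩

end AddChar

section Main

variable {p : ℕ} [Fact p.Prime] {S : Finset Nat.Primes}

/-- **R-C0** (statement of the stub `exists_char_GQ` of `F4/Cf/Recip.lean`): `G_S` has a non-zero
smooth character of order `p`, for `p ∈ S`. -/
theorem exists_char_GQ_pf (hp2 : p ≠ 2) (hpS : pPrime p ∈ S) :
    ∃ χ : GQ → ZMod p, IsSmChar (levelsS S) χ ∧ χ ≠ 0 := by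
  have hp : p.Prime := Fact.out
  have : NeZero (p ^ 2) := ⟨pow_ne_zero 2 hp.ne_zero⟩
  have hcard : p ∣ Nat.card (Additive (ZMod (p ^ 2))ˣ) := by
    rw [Nat.card_eq_fintype_card, Fintype.card_congr Additive.toMul, ZMod.card_units_eq_totient,
      Nat.totient_prime_pow hp (by norm_num : 0 < 2)]
    exact ⟨p - 1, by simp⟩
  obtain ⟨f, a, hfa⟩ := exists_addChar_ne_zero p (Additive (ZMod (p ^ 2))ˣ) hcard
  refine ⟨fun g => f (Additive.ofMul (Cyclo.modChar (p ^ 2) g)), ⟨?_, ?_⟩, ?_⟩
  · intro g h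
    show f (Additive.ofMul (Cyclo.modChar (p ^ 2) (g * h))) = _
    rw [map_mul, ofMul_mul, map_add]
  · refine ⟨(Cyclo.cycloField (p ^ 2)).fixingSubgroup,
      Loc.cycloField_mem_levelsS (p ^ 2) S ?_, ?_⟩
    · intro ℓ hℓ
      have h1 : (ℓ : ℕ) ∣ p := ℓ.2.dvd_of_dvd_pow hℓ
      have h2 : (ℓ : ℕ) = p := (Nat.prime_dvd_prime_iff_eq ℓ.2 hp).1 h1
      have h3 : ℓ = pPrime p := Subtype.ext h2
      rw [h3]; exact hpS
    · intro g s hs
      have h1 : Cyclo.modChar (p ^ 2) s = 1 :=
        Cyclo.modChar_eq_one_of_fix_cycloField (p ^ 2) s fun x hx =>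
          (IntermediateField.mem_fixingSubgroup_iff _ _).1 hs x hx
      show f (Additive.ofMul (Cyclo.modChar (p ^ 2) (g * s))) = _
      rw [map_mul, h1, mul_one]
  · intro h0
    obtain ⟨σ, hσ⟩ := modChar_surjective_GQ (p ^ 2) (Additive.toMul a)
    apply hfa
    have := congrFun h0 σ
    simp only [Pi.zero_apply] at this
    rw [hσ] at this
    exact this

end Main

end Fermat.Agent.F4Cf
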