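import Fermat.Agent.F4.Cf.Defs
import Fermat.Agent.F4.Shapiro.ModCor

/-!
# F4 / Cf / Cor : the projection formula (seat ACF-3b)

For a character `χ` of `G`, an open subgroup `V` of finite index and `y ∈ C^V`:

  `cor_V (y ∪ δ(χ|_V)) - (N_{G/V} y) ∪ δχ = δ¹(-e)`,   `e g = Σ_x M_x(g) • s_x y`,

where `χ̃ (w_x g) = χ̃ g + χ̃ (s_{g⁻¹x}) - χ̃ (s_x) - p M_x(g)` (`χ̃` = the lift `ZMod.val ∘ χ`).
For a cyclic layer `V = ker ψ`, `ψ σ = 1`: `N_{G/V} y = Σ_x s_x y = Σ_{i<p} σ^i y`.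

* `pj_corC2_carryCo` : general form (any open `V` of finite index);
* `corC_carryCo_pf`  : the statement `corC_carryCo` of `F4/Cf/Statements.lean`.
-/

set_option autoImplicit false
set_option linter.unusedSectionVars false

open CategoryTheory groupCohomology

namespace Fermat.Agent.F4Cf

open Fermat.Agent.F4

variable {G : Type} [Group G] {p : ℕ} [Fact p.Prime] {𝓤 : Levels G} {C : Rep.{0} ℤ G}

/-! ### additive characters -/

lemma pj_chi_one {χ : G → ZMod p} (hχ : ∀ g h : G, χ (g * h) = χ g + χ h) : χ 1 = 0 := by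
  have h := hχ 1 1
  rw [mul_one] at h
  have h2 : χ 1 + 0 = χ 1 + χ 1 := by rw [add_zero]; exact h
  exact (add_left_cancel h2).symm

lemma pj_chi_inv {χ : G → ZMod p} (hχ : ∀ g h : G, χ (g * h) = χ g + χ h) (g : G) :
    χ g⁻¹ = -χ g := by
  have h := hχ g g⁻¹
  rw [mul_inv_cancel, pj_chi_one hχ] at h
  exact eq_neg_of_add_eq_zero_right h.symm

lemma pj_chi_pow {χ : G → ZMod p} (hχ : ∀ g h : G, χ (g * h) = χ g + χ h) (g : G) (n : ℕ) :
    χ (g ^ n) = (n : ZMod p) * χ g := by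
  induction n with
  | zero => simp [pj_chi_one hχ]
  | succ n ih => rw [pow_succ, hχ, ih]; push_cast; ring

/-- the kernel of a smooth character is open -/
lemma pj_charKer_isOpen {χ : G → ZMod p} (hχ : IsSmChar 𝓤 χ) : 𝓤.IsOpen (charKer χ hχ.1) := by
  obtain ⟨U, hU, h⟩ := hχ.2
  refine ⟨U, hU, fun s hs => ?_⟩
  show χ s = 0
  have := h 1 s hs
  rw [one_mul] at this
  rw [this, pj_chi_one hχ.1]

/-! ### fixed vectors and coset representatives -/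

lemma pj_rho_mul_gen {k : Type} [CommRing k] (A : Rep.{0} k G) (g h : G) (y : A) :
    A.ρ (g * h) y = A.ρ g (A.ρ h y) := by
  rw [map_mul, Module.End.mul_apply]

lemma pj_rho_mul (g h : G) (y : C) : C.ρ (g * h) y = C.ρ g (C.ρ h y) :=
  pj_rho_mul_gen C g h y

lemma pj_rho_eq_of_mk_eq (V : Subgroup G) {y : C} (hy : Fix C V y) {a b : G}
    (hab : (a : G ⧸ V) = (b : G ⧸ V)) : C.ρ a y = C.ρ b y := by
  have hmem : a⁻¹ * b ∈ V := QuotientGroup.eq.mp hab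
  have h := hy _ hmem
  have e : C.ρ b y = C.ρ a (C.ρ (a⁻¹ * b) y) := by
    rw [← pj_rho_mul, mul_inv_cancel_left]
  rw [e, h]

lemma pj_rho_shSec (V : Subgroup G) {y : C} (hy : Fix C V y) (g : G) (x : G ⧸ V) :
    C.ρ g (C.ρ (shSec V x) y) = C.ρ (shSec V (g • x)) y := by
  rw [← pj_rho_mul]
  apply pj_rho_eq_of_mk_eq V hy
  rw [mk_mul_shSec, mk_shSec]

/-- The norm of a cyclic layer is the sum over the coset representatives. -/
lemma pj_cnorm_eq_sum {ψ : G → ZMod p} (hψ : ∀ g h : G, ψ (g * h) = ψ g + ψ h) {σ : G}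
    (hσ : ψ σ = 1) [Fintype (G ⧸ charKer ψ hψ)] {y : C} (hy : Fix C (charKer ψ hψ) y) :
    cnorm C p σ y = ∑ x : G ⧸ charKer ψ hψ, C.ρ (shSec (charKer ψ hψ) x) y := by
  have hpow : ∀ i : ℕ, ψ (σ ^ i) = (i : ZMod p) := by
    intro i; rw [pj_chi_pow hψ, hσ, mul_one]
  unfold cnorm
  refine Finset.sum_bij (fun i _ => ((σ ^ i : G) : G ⧸ charKer ψ hψ)) (fun _ _ => Finset.mem_univ _)
    ?_ ?_ ?_
  · intro i hi j hj hij
    have hmem : (σ ^ i)⁻¹ * σ ^ j ∈ charKer ψ hψ := QuotientGroup.eq.mp hij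
    have h0 : ψ ((σ ^ i)⁻¹ * σ ^ j) = 0 := hmem
    rw [hψ, pj_chi_inv hψ, hpow, hpow, neg_add_eq_zero] at h0
    have h1 := (ZMod.natCast_eq_natCast_iff' i j p).1 h0
    rw [Nat.mod_eq_of_lt (Finset.mem_range.1 hi), Nat.mod_eq_of_lt (Finset.mem_range.1 hj)] at h1
    exact h1
  · intro x _
    induction x using QuotientGroup.induction_on with
    | H g =>
      refine ⟨(ψ g).val, Finset.mem_range.2 (ZMod.val_lt _), ?_⟩
      apply QuotientGroup.eq.mpr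
      show ψ ((σ ^ (ψ g).val)⁻¹ * g) = 0
      rw [hψ, pj_chi_inv hψ, hpow, ZMod.natCast_zmod_val, neg_add_cancel]
  · intro i _
    exact pj_rho_eq_of_mk_eq _ hy (mk_shSec _ _).symm

/-! ### the integer cochain `M` -/

/-- `M_x(g) = (χ̃ g + χ̃ (s_{g⁻¹x}) - χ̃ (s_x) - χ̃ (w_x g)) / p`. -/
noncomputable def pjM (V : Subgroup G) (χ : G → ZMod p) (x : G ⧸ V) (g : G) : ℤ :=
  (((χ g).val : ℤ) + ((χ (shSec V (g⁻¹ • x))).val : ℤ) - ((χ (shSec V x)).val : ℤ)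
    - ((χ (shW V x g : G)).val : ℤ)) / (p : ℤ)

lemma pjM_spec (V : Subgroup G) {χ : G → ZMod p} (hχ : ∀ g h : G, χ (g * h) = χ g + χ h)
    (x : G ⧸ V) (g : G) :
    (p : ℤ) * pjM V χ x g = ((χ g).val : ℤ) + ((χ (shSec V (g⁻¹ • x))).val : ℤ)
      - ((χ (shSec V x)).val : ℤ) - ((χ (shW V x g : G)).val : ℤ) := by
  unfold pjM
  apply Int.mul_ediv_cancel'
  rw [← ZMod.intCast_zmod_eq_zero_iff_dvd]
  push_cast
  rw [ZMod.natCast_zmod_val, ZMod.natCast_zmod_val, ZMod.natCast_zmod_val, ZMod.natCast_zmod_val,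
    shW_coe, hχ, hχ, pj_chi_inv hχ]
  ring

lemma pj_carry (a b : ZMod p) :
    (p : ℤ) * (((a.val + b.val) / p : ℕ) : ℤ) = (a.val : ℤ) + (b.val : ℤ) - ((a + b).val : ℤ) := by
  have h := UC.val_add_carry a b
  have h2 : (((a + b).val + p * ((a.val + b.val) / p) : ℕ) : ℤ) = ((a.val + b.val : ℕ) : ℤ) := by
    rw [h]
  rw [Nat.cast_add, Nat.cast_add, Nat.cast_mul] at h2
  linarith

/-- the key identity between the carries -/
lemma pj_key (V : Subgroup G) {χ : G → ZMod p} (hχ : ∀ g h : G, χ (g * h) = χ g + χ h)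
    (x : G ⧸ V) (g h : G) :
    ((((χ (shW V x g : G)).val + (χ (shW V (g⁻¹ • x) h : G)).val) / p : ℕ) : ℤ)
      = ((((χ g).val + (χ h).val) / p : ℕ) : ℤ) - pjM V χ x g - pjM V χ (g⁻¹ • x) h
        + pjM V χ x (g * h) := by
  have hp : (p : ℤ) ≠ 0 := by
    exact_mod_cast (Fact.out : p.Prime).ne_zero
  apply mul_left_cancel₀ hp
  have e1 : χ (shW V x g : G) + χ (shW V (g⁻¹ • x) h : G) = χ (shW V x (g * h) : G) := by
    rw [shW_mul, Subgroup.coe_mul, hχ]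
  have e2 : (g * h)⁻¹ • x = h⁻¹ • g⁻¹ • x := by rw [mul_inv_rev, mul_smul]
  rw [mul_add, mul_sub, mul_sub, pj_carry, pj_carry, pjM_spec V hχ, pjM_spec V hχ,
    pjM_spec V hχ, e1, e2, ← hχ]
  ring

lemma pj_term {A : Type} [AddCommGroup A] (t : A) (a c : ℕ) (m1 m2 m3 : ℤ)
    (h : (a : ℤ) = c - m1 - m2 + m3) : a • t - c • t = -(m2 • t) + m3 • t - m1 • t := by
  rw [← natCast_zsmul, ← natCast_zsmul t c, h, add_zsmul, sub_zsmul, sub_zsmul]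
  abel

/-- the cochain `e g = Σ_x M_x(g) • s_x y` -/
noncomputable def pjE (V : Subgroup G) [Fintype (G ⧸ V)] (C : Rep.{0} ℤ G) (χ : G → ZMod p)
    (y : C) (g : G) : C :=
  ∑ x : G ⧸ V, pjM V χ x g • C.ρ (shSec V x) y

lemma pjM_mul_of_mem {V W : Subgroup G} (hW : W.Normal) (hWV : W ≤ V) {χ : G → ZMod p}
    (hχ : ∀ g h : G, χ (g * h) = χ g + χ h) (hWχ : ∀ g s, s ∈ W → χ (g * s) = χ g)
    (x : G ⧸ V) (g : G) {s : G} (hs : s ∈ W) : pjM V χ x (g * s) = pjM V χ x g := by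
  have hx : (g * s)⁻¹ • x = g⁻¹ • x := by
    rw [mul_inv_rev, mul_smul, smul_eq_of_mem_normal V hW hWV (W.inv_mem hs)]
  obtain ⟨v', hv', hv⟩ := shW_mul_mem V hW hWV hs x g
  have h0 : χ (v' : G) = 0 := by
    have := hWχ 1 _ hv'
    rw [one_mul] at this
    rw [this, pj_chi_one hχ]
  have h1 : χ (shW V x (g * s) : G) = χ (shW V x g : G) := by
    rw [hv, Subgroup.coe_mul, hχ, h0, add_zero]
  unfold pjM
  rw [hx, h1, hWχ g s hs]

lemma pjE_isLC (V : Subgroup G) [Fintype (G ⧸ V)] (hV : 𝓤.IsOpen V) {χ : G → ZMod p}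
    (hχ : IsSmChar 𝓤 χ) (y : C) : IsLC₁ 𝓤 (pjE V C χ y) := by
  obtain ⟨U₁, hU₁, hU₁V⟩ := hV
  obtain ⟨U₂, hU₂, hU₂χ⟩ := hχ.2
  obtain ⟨W, hW, hWle⟩ := 𝓤.directed U₁ hU₁ U₂ hU₂
  refine ⟨W, hW, fun g s hs => ?_⟩
  unfold pjE
  refine Finset.sum_congr rfl fun x _ => ?_
  rw [pjM_mul_of_mem (𝓤.normal W hW) (fun _ h => hU₁V (hWle h).1) hχ.1
    (fun g s hs => hU₂χ g s (hWle hs).2) x g hs]

/-- **Projection formula**, general form: `cor_V (y ∪ δ(χ|_V)) - (Σ_x s_x y) ∪ δχ = δ¹(-e)`. -/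
theorem pj_corC2_carryCo (V : Subgroup G) [Fintype (G ⧸ V)] (hV : 𝓤.IsOpen V) {χ : G → ZMod p}
    (hχ : IsSmChar 𝓤 χ) {y : C} (hy : Fix C V y) :
    (fun q => corC2 V C (UC.carryCo (Rep.res V.subtype C) (fun v => χ (v : G)) y) q
      - UC.carryCo C χ (∑ x : G ⧸ V, C.ρ (shSec V x) y) q) ∈ B2 𝓤 C := by
  rw [UC.mem_B2]
  refine ⟨fun g => -pjE V C χ y g, UC.isLC₁_neg (pjE_isLC V hV hχ y), ?_⟩
  funext q
  obtain ⟨g, h⟩ := q
  rw [δ1_apply, corC2_apply]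
  show C.ρ g (-pjE V C χ y h) - -pjE V C χ y (g * h) + -pjE V C χ y g
    = ∑ x : G ⧸ V, C.ρ (shSec V x)
        ((((χ (shW V x g : G)).val + (χ (shW V (g⁻¹ • x) h : G)).val) / p) • y)
      - (((χ g).val + (χ h).val) / p) • ∑ x : G ⧸ V, C.ρ (shSec V x) y
  have h1 : C.ρ g (pjE V C χ y h)
      = ∑ x : G ⧸ V, pjM V χ (g⁻¹ • x) h • C.ρ (shSec V x) y := by
    unfold pjE
    rw [map_sum, ← Equiv.sum_comp (MulAction.toPerm g : G ⧸ V ≃ G ⧸ V)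
      (fun x => pjM V χ (g⁻¹ • x) h • C.ρ (shSec V x) y)]
    refine Finset.sum_congr rfl fun x _ => ?_
    rw [map_zsmul, pj_rho_shSec V hy, MulAction.toPerm_apply, inv_smul_smul]
  rw [map_neg, h1, Finset.smul_sum, ← Finset.sum_sub_distrib]
  unfold pjE
  rw [sub_neg_eq_add, ← Finset.sum_neg_distrib, ← Finset.sum_add_distrib,
    ← sub_eq_add_neg, ← Finset.sum_sub_distrib]
  refine Finset.sum_congr rfl fun x _ => ?_
  rw [map_nsmul]
  exact (pj_term _ _ _ _ _ _ (pj_key V hχ.1 x g h)).symm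

/-- **Projection formula** (= `corC_carryCo` of `F4/Cf/Statements.lean`).  For a character `χ`
of `G`, a cyclic layer `V = ker ψ` of `G` generated by `σ`, and `y ∈ C^V`:
`cor_V (y ∪ δ(χ|_V)) ~ (N_{G/V} y) ∪ δχ`. -/
theorem corC_carryCo_pf (hC : IsSmooth 𝓤 C) {χ ψ : G → ZMod p} (hχ : IsSmChar 𝓤 χ)
    (hψ : IsSmChar 𝓤 ψ) {σ : G} (hσ : ψ σ = 1) [Fintype (G ⧸ charKer ψ hψ.1)]
    {y : C} (hy : Fix C (charKer ψ hψ.1) y) :
    (fun q => corC2 (charKer ψ hψ.1) C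
        (UC.carryCo (Rep.res (charKer ψ hψ.1).subtype C) (fun v => χ (v : G)) y) q
      - UC.carryCo C χ (cnorm C p σ y) q) ∈ B2 𝓤 C := by
  have _ := hC
  rw [pj_cnorm_eq_sum hψ.1 hσ hy]
  exact pj_corC2_carryCo (charKer ψ hψ.1) (pj_charKer_isOpen hψ) hχ hy

end Fermat.Agent.F4Cf
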