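import Fermat.Agent.F4.Loc.Cyclic

/-!
# F4 / Cf / CycMul : the cyclic layer with prime-to-`p` slack, multiplicative form
(seat ACF-2 of GLOB, helper71; statements of the seat are in `F4/Cf/Statements.lean`, the
additive translation is `F4/Cf/Cyc.lean`)

Variants of `Loc.infl_injective` and `Loc.infRes_step3` in which Hilbert 90 is replaced by the
hypothesis that the (finitely many) 1-cocycles that occur are coboundaries, and the two
consequences with slack:

* `cf_norm_of_cyc_slack` : `c_a = ∂s` and `(s|_H / s 1) ^ m` a coboundary, `p ∤ m`  ⇒  `a` is a norm;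
* `cf_exact_slack`       : `c` a 2-cocycle, `c|_H = ∂t`, `c ^ p = ∂s_p`, `H¹(H, M)` prime-to-`p`
                           torsion  ⇒  `c = c_a * ∂s`.
-/

set_option autoImplicit false
set_option linter.unusedSectionVars false
set_option linter.style.haveILetI false

open groupCohomology

namespace Fermat.Agent.F4Cf

open Fermat.Agent.F4.Loc

variable {Γ M : Type*} [Group Γ] [CommGroup M] [MulDistribMulAction Γ M]

/-! ### powers and quotients of cochains -/

theorem cf_mulD1_pow (s : Γ → M) (m : ℕ) : mulD1 (s ^ m) = mulD1 s ^ m := by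
  funext ⟨g, h⟩
  simp only [mulD1_apply, Pi.pow_apply, smul_pow']
  rw [mul_pow, div_pow]

theorem cf_mulD1_inv (s : Γ → M) : mulD1 s⁻¹ = (mulD1 s)⁻¹ := by
  funext ⟨g, h⟩
  simp only [mulD1_apply, Pi.inv_apply, smul_inv']
  exact (by intros; abel : ∀ a b c : Additive M, -a - -b + -c = -(a - b + c)) _ _ _

theorem cf_mulD1_div (s s' : Γ → M) : mulD1 (s / s') = mulD1 s / mulD1 s' := by
  rw [div_eq_mul_inv, mulD1_mul, cf_mulD1_inv, div_eq_mul_inv]

theorem cf_isConst1_pow {V : Subgroup Γ} {s : Γ → M} (hs : IsConst1 V s) (m : ℕ) :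
    IsConst1 V (s ^ m) := fun g v hv => by
  simp only [Pi.pow_apply, hs g v hv]

theorem cf_isConst1_mul {V : Subgroup Γ} {s s' : Γ → M} (hs : IsConst1 V s)
    (hs' : IsConst1 V s') : IsConst1 V (s * s') := fun g v hv => by
  simp only [Pi.mul_apply, hs g v hv, hs' g v hv]

theorem cf_isConst1_div {V : Subgroup Γ} {s s' : Γ → M} (hs : IsConst1 V s)
    (hs' : IsConst1 V s') : IsConst1 V (s / s') := fun g v hv => by
  simp only [Pi.div_apply, hs g v hv, hs' g v hv]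

theorem cf_isConst1_mono {V H : Subgroup Γ} (hVH : V ≤ H) {s : Γ → M} (hs : IsConst1 H s) :
    IsConst1 V s := fun g v hv => hs g v (hVH hv)

theorem cf_isInfl1_pow {V : Subgroup Γ} {s : Γ → M} (hs : IsInfl1 V s) (m : ℕ) :
    IsInfl1 V (s ^ m) :=
  ⟨cf_isConst1_pow hs.1 m, fun g h hh => by
    simp only [Pi.pow_apply, smul_pow', hs.2 g h hh]⟩

theorem cf_isInfl2_pow {V : Subgroup Γ} {c : Γ × Γ → M} (hc : IsInfl2 V c) (m : ℕ) :
    IsInfl2 V (c ^ m) :=
  ⟨fun g g' v v' hv hv' => by simp only [Pi.pow_apply, hc.1 g g' v v' hv hv'],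
    fun g g' h hh => by simp only [Pi.pow_apply, smul_pow', hc.2 g g' h hh]⟩

theorem cf_isMulCocycle₂_pow {c : Γ × Γ → M} (hc : IsMulCocycle₂ c) (m : ℕ) :
    IsMulCocycle₂ (c ^ m) := by
  intro g h j
  simp only [Pi.pow_apply, smul_pow', ← mul_pow, hc g h j]

theorem cf_cycCocycle_pow {n : ℕ} (χ : Γ →* Multiplicative (ZMod n)) (a : M) (m : ℕ) :
    cycCocycle χ (a ^ m) = cycCocycle χ a ^ m := by
  funext q
  simp only [cycCocycle, Pi.pow_apply, ← pow_mul, mul_comm]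

theorem cf_cycCocycle_div {n : ℕ} (χ : Γ →* Multiplicative (ZMod n)) (a b : M) :
    cycCocycle χ (a / b) = cycCocycle χ a / cycCocycle χ b := by
  funext q
  simp only [cycCocycle, Pi.div_apply, div_pow]

/-! ### the norm -/

theorem cf_cycNorm_mul (n : ℕ) (σ : Γ) (x y : M) :
    cycNorm n σ (x * y) = cycNorm n σ x * cycNorm n σ y := by
  simp only [cycNorm, smul_mul', Finset.prod_mul_distrib]

theorem cf_cycNorm_pow (n : ℕ) (σ : Γ) (x : M) (m : ℕ) :
    cycNorm n σ (x ^ m) = cycNorm n σ x ^ m := by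
  simp only [cycNorm, smul_pow', Finset.prod_pow]

theorem cf_cycNorm_inv (n : ℕ) (σ : Γ) (x : M) :
    cycNorm n σ x⁻¹ = (cycNorm n σ x)⁻¹ := by
  simp only [cycNorm, smul_inv', Finset.prod_inv_distrib]

theorem cf_cycNorm_div (n : ℕ) (σ : Γ) (x y : M) :
    cycNorm n σ (x / y) = cycNorm n σ x / cycNorm n σ y := by
  rw [div_eq_mul_inv, cf_cycNorm_mul, cf_cycNorm_inv, div_eq_mul_inv]

theorem cf_cycNorm_of_fixed (n : ℕ) (σ : Γ) (a : M) (ha : ∀ g : Γ, g • a = a) :
    cycNorm n σ a = a ^ n := by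
  simp only [cycNorm, ha, Finset.prod_const, Finset.card_range]

/-! ### injectivity of inflation, with an explicit coboundary hypothesis -/

/-- If `c = ∂s` is `H`-inflated, `h ↦ s h / s 1` is a 1-cocycle of `H`. -/
theorem cf_res_cocycle (H : Subgroup Γ) [H.Normal] (c : Γ × Γ → M) (hc : IsInfl2 H c)
    (s : Γ → M) (hcs : c = mulD1 s) : IsMulCocycle₁ (fun h : H => s h / s 1) := by
  have hce : c (1, 1) = s 1 := by
    rw [hcs, mulD1_apply, one_smul, one_mul, div_self', one_mul]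
  have hefix : ∀ h ∈ H, h • s 1 = s 1 := fun h hh => by rw [← hce]; exact hc.2 1 1 h hh
  have hcHH : ∀ h h' : Γ, h ∈ H → h' ∈ H → c (h, h') = s 1 := by
    intro h h' hh hh'
    have := hc.1 1 1 h h' hh hh'
    rw [one_mul, one_mul] at this
    rw [this, hce]
  intro h h'
  have h2 := hcHH h h' h.2 h'.2
  rw [hcs, mulD1_apply] at h2
  show s ((h : Γ) * (h' : Γ)) / s 1 = (h : Γ) • (s h' / s 1) * (s h / s 1)
  rw [smul_div', hefix h h.2]
  exact (by intro a b c d h; rw [← h]; abel :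
    ∀ a b c d : Additive M, a - b + c = d → b - d = (a - d) + (c - d)) _ _ _ _ h2

/-- **Inflation is injective** in degree 2, when the cocycle `s|_H / s 1` is the coboundary
of `x`. -/
theorem cf_infl_injective_of_cob (H : Subgroup Γ) [H.Normal] (c : Γ × Γ → M)
    (hc : IsInfl2 H c) (s : Γ → M) (hcs : c = mulD1 s) (x : M)
    (hx' : ∀ h ∈ H, h • x / x = s h / s 1) :
    ∃ s' : Γ → M, IsInfl1 H s' ∧ c = mulD1 s' := by
  set e : M := s 1 with he
  have hce : c (1, 1) = e := by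
    rw [hcs, mulD1_apply, one_smul, one_mul, div_self', one_mul]
  -- the new cochain
  set s' : Γ → M := fun g => s g * (x / g • x) with hs'
  have hcs' : c = mulD1 s' := by
    rw [hcs]
    funext ⟨g, h⟩
    simp only [mulD1_apply, hs', smul_mul', smul_div', mul_smul]
    exact (by intros; abel :
      ∀ a b c X Y Z : Additive M, a - b + c = (a + (Y - Z)) - (b + (X - Z)) + (c + (X - Y)))
      _ _ _ _ _ _
  have hs'H : ∀ h ∈ H, s' h = e := by
    intro h hh
    have := hx' h hh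
    show s h * (x / h • x) = e
    exact (by intro a b c d h; rw [sub_eq_iff_eq_add] at h; rw [h]; abel :
      ∀ a b c d : Additive M, a - b = c - d → c + (b - a) = d) _ _ _ _ this
  have hs'1 : s' 1 = e := hs'H 1 (one_mem _)
  have hconst' : IsConst1 H s' := by
    intro g h hh
    have h2 : c (g, h) = c (g, 1) := by
      have := hc.1 g 1 1 h (one_mem _) hh
      rw [mul_one, one_mul] at this
      exact this
    rw [hcs', mulD1_apply, mulD1_apply, hs'H h hh, hs'1, mul_one] at h2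
    exact (by intro a b c h
              have h3 := h
              rw [sub_add_cancel] at h3
              have h4 : a - b + c - a = 0 := by rw [h3]; abel
              have h5 : a - b + c - a = c - b := by abel
              rw [h5, sub_eq_zero] at h4
              exact h4.symm :
      ∀ a b c : Additive M, a - b + c = a - c + c → b = c) _ _ _ h2
  refine ⟨s', ⟨hconst', ?_⟩, hcs'⟩
  intro g h hh
  have h2 : c (h, g) = e := by
    have := hc.1 1 g h 1 hh (one_mem _)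
    rw [one_mul, mul_one] at this
    rw [this, hcs', mulD1_apply, one_smul, one_mul, div_self', one_mul, hs'1]
  rw [hcs', mulD1_apply, hs'H h hh] at h2
  have h3 : s' (h * g) = s' g := by
    have h4 : h * g = g * (g⁻¹ * h * g) := by group
    have h5 : g⁻¹ * h * g ∈ H := by
      simpa using Subgroup.Normal.conj_mem inferInstance h hh g⁻¹
    rw [h4, hconst' _ _ h5]
  rw [h3] at h2
  exact (by intro a b c h
            have h4 : a - b + c - c = 0 := by rw [h]; abel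
            have h5 : a - b + c - c = a - b := by abel
            rw [h5, sub_eq_zero] at h4
            exact h4 :
    ∀ a b c : Additive M, a - b + c = c → a = b) _ _ _ h2

/-! ### step 3 of inflation–restriction, with explicit coboundary hypotheses -/

/-- For a 2-cocycle trivial on `Γ × H`, `w ↦ c₂ (w, g)` is a 1-cocycle of `H`. -/
theorem cf_step3_cocycle (H : Subgroup Γ) [H.Normal] (c₂ : Γ × Γ → M) (hc : IsMulCocycle₂ c₂)
    (hr : ∀ g w, w ∈ H → c₂ (g, w) = 1) (g : Γ) :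
    IsMulCocycle₁ (fun w : H => c₂ ((w : Γ), g)) := by
  have h2 : ∀ x y w, w ∈ H → c₂ (x, y * w) = c₂ (x, y) := by
    intro x y w hw
    have := hc x y w
    rw [hr _ _ hw, hr _ _ hw, smul_one, one_mul, one_mul] at this
    exact this.symm
  have hconj : ∀ (w g : Γ), w ∈ H → g⁻¹ * w * g ∈ H := fun w g hw => by
    simpa using Subgroup.Normal.conj_mem (inferInstance : H.Normal) w hw g⁻¹
  have h2' : ∀ x y w, w ∈ H → c₂ (x, w * y) = c₂ (x, y) := by
    intro x y w hw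
    have h3 : w * y = y * (y⁻¹ * w * y) := by group
    rw [h3, h2 _ _ _ (hconj w y hw)]
  intro w w'
  have := hc w w' g
  rw [hr _ _ w'.2, mul_one, h2' _ _ _ w'.2] at this
  exact this

/-- For a 2-cocycle trivial on `Γ × H`, `c₂ (x, y)` depends only on `y H`. -/
theorem cf_step3_dep (H : Subgroup Γ) (c₂ : Γ × Γ → M) (hc : IsMulCocycle₂ c₂)
    (hr : ∀ g w, w ∈ H → c₂ (g, w) = 1) (x y w : Γ) (hw : w ∈ H) :
    c₂ (x, y * w) = c₂ (x, y) := by
  have := hc x y w
  rw [hr _ _ hw, hr _ _ hw, smul_one, one_mul, one_mul] at this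
  exact this.symm

/-- Step 3 of inflation–restriction, when the cocycles `w ↦ c₂ (w, g)` are coboundaries. -/
theorem cf_infRes_step3_of_cob (H V : Subgroup Γ) [H.Normal] [V.Normal] (hVH : V ≤ H)
    (c₂ : Γ × Γ → M) (hc : IsMulCocycle₂ c₂) (hcV : IsInfl2 V c₂)
    (hr : ∀ g w, w ∈ H → c₂ (g, w) = 1)
    (hex : ∀ g : Γ, ∃ x : M, ∀ w : H, (w : Γ) • x / x = c₂ (w, g)) :
    ∃ s₃ : Γ → M, IsInfl1 V s₃ ∧ (∀ g w, w ∈ H → (c₂ * mulD1 s₃) (g, w) = 1) ∧
      ∀ g w, w ∈ H → (c₂ * mulD1 s₃) (w, g) = 1 := by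
  classical
  obtain ⟨r, hr1, hr2, hr3⟩ := exists_transversal H
  have h2 : ∀ x y w, w ∈ H → c₂ (x, y * w) = c₂ (x, y) := fun x y w hw =>
    cf_step3_dep H c₂ hc hr x y w hw
  have hconj : ∀ (w g : Γ), w ∈ H → g⁻¹ * w * g ∈ H := fun w g hw => by
    simpa using Subgroup.Normal.conj_mem (inferInstance : H.Normal) w hw g⁻¹
  choose X hX using hex
  set m : Γ → M := fun g => if g ∈ H then 1 else X (r g) with hm
  have hmH : ∀ g, g ∈ H → m g = 1 := fun g hg => by simp only [hm, hg, if_true]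
  have hm1 : ∀ g w, w ∈ H → m (g * w) = m g := by
    intro g w hw
    have e1 : g * w ∈ H ↔ g ∈ H := Subgroup.mul_mem_cancel_right H hw
    simp only [hm, e1, hr3 g w hw]
  have hm2 : ∀ g w, w ∈ H → w • m g / m g = c₂ (w, g) := by
    intro g w hw
    by_cases hg : g ∈ H
    · rw [hmH g hg, smul_one, div_one, hr _ _ hg]
    · have e1 : m g = X (r g) := by simp only [hm, hg, if_false]
      have e2 := hX (r g) ⟨w, hw⟩
      have e3 : c₂ (w, g) = c₂ (w, r g) := by
        have := h2 w (r g) _ (hr2 g)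
        rw [mul_inv_cancel_left] at this
        exact this
      rw [e1, e2, e3]
  have hc11 : c₂ (1, 1) = 1 := hr 1 1 (one_mem _)
  have hm4 : ∀ g v, v ∈ V → v • m g = m g := by
    intro g v hv
    have e1 := hm2 g v (hVH hv)
    have e2 : c₂ (v, g) = 1 := by
      have := hcV.1 1 g v 1 hv (one_mem _)
      rw [one_mul, mul_one] at this
      rw [this, IsMulCocycle₂_one_left hc, hc11]
    rw [e2, div_eq_one] at e1
    exact e1
  refine ⟨fun g => (m g)⁻¹, ⟨?_, ?_⟩, ?_, ?_⟩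
  · intro g v hv
    show (m (g * v))⁻¹ = (m g)⁻¹
    rw [hm1 g v (hVH hv)]
  · intro g v hv
    show v • (m g)⁻¹ = (m g)⁻¹
    rw [smul_inv', hm4 g v hv]
  · intro g w hw
    simp only [Pi.mul_apply, mulD1_apply]
    rw [hr g w hw, hm1 g w hw, hmH w hw, inv_one, smul_one]
    exact (by intros; abel : ∀ a : Additive M, 0 + (0 - -a + -a) = 0) _
  · intro g w hw
    simp only [Pi.mul_apply, mulD1_apply]
    have e1 : m (w * g) = m g := by
      have h3 : w * g = g * (g⁻¹ * w * g) := by group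
      rw [h3, hm1 _ _ (hconj w g hw)]
    rw [e1, hmH w hw, inv_one, smul_inv', ← hm2 g w hw]
    exact (by intros; abel : ∀ a b : Additive M, (a - b) + (-a - -b + 0) = 0) _ _

/-! ### the two statements with slack -/

/-- `m u = p k + 1` for some `u, k`, when `p` is prime and `p ∤ m`. -/
theorem cf_bezout {p : ℕ} (hp : p.Prime) {m : ℕ} (hm : ¬ p ∣ m) :
    ∃ u k : ℕ, m * u = p * k + 1 := by
  have hcop : Nat.Coprime m p := ((Nat.Prime.coprime_iff_not_dvd hp).2 hm).symm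
  obtain ⟨u, -, hu⟩ := Nat.exists_mul_mod_eq_one_of_coprime hcop hp.one_lt
  refine ⟨u, m * u / p, ?_⟩
  have := Nat.div_add_mod (m * u) p
  omega

/-- **Injectivity with slack.**  If the cyclic cocycle of `a ∈ M^Γ` is `∂s` and the `m`-th power
of the 1-cocycle `s|_H / s 1` of `H = ker χ` is a coboundary, `p ∤ m`, then `a` is a norm. -/
theorem cf_norm_of_cyc_slack {p : ℕ} [Fact p.Prime] (χ : Γ →* Multiplicative (ZMod p)) (σ : Γ)
    (hσ : χ σ = Multiplicative.ofAdd 1) (a : M) (ha : ∀ g : Γ, g • a = a)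
    (s : Γ → M) (hcs : cycCocycle χ a = mulD1 s) (m : ℕ) (hm : ¬ p ∣ m) (x : M)
    (hx : ∀ h ∈ χ.ker, h • x / x = (s h / s 1) ^ m) :
    ∃ y : M, (∀ h ∈ χ.ker, h • y = y) ∧ a = cycNorm p σ y := by
  have hp := (Fact.out : p.Prime)
  haveI : NeZero p := ⟨hp.ne_zero⟩
  have ham : ∀ g : Γ, g • a ^ m = a ^ m := fun g => by rw [smul_pow', ha]
  have hcs' : cycCocycle χ (a ^ m) = mulD1 (s ^ m) := by
    rw [cf_cycCocycle_pow, hcs, cf_mulD1_pow]
  obtain ⟨s', hs', hc'⟩ := cf_infl_injective_of_cob χ.ker _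
    (cycCocycle_isInfl2 χ (a ^ m) ham) (s ^ m) hcs' x (fun h hh => by
      rw [hx h hh]; simp only [Pi.pow_apply, div_pow])
  obtain ⟨y', hy', hay'⟩ := norm_of_cycCocycle_eq_mulD1 χ σ hσ (a ^ m) ham s' hs' hc'
  obtain ⟨u, k, hk⟩ := cf_bezout hp hm
  refine ⟨y' ^ u / a ^ k, ?_, ?_⟩
  · intro h hh
    rw [smul_div', smul_pow', smul_pow', hy' h hh, ha]
  · rw [cf_cycNorm_div, cf_cycNorm_pow, cf_cycNorm_pow, ← hay', cf_cycNorm_of_fixed p σ a ha,
      ← pow_mul, ← pow_mul, hk, pow_succ, mul_div_cancel_left]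

/-- **Exactness with slack.**  Let `H = ker χ`, `V ≤ H` a level.  A `V`-constant 2-cocycle `c`
whose restriction to `H` is a coboundary and whose `p`-th power is a coboundary is a cyclic
cocycle times a coboundary, provided `H¹(H, M)` is torsion prime to `p`. -/
theorem cf_exact_slack {p : ℕ} [Fact p.Prime] (χ : Γ →* Multiplicative (ZMod p)) (σ : Γ)
    (hσ : χ σ = Multiplicative.ofAdd 1) (H : Subgroup Γ) (hH : H = χ.ker)
    (V : Subgroup Γ) [V.Normal] (hVH : V ≤ H)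
    (hsl : ∀ t : H → M, IsMulCocycle₁ t →
      (∀ h v : H, (v : Γ) ∈ V → t (h * v) = t h) →
      ∃ m : ℕ, ¬ p ∣ m ∧ ∃ x : M, ∀ h : H, (h : Γ) • x / x = t h ^ m)
    (c : Γ × Γ → M) (hc : IsMulCocycle₂ c) (hcV : IsConst2 V c)
    (t : H → M) (ht : ∀ h v : H, (v : Γ) ∈ V → t (h * v) = t h)
    (hct : ∀ h h' : H, c (h, h') = (h : Γ) • t h' / t (h * h') * t h)
    (sp : Γ → M) (hsp : IsConst1 V sp) (hcp : c ^ p = mulD1 sp) :
    ∃ (a : M) (s : Γ → M), (∀ g : Γ, g • a = a) ∧ IsConst1 V s ∧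
      c = cycCocycle χ a * mulD1 s := by
  subst hH
  have hp := (Fact.out : p.Prime)
  haveI : NeZero p := ⟨hp.ne_zero⟩
  -- steps 1 and 2
  obtain ⟨s₁, hs₁, h11⟩ := infRes_step1 χ.ker V hVH c hcV t ht hct
  have hc₁ : IsMulCocycle₂ (c * mulD1 s₁) := isMulCocycle₂_mul hc (isMulCocycle₂_mulD1 s₁)
  have hcV₁ : IsInfl2 V (c * mulD1 s₁) := (isInfl2_of_isConst2 hc hcV).mul hs₁.mulD1
  obtain ⟨s₂, hs₂, hr₂⟩ := infRes_step2 χ.ker V hVH _ hc₁ hcV₁ h11
  have hc₂ : IsMulCocycle₂ (c * mulD1 s₁ * mulD1 s₂) :=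
    isMulCocycle₂_mul hc₁ (isMulCocycle₂_mulD1 s₂)
  have hcV₂ : IsInfl2 V (c * mulD1 s₁ * mulD1 s₂) := hcV₁.mul hs₂.mulD1
  set c₂ : Γ × Γ → M := c * mulD1 s₁ * mulD1 s₂ with hc₂def
  -- the slack
  have hslg : ∀ g : Γ, ∃ m : ℕ, ¬ p ∣ m ∧ ∃ x : M, ∀ w : χ.ker,
      (w : Γ) • x / x = c₂ ((w : Γ), g) ^ m := fun g =>
    hsl _ (cf_step3_cocycle χ.ker c₂ hc₂ hr₂ g) (fun h v hv => by
      have := hcV₂.1 h g v 1 hv (one_mem _)
      rw [mul_one] at this
      exact this)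
  choose mm hmm X hX using hslg
  set m : ℕ := ∏ i ∈ Finset.range p, mm (σ ^ i) with hmdef
  have hm : ¬ p ∣ m := by
    intro hdvd
    obtain ⟨i, -, hi⟩ := (Prime.dvd_finsetProd_iff (Nat.Prime.prime hp) _).1 hdvd
    exact hmm _ hi
  have hex : ∀ g : Γ, ∃ x : M, ∀ w : χ.ker, (w : Γ) • x / x = (c₂ ^ m) ((w : Γ), g) := by
    intro g
    have hi : cycExp χ g ∈ Finset.range p := Finset.mem_range.2 (cycExp_lt χ g)
    obtain ⟨m', hm'⟩ := Finset.dvd_prod_of_mem (fun i => mm (σ ^ i)) hi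
    refine ⟨X (σ ^ cycExp χ g) ^ m', fun w => ?_⟩
    have e1 : c₂ ((w : Γ), g) = c₂ ((w : Γ), σ ^ cycExp χ g) := by
      have := cf_step3_dep χ.ker c₂ hc₂ hr₂ (w : Γ) (σ ^ cycExp χ g) _ (cyc_decomp (χ := χ) hσ g)
      rw [mul_inv_cancel_left] at this
      exact this
    rw [Pi.pow_apply, e1, smul_pow', ← div_pow, hX, ← pow_mul, hmdef, hm']
  -- step 3 for `c₂ ^ m`
  obtain ⟨s₃, hs₃, hr₃, hl₃⟩ := cf_infRes_step3_of_cob χ.ker V hVH (c₂ ^ m)
    (cf_isMulCocycle₂_pow hc₂ m) (cf_isInfl2_pow hcV₂ m)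
    (fun g w hw => by rw [Pi.pow_apply, hr₂ g w hw, one_pow]) hex
  have hc₃ : IsMulCocycle₂ (c₂ ^ m * mulD1 s₃) :=
    isMulCocycle₂_mul (cf_isMulCocycle₂_pow hc₂ m) (isMulCocycle₂_mulD1 s₃)
  have hinf₃ : IsInfl2 χ.ker (c₂ ^ m * mulD1 s₃) := isInfl2_of_trivial χ.ker hc₃ hr₃ hl₃
  -- normal form
  obtain ⟨a', s₄, ha', hs₄, h4⟩ := exists_cycCocycle_mul_mulD1 χ σ hσ _ hc₃ hinf₃
  have e1 : c ^ m = cycCocycle χ a' * mulD1 (s₄ / (s₁ ^ m * s₂ ^ m * s₃)) := by
    rw [cf_mulD1_div, mulD1_mul, mulD1_mul, cf_mulD1_pow, cf_mulD1_pow, ← mul_div_assoc, ← h4,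
      hc₂def, mul_pow, mul_pow]
    exact (by intros; abel : ∀ A B C D : Additive (Γ × Γ → M),
      A = (A + B + C + D) - (B + C + D)) _ _ _ _
  obtain ⟨u, k, hk⟩ := cf_bezout hp hm
  have e2 : c = (c ^ m) ^ u / (c ^ p) ^ k := by
    rw [← pow_mul, ← pow_mul, hk, pow_succ, mul_div_cancel_left]
  refine ⟨a' ^ u, (s₄ / (s₁ ^ m * s₂ ^ m * s₃)) ^ u / sp ^ k,
    fun g => by rw [smul_pow', ha'], ?_, ?_⟩
  · refine cf_isConst1_div (cf_isConst1_pow (cf_isConst1_div (cf_isConst1_mono hVH hs₄.1)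
      (cf_isConst1_mul (cf_isConst1_mul (cf_isConst1_pow hs₁.1 m) (cf_isConst1_pow hs₂.1 m))
        hs₃.1)) u) (cf_isConst1_pow hsp k)
  · conv_lhs => rw [e2, e1, hcp]
    rw [mul_pow, ← cf_cycCocycle_pow, ← cf_mulD1_pow, ← cf_mulD1_pow, mul_div_assoc,
      ← cf_mulD1_div]

end Fermat.Agent.F4Cf
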