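import Fermat.Agent.F4.Cf.Defs
import Fermat.Agent.F4.Cf.CycMul

/-!
# F4 / Cf / Cyc : the cyclic layer of an abstract class formation mod `p` (seat ACF-2)
(helper71; the statements are those of `F4/Cf/Statements.lean`, with the hypothesis
`h : PCF p 𝓤 C U₀` replaced by what is used: Hilbert 90 with slack for `V = ker χ`)

* `carryCo_of_norm_pf` : the cyclic cocycle of a norm is a smooth coboundary;
* `carryCo_inj_pf`     : if the cyclic cocycle of `x ∈ C^G` is a smooth coboundary, `x` is a norm;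
* `carryCo_exact_pf`   : a `p`-torsion class whose restriction to `ker χ` vanishes is cyclic.

Proofs: translation to the multiplicative module `Multiplicative C` and `F4/Cf/CycMul.lean`
(= `F4/Loc/InfRes.lean`, `F4/Loc/Cyclic.lean` with prime-to-`p` slack).
-/

set_option autoImplicit false
set_option linter.unusedSectionVars false
set_option linter.unusedVariables false
set_option linter.style.haveILetI false

open CategoryTheory groupCohomology

namespace Fermat.Agent.F4Cf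

open Fermat.Agent.F4 Fermat.Agent.F4.Loc

variable {G : Type} [Group G]

/-- The multiplicative `G`-module attached to `C`. -/
@[reducible] def cfMulAct (C : Rep.{0} ℤ G) : MulDistribMulAction G (Multiplicative C) where
  smul g x := Multiplicative.ofAdd (C.ρ g (Multiplicative.toAdd x))
  one_smul x := by
    show Multiplicative.ofAdd (C.ρ 1 (Multiplicative.toAdd x)) = x
    simp
  mul_smul g h x := by
    show Multiplicative.ofAdd (C.ρ (g * h) _) = Multiplicative.ofAdd (C.ρ g (C.ρ h _))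
    simp [map_mul]
  smul_mul g x y := by
    show Multiplicative.ofAdd (C.ρ g (Multiplicative.toAdd (x * y))) =
      Multiplicative.ofAdd (C.ρ g (Multiplicative.toAdd x)) *
        Multiplicative.ofAdd (C.ρ g (Multiplicative.toAdd y))
    rw [toAdd_mul, map_add, ofAdd_add]
  smul_one g := by
    show Multiplicative.ofAdd (C.ρ g 0) = 1
    simp

attribute [local instance] cfMulAct

variable {p : ℕ} {𝓤 : Levels G} {C : Rep.{0} ℤ G}

/-! ### characters -/

theorem cf_char_one {χ : G → ZMod p} (hχ : ∀ g h : G, χ (g * h) = χ g + χ h) : χ 1 = 0 := by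
  have h := hχ 1 1
  rw [mul_one] at h
  have h2 : χ 1 + 0 = χ 1 + χ 1 := by rw [add_zero]; exact h
  exact (add_left_cancel h2).symm

/-- The multiplicative character attached to an additive one. -/
def cfChar (χ : G → ZMod p) (hχ : ∀ g h : G, χ (g * h) = χ g + χ h) :
    G →* Multiplicative (ZMod p) where
  toFun g := Multiplicative.ofAdd (χ g)
  map_one' := by
    show Multiplicative.ofAdd (χ 1) = 1
    rw [cf_char_one hχ]
    rfl
  map_mul' g h := by
    show Multiplicative.ofAdd (χ (g * h)) = Multiplicative.ofAdd (χ g) * Multiplicative.ofAdd (χ h)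
    rw [hχ]
    rfl

theorem cfChar_ker (χ : G → ZMod p) (hχ : ∀ g h : G, χ (g * h) = χ g + χ h) :
    (cfChar χ hχ).ker = charKer χ hχ := by
  ext g
  rw [MonoidHom.mem_ker]
  show Multiplicative.ofAdd (χ g) = 1 ↔ χ g = 0
  exact ofAdd_eq_one

theorem cf_charKer_normal (χ : G → ZMod p) (hχ : ∀ g h : G, χ (g * h) = χ g + χ h) :
    (charKer χ hχ).Normal := by
  rw [← cfChar_ker]
  infer_instance

theorem cf_exists_level_le_charKer {χ : G → ZMod p} (hχ : IsSmChar 𝓤 χ) :
    ∃ U ∈ 𝓤.sets, U ≤ charKer χ hχ.1 := by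
  obtain ⟨U, hU, h⟩ := hχ.2
  refine ⟨U, hU, fun s hs => ?_⟩
  have := h 1 s hs
  rw [one_mul, cf_char_one hχ.1] at this
  exact this

/-- The kernel of a smooth character is open. -/
theorem cf_isOpen_charKer {χ : G → ZMod p} (hχ : IsSmChar 𝓤 χ) :
    𝓤.IsOpen (charKer χ hχ.1) := cf_exists_level_le_charKer hχ

/-! ### dictionary -/

theorem cf_toAdd_cycNorm (σ : G) (y : Multiplicative C) :
    Multiplicative.toAdd (cycNorm p σ y) = cnorm C p σ (Multiplicative.toAdd y) := by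
  unfold cycNorm cnorm
  rw [toAdd_prod]
  rfl

theorem cf_mem_B1_iff (A : Rep.{0} ℤ G) (c : G → A) :
    c ∈ B1 A ↔ ∃ x : A, ∀ g, A.ρ g x - x = c g := by
  rw [UC.mem_B1]
  constructor
  · rintro ⟨x, hx⟩
    exact ⟨x, fun g => congrFun hx g⟩
  · rintro ⟨x, hx⟩
    exact ⟨x, funext hx⟩

/-- Hilbert 90 with slack for a subgroup, in multiplicative form. -/
theorem cf_slack_mul (H V : Subgroup G) (hV : V ∈ 𝓤.sets)
    (h1 : H1slack p (𝓤.sub H) (Rep.res H.subtype C))
    (t : H → Multiplicative C) (ht : IsMulCocycle₁ t)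
    (htV : ∀ h v : H, (v : G) ∈ V → t (h * v) = t h) :
    ∃ m : ℕ, ¬ p ∣ m ∧ ∃ x : Multiplicative C, ∀ h : H, (h : G) • x / x = t h ^ m := by
  have hZ : (fun h : H => Multiplicative.toAdd (t h)) ∈
      Z1 (𝓤.sub H) (Rep.res H.subtype C) := by
    rw [UC.mem_Z1]
    refine ⟨?_, ⟨V.comap H.subtype, ⟨V, hV, rfl⟩, fun g s hs => ?_⟩⟩
    · funext q
      obtain ⟨g, h⟩ := q
      have := congrArg Multiplicative.toAdd (ht g h)
      show C.ρ (g : G) (Multiplicative.toAdd (t h)) - Multiplicative.toAdd (t (g * h))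
        + Multiplicative.toAdd (t g) = 0
      rw [this]
      show C.ρ (g : G) (Multiplicative.toAdd (t h))
        - (C.ρ (g : G) (Multiplicative.toAdd (t h)) + Multiplicative.toAdd (t g))
        + Multiplicative.toAdd (t g) = 0
      abel
    · show Multiplicative.toAdd (t (g * s)) = Multiplicative.toAdd (t g)
      rw [htV g s hs]
  obtain ⟨m, hm, hB⟩ := h1 _ hZ
  obtain ⟨x, hx⟩ := (cf_mem_B1_iff _ _).1 hB
  exact ⟨m, hm, Multiplicative.ofAdd x, fun h => congrArg Multiplicative.ofAdd (hx h)⟩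

/-! ### the three statements of the seat -/

variable [Fact p.Prime]

/-- The cyclic cocycle of a norm is a smooth coboundary. -/
theorem carryCo_of_norm_pf (hC : IsSmooth 𝓤 C) {χ : G → ZMod p} (hχ : IsSmChar 𝓤 χ) {σ : G}
    (hσ : χ σ = 1) {y : C} (hy : Fix C (charKer χ hχ.1) y) :
    UC.carryCo C χ (cnorm C p σ y) ∈ B2 𝓤 C := by
  haveI : NeZero p := ⟨(Fact.out : p.Prime).ne_zero⟩
  obtain ⟨U, hU, hUle⟩ := cf_exists_level_le_charKer hχ
  have hσm : cfChar χ hχ.1 σ = Multiplicative.ofAdd 1 := by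
    show Multiplicative.ofAdd (χ σ) = Multiplicative.ofAdd 1
    rw [hσ]
  obtain ⟨s, hs, hcs⟩ := cycCocycle_eq_mulD1_of_norm (cfChar χ hχ.1) σ hσm
    (Multiplicative.ofAdd y) (fun h hh => by
      rw [cfChar_ker] at hh
      exact congrArg Multiplicative.ofAdd (hy h hh))
  rw [UC.mem_B2]
  refine ⟨fun g => Multiplicative.toAdd (s g), ⟨U, hU, fun g u hu => ?_⟩, ?_⟩
  · show Multiplicative.toAdd (s (g * u)) = Multiplicative.toAdd (s g)
    rw [hs.1 g u (by rw [cfChar_ker]; exact hUle hu)]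
  · funext q
    have h1 := congrArg Multiplicative.toAdd (congrFun hcs q)
    have h2 : cycNorm p σ (Multiplicative.ofAdd y) = Multiplicative.ofAdd (cnorm C p σ y) :=
      congrArg Multiplicative.ofAdd (cf_toAdd_cycNorm σ (Multiplicative.ofAdd y))
    rw [h2] at h1
    exact h1.symm

/-- **T2a, injectivity.**  If the cyclic cocycle of `x ∈ C^G` is a smooth coboundary, then `x`
is a norm from the cyclic layer of `χ` (given Hilbert 90 with slack for `ker χ`). -/
theorem carryCo_inj_pf {χ : G → ZMod p} (hχ : IsSmChar 𝓤 χ)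
    (h1 : H1slack p (𝓤.sub (charKer χ hχ.1)) (Rep.res (charKer χ hχ.1).subtype C))
    {σ : G} (hσ : χ σ = 1) {x : C} (hx : Fix C ⊤ x) (hcob : UC.carryCo C χ x ∈ B2 𝓤 C) :
    IsNormFrom C p (charKer χ hχ.1) σ x := by
  haveI : NeZero p := ⟨(Fact.out : p.Prime).ne_zero⟩
  obtain ⟨e, ⟨U, hU, hUe⟩, he⟩ := (UC.mem_B2 𝓤 C _).1 hcob
  have hker : (cfChar χ hχ.1).ker = charKer χ hχ.1 := cfChar_ker _ _
  haveI : (charKer χ hχ.1).Normal := cf_charKer_normal _ _
  have hσm : cfChar χ hχ.1 σ = Multiplicative.ofAdd 1 := by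
    show Multiplicative.ofAdd (χ σ) = Multiplicative.ofAdd 1
    rw [hσ]
  have ha : ∀ g : G, g • (Multiplicative.ofAdd x) = Multiplicative.ofAdd x := fun g =>
    congrArg Multiplicative.ofAdd (hx g (Subgroup.mem_top g))
  have hcs : cycCocycle (cfChar χ hχ.1) (Multiplicative.ofAdd x)
      = mulD1 (fun g => Multiplicative.ofAdd (e g)) := by
    funext q
    exact congrArg Multiplicative.ofAdd (congrFun he q).symm
  have hinfl : IsInfl2 (charKer χ hχ.1) (cycCocycle (cfChar χ hχ.1) (Multiplicative.ofAdd x)) := by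
    rw [← hker]
    exact cycCocycle_isInfl2 _ _ ha
  have hcoc := cf_res_cocycle (charKer χ hχ.1) _ hinfl _ hcs
  obtain ⟨m, hm, X, hX⟩ := cf_slack_mul (charKer χ hχ.1) U hU h1 _ hcoc (fun h v hv => by
    show Multiplicative.ofAdd (e ((h : G) * (v : G))) / Multiplicative.ofAdd (e 1)
      = Multiplicative.ofAdd (e (h : G)) / Multiplicative.ofAdd (e 1)
    rw [hUe _ _ hv])
  obtain ⟨y, hy, hay⟩ := cf_norm_of_cyc_slack (cfChar χ hχ.1) σ hσm (Multiplicative.ofAdd x) ha
    (fun g => Multiplicative.ofAdd (e g)) hcs m hm X (fun h hh => hX ⟨h, hker ▸ hh⟩)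
  refine ⟨Multiplicative.toAdd y, fun g hg => ?_, ?_⟩
  · exact congrArg Multiplicative.toAdd (hy g (hker.symm ▸ hg))
  · have := congrArg Multiplicative.toAdd hay
    rw [cf_toAdd_cycNorm] at this
    exact this

/-- **T2a, exactness.**  A `p`-torsion class whose restriction to `V = ker χ` vanishes is a
cyclic class of `χ` (given Hilbert 90 with slack for `ker χ`). -/
theorem carryCo_exact_pf {χ : G → ZMod p} (hχ : IsSmChar 𝓤 χ)
    (h1 : H1slack p (𝓤.sub (charKer χ hχ.1)) (Rep.res (charKer χ hχ.1).subtype C))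
    {σ : G} (hσ : χ σ = 1) {w : G × G → C} (hw : w ∈ Z2 𝓤 C)
    (hpw : (fun q => (p : ℤ) • w q) ∈ B2 𝓤 C)
    (hres : (fun q : ↥(charKer χ hχ.1) × ↥(charKer χ hχ.1) => w ((q.1 : G), (q.2 : G)))
      ∈ B2 (𝓤.sub (charKer χ hχ.1)) (Rep.res (charKer χ hχ.1).subtype C)) :
    ∃ x : C, Fix C ⊤ x ∧ (fun q => w q - UC.carryCo C χ x q) ∈ B2 𝓤 C := by
  haveI : NeZero p := ⟨(Fact.out : p.Prime).ne_zero⟩
  obtain ⟨U₁, hU₁, hw₁⟩ := hw.2
  obtain ⟨sp, ⟨U₂, hU₂, hsp⟩, hsp'⟩ := (UC.mem_B2 𝓤 C _).1 hpw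
  obtain ⟨t, ⟨U₃', ⟨U₃, hU₃, rfl⟩, ht⟩, ht'⟩ := (UC.mem_B2 _ _ _).1 hres
  obtain ⟨U₄, hU₄, hU₄le⟩ := cf_exists_level_le_charKer hχ
  obtain ⟨W₁, hW₁, hW₁le⟩ := 𝓤.directed U₁ hU₁ U₂ hU₂
  obtain ⟨W₂, hW₂, hW₂le⟩ := 𝓤.directed U₃ hU₃ U₄ hU₄
  obtain ⟨W, hW, hWle⟩ := 𝓤.directed W₁ hW₁ W₂ hW₂
  haveI : W.Normal := 𝓤.normal W hW
  have hWU₁ : W ≤ U₁ := fun g hg => (hW₁le (hWle hg).1).1
  have hWU₂ : W ≤ U₂ := fun g hg => (hW₁le (hWle hg).1).2
  have hWU₃ : W ≤ U₃ := fun g hg => (hW₂le (hWle hg).2).1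
  have hWH : W ≤ charKer χ hχ.1 := fun g hg => hU₄le (hW₂le (hWle hg).2).2
  have hσm : cfChar χ hχ.1 σ = Multiplicative.ofAdd 1 := by
    show Multiplicative.ofAdd (χ σ) = Multiplicative.ofAdd 1
    rw [hσ]
  have hc : IsMulCocycle₂ (M := Multiplicative C) (fun q => Multiplicative.ofAdd (w q)) := by
    intro g h j
    exact congrArg Multiplicative.ofAdd ((mem_cocycles₂_iff w).1 hw.1 g h j)
  have hcV : IsConst2 W (fun q : G × G => Multiplicative.ofAdd (w q)) := fun g g' v v' hv hv' =>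
    congrArg Multiplicative.ofAdd (hw₁ g g' v v' (hWU₁ hv) (hWU₁ hv'))
  have htm : ∀ h v : charKer χ hχ.1, (v : G) ∈ W →
      (fun h : charKer χ hχ.1 => Multiplicative.ofAdd (t h)) (h * v)
        = (fun h : charKer χ hχ.1 => Multiplicative.ofAdd (t h)) h := fun h v hv =>
    congrArg Multiplicative.ofAdd (ht h v (hWU₃ hv))
  have hct : ∀ h h' : charKer χ hχ.1,
      (fun q : G × G => Multiplicative.ofAdd (w q)) ((h : G), (h' : G))
        = (h : G) • (fun h : charKer χ hχ.1 => Multiplicative.ofAdd (t h)) h'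
          / (fun h : charKer χ hχ.1 => Multiplicative.ofAdd (t h)) (h * h')
          * (fun h : charKer χ hχ.1 => Multiplicative.ofAdd (t h)) h := fun h h' =>
    congrArg Multiplicative.ofAdd (congrFun ht' (h, h')).symm
  have hspm : IsConst1 W (fun g : G => Multiplicative.ofAdd (sp g)) := fun g v hv =>
    congrArg Multiplicative.ofAdd (hsp g v (hWU₂ hv))
  have hcp : (fun q : G × G => Multiplicative.ofAdd (w q)) ^ p
      = mulD1 (fun g : G => Multiplicative.ofAdd (sp g)) := by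
    funext q
    have := congrFun hsp' q
    rw [natCast_zsmul] at this
    exact congrArg Multiplicative.ofAdd this.symm
  obtain ⟨a, s, ha, hs, hcas⟩ := cf_exact_slack (cfChar χ hχ.1) σ hσm (charKer χ hχ.1)
    (cfChar_ker _ _).symm W hWH (cf_slack_mul (charKer χ hχ.1) W hW h1) _ hc hcV _ htm hct _
    hspm hcp
  refine ⟨Multiplicative.toAdd a, fun g _ => congrArg Multiplicative.toAdd (ha g), ?_⟩
  rw [UC.mem_B2]
  refine ⟨fun g => Multiplicative.toAdd (s g), ⟨W, hW, fun g u hu =>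
    congrArg Multiplicative.toAdd (hs g u hu)⟩, ?_⟩
  funext q
  have h3 : w q = UC.carryCo C χ (Multiplicative.toAdd a) q
      + δ1 C (fun g => Multiplicative.toAdd (s g)) q :=
    congrArg Multiplicative.toAdd (congrFun hcas q)
  rw [h3]
  abel

end Fermat.Agent.F4Cf
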