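import Fermat.Agent.F4.Cf.Defs
import Fermat.Agent.F4.Loc.Datum.CycloLevel
import Fermat.Agent.F4.Loc.Unram
import Fermat.Agent.F4.Loc.Base

/-!
# F4 / Cf / CycLayer : seat R-C1a — the cyclotomic layer at a prime `q ≠ p`
(owner helper13; input of `dict_local`, case `q ≠ p`)

`χ = modChar n : G_ℚ → (ℤ/n)ˣ` (`n = p ^ k`), `u = q mod n`, `D_q` = the image of the local Galois
group at `q` (`primeLocalToGlobal q`).

* `cyl_local_pow`      : `χ(D_q) ⊆ ⟨u⟩`            (`ℚ_q(μ_n)/ℚ_q` is unramified, `unram_frob`);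
* `cyl_exists_frob`    : `∃ τ₀, χ (τ₀) = u`         (Frobenius, `unr1_exists_frobenius`);
* `cyl_exists_level`   : `∃ k, p ∣ orderOf (q mod p ^ k)`;
* `cycU n q`, `cycV n q p` : `χ⁻¹⟨u⟩`, `χ⁻¹⟨u ^ p⟩`;
* `cyl_isCyc`          : `IsCyc p (cycU) (cycV) σ` if `χ σ = u`, `p ∣ orderOf u`;
* `cycLayer_ne`        : the package for `dict_local`.
-/

set_option autoImplicit false
set_option linter.unusedSectionVars false
set_option linter.style.haveILetI false

open ExtCitation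

namespace Fermat.Agent.F4Cf

open Fermat.Agent.F4 Fermat.Agent.F4.Loc Fermat.Agent.Cyclo

/-! ### the cyclotomic character on the decomposition group at `q ∤ n` -/

section Local

variable (q : ℕ) [Fact q.Prime] (n : ℕ) [NeZero n]

/-- If `τ` acts on a primitive `n`-th root of unity of `Ω` by `ζ ↦ ζ ^ c`, then the mod `n`
cyclotomic character of its image in `G_ℚ` is `c`. -/
theorem cyl_modChar_of_local (τ : PadicAlgCl q ≃ₐ[ℚ_[q]] PadicAlgCl q) {ζ : PadicAlgCl q} (hζ : IsPrimitiveRoot ζ n) (c : ℕ)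
    (hτ : τ ζ = ζ ^ c) :
    ((modChar n (localGaloisToGlobal q τ) : (ZMod n)ˣ) : ZMod n) = (c : ZMod n) := by
  apply modChar_eq_natCast_of_pow
  intro t ht
  have ht' : (padicEmbedding q t) ^ n = 1 := by rw [← map_pow, ht, map_one]
  obtain ⟨j, -, hj⟩ := hζ.eq_pow_of_pow_eq_one ht'
  apply (padicEmbedding q).toRingHom.injective
  show padicEmbedding q (localGaloisToGlobal q τ t) = padicEmbedding q (t ^ c)
  rw [padicEmbedding_localGaloisToGlobal, map_pow, ← hj, map_pow, hτ, ← pow_mul, ← pow_mul,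
    mul_comm]

/-- a primitive `n`-th root of unity of `Ω` -/
theorem cyl_exists_primitiveRoot : ∃ ζ : PadicAlgCl q, IsPrimitiveRoot ζ n := by
  obtain ⟨t₀, ht₀⟩ := HasEnoughRootsOfUnity.exists_primitiveRoot Qb n
  exact ⟨padicEmbedding q t₀, ht₀.map_of_injective (padicEmbedding q).toRingHom.injective⟩

variable {q n}

/-- The cyclotomic character of the decomposition group at `q ∤ n` has values in `⟨q⟩`. -/
theorem cyl_local_pow (hqn : Nat.Coprime q n) (τ : PadicAlgCl q ≃ₐ[ℚ_[q]] PadicAlgCl q) :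
    ∃ i : ℕ, modChar n (localGaloisToGlobal q τ) = ZMod.unitOfCoprime q hqn ^ i := by
  obtain ⟨ζ, hζ⟩ := cyl_exists_primitiveRoot q n
  have hm : Nat.Coprime n (resCard (resVal ℚ_[q] (padicVal q))) := by
    rw [padicVal_resCard_base]
    exact hqn.symm
  obtain ⟨i, hi⟩ := unram_frob (padicVal q) (padicVal_isInvVal_base q)
    (padicVal_isLocalVal_base q) hm hζ τ
  rw [padicVal_resCard_base] at hi
  refine ⟨i, ?_⟩
  apply Units.ext
  rw [cyl_modChar_of_local q n τ hζ (q ^ i) hi, Units.val_pow_eq_pow_val,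
    ZMod.coe_unitOfCoprime, Nat.cast_pow]

/-- A Frobenius element in the decomposition group at `q ∤ n`. -/
theorem cyl_exists_frob (hqn : Nat.Coprime q n) :
    ∃ τ₀ : PadicAlgCl q ≃ₐ[ℚ_[q]] PadicAlgCl q, modChar n (localGaloisToGlobal q τ₀) = ZMod.unitOfCoprime q hqn := by
  obtain ⟨ζ, hζ⟩ := cyl_exists_primitiveRoot q n
  have hm : Nat.Coprime n (resCard (resVal ℚ_[q] (padicVal q))) := by
    rw [padicVal_resCard_base]
    exact hqn.symm
  obtain ⟨τ₀, hτ₀⟩ := unr1_exists_frobenius (padicVal q) (padicVal_isInvVal_base q)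
    (padicVal_isLocalVal_base q).finRes hm hζ
  rw [padicVal_resCard_base] at hτ₀
  refine ⟨τ₀, ?_⟩
  apply Units.ext
  rw [cyl_modChar_of_local q n τ₀ hζ q hτ₀, ZMod.coe_unitOfCoprime]

end Local

/-! ### the level -/

/-- For primes `q ≠ p` there is `k ≥ 1` such that `p` divides the order of `q` modulo `p ^ k`. -/
theorem cyl_exists_level {p q : ℕ} (hp : p.Prime) (hq : q.Prime) (hqp : q ≠ p) :
    ∃ (k : ℕ) (hqn : Nat.Coprime q (p ^ k)), 0 < k ∧ p ∣ orderOf (ZMod.unitOfCoprime q hqn) := by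
  have hcop : Nat.Coprime q p := (Nat.coprime_primes hq hp).2 hqp
  set k := q ^ (p - 1) with hk
  have hk0 : 0 < k := pow_pos hq.pos _
  have hqn : Nat.Coprime q (p ^ k) := Nat.Coprime.pow_right k hcop
  refine ⟨k, hqn, hk0, ?_⟩
  by_contra hnd
  set u := ZMod.unitOfCoprime q hqn with hu
  haveI : NeZero (p ^ k) := ⟨pow_ne_zero k hp.ne_zero⟩
  -- the order of `u` divides `φ(p^k) = p^(k-1) (p-1)` and is prime to `p`
  have h1 : orderOf u ∣ Nat.totient (p ^ k) := by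
    have := orderOf_dvd_card (x := u)
    rwa [ZMod.card_units_eq_totient] at this
  rw [Nat.totient_prime_pow hp hk0] at h1
  have h2 : Nat.Coprime (orderOf u) (p ^ (k - 1)) :=
    Nat.Coprime.pow_right _ ((Nat.Prime.coprime_iff_not_dvd hp).2 hnd).symm
  have h3 : orderOf u ∣ p - 1 := h2.dvd_of_dvd_mul_left h1
  have h4 : u ^ (p - 1) = 1 := orderOf_dvd_iff_pow_eq_one.1 h3
  have h5 : ((q ^ (p - 1) : ℕ) : ZMod (p ^ k)) = ((1 : ℕ) : ZMod (p ^ k)) := by
    have := congrArg (fun v : (ZMod (p ^ k))ˣ => (v : ZMod (p ^ k))) h4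
    simp only [Units.val_pow_eq_pow_val, Units.val_one, hu, ZMod.coe_unitOfCoprime] at this
    rw [Nat.cast_pow, Nat.cast_one]
    exact this
  rw [ZMod.natCast_eq_natCast_iff] at h5
  have h6 : p ^ k ∣ q ^ (p - 1) - 1 := (Nat.modEq_iff_dvd' (Nat.one_le_pow _ _ hq.pos)).1 h5.symm
  have h7 : 0 < q ^ (p - 1) - 1 := by
    have : 1 < q ^ (p - 1) := Nat.one_lt_pow (by have := hp.two_le; omega) hq.one_lt
    omega
  have h8 : p ^ k ≤ q ^ (p - 1) - 1 := Nat.le_of_dvd h7 h6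
  have h9 : k < p ^ k := Nat.lt_pow_self hp.one_lt
  omega

/-! ### the layer -/

section Layer

variable (n : ℕ) [NeZero n] (q : ℕ) (hqn : Nat.Coprime q n)

/-- `U = χ⁻¹⟨q⟩`. -/
noncomputable def cycU : Subgroup Cyclo.GQ :=
  (Subgroup.zpowers (ZMod.unitOfCoprime q hqn)).comap (modChar n)

/-- `V = χ⁻¹⟨q ^ p⟩`. -/
noncomputable def cycV (p : ℕ) : Subgroup Cyclo.GQ :=
  (Subgroup.zpowers (ZMod.unitOfCoprime q hqn ^ p)).comap (modChar n)

variable {n q}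

theorem mem_cycU {g : Cyclo.GQ} :
    g ∈ cycU n q hqn ↔ modChar n g ∈ Subgroup.zpowers (ZMod.unitOfCoprime q hqn) := Iff.rfl

theorem mem_cycV {p : ℕ} {g : Cyclo.GQ} :
    g ∈ cycV n q hqn p ↔ modChar n g ∈ Subgroup.zpowers (ZMod.unitOfCoprime q hqn ^ p) := Iff.rfl

theorem cycV_le_cycU (p : ℕ) : cycV n q hqn p ≤ cycU n q hqn := by
  intro g hg
  rw [mem_cycV] at hg
  rw [mem_cycU]
  exact (Subgroup.zpowers_le.2 (Subgroup.pow_mem _ (Subgroup.mem_zpowers _) p)) hg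

theorem ker_le_cycV (p : ℕ) {g : Cyclo.GQ} (hg : modChar n g = 1) : g ∈ cycV n q hqn p := by
  rw [mem_cycV, hg]
  exact one_mem _

/-- The layer `(χ⁻¹⟨u⟩, χ⁻¹⟨u ^ p⟩, σ)` is cyclic of degree `p` if `χ σ = u` and `p ∣ ord u`. -/
theorem cyl_isCyc {p : ℕ} (hp : p.Prime) (hord : p ∣ orderOf (ZMod.unitOfCoprime q hqn))
    {σ : Cyclo.GQ} (hσ : modChar n σ = ZMod.unitOfCoprime q hqn) :
    IsCyc p (cycU n q hqn) (cycV n q hqn p) σ where
  le := cycV_le_cycU hqn p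
  normal := by
    intro u _ v hv
    rw [mem_cycV] at hv ⊢
    rw [map_mul, map_mul, map_inv, mul_comm (modChar n u), mul_assoc, mul_inv_cancel, mul_one]
    exact hv
  mem := by
    rw [mem_cycU, hσ]
    exact Subgroup.mem_zpowers _
  not_mem := by
    intro h
    rw [mem_cycV, hσ, Subgroup.mem_zpowers_iff] at h
    obtain ⟨j, hj⟩ := h
    rw [← zpow_natCast, ← zpow_mul] at hj
    have h1 : (ZMod.unitOfCoprime q hqn) ^ ((p : ℤ) * j - 1) = 1 := by
      rw [zpow_sub, hj, zpow_one, mul_inv_cancel]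
    have h2 : (orderOf (ZMod.unitOfCoprime q hqn) : ℤ) ∣ (p : ℤ) * j - 1 :=
      orderOf_dvd_iff_zpow_eq_one.2 h1
    have h3 : (p : ℤ) ∣ (p : ℤ) * j - 1 := (Int.natCast_dvd_natCast.2 hord).trans h2
    have h4 : (p : ℤ) ∣ 1 := by
      have := dvd_sub (dvd_mul_right (p : ℤ) j) h3
      simpa using this
    have h5 : p ∣ 1 := by exact_mod_cast h4
    exact hp.one_lt.ne' (Nat.dvd_one.1 h5)
  pow_mem := by
    rw [mem_cycV, map_pow, hσ]
    exact Subgroup.mem_zpowers _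
  gen := by
    intro u hu
    rw [mem_cycU, Subgroup.mem_zpowers_iff] at hu
    obtain ⟨j, hj⟩ := hu
    have hp0 : (p : ℤ) ≠ 0 := by exact_mod_cast hp.ne_zero
    refine ⟨(j % (p : ℤ)).toNat, ?_, ?_⟩
    · have h1 : j % (p : ℤ) < p := Int.emod_lt_of_pos j (by exact_mod_cast hp.pos)
      have h2 : 0 ≤ j % (p : ℤ) := Int.emod_nonneg j hp0
      omega
    · rw [mem_cycV, map_mul, map_inv, map_pow, hσ, ← hj, Subgroup.mem_zpowers_iff]
      refine ⟨j / (p : ℤ), ?_⟩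
      have h2 : 0 ≤ j % (p : ℤ) := Int.emod_nonneg j hp0
      rw [← zpow_natCast (ZMod.unitOfCoprime q hqn) (j % (p : ℤ)).toNat, Int.toNat_of_nonneg h2,
        ← zpow_natCast (ZMod.unitOfCoprime q hqn) p, ← zpow_mul, ← zpow_neg, ← zpow_add]
      congr 1
      have := Int.emod_add_mul_ediv j (p : ℤ)
      omega

end Layer

/-! ### openness, the decomposition group -/

/-- `V = χ⁻¹⟨q ^ p⟩` (for `n = p ^ k`) is open for `levelsS S` if `p ∈ S`. -/
theorem cycV_isOpen {p : ℕ} [Fact p.Prime] {S : Finset Nat.Primes} (hpS : pPrime p ∈ S)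
    (k : ℕ) [NeZero (p ^ k)] (q : ℕ) (hqn : Nat.Coprime q (p ^ k)) :
    (levelsS S).IsOpen (cycV (p ^ k) q hqn p) := by
  have hp : p.Prime := Fact.out
  have hS : ∀ ℓ : Nat.Primes, (ℓ : ℕ) ∣ p ^ k → ℓ ∈ S := by
    intro ℓ hℓ
    have h1 : (ℓ : ℕ) ∣ p := ℓ.2.dvd_of_dvd_pow hℓ
    have h2 : (ℓ : ℕ) = p := (Nat.prime_dvd_prime_iff_eq ℓ.2 hp).1 h1
    have h3 : ℓ = pPrime p := Subtype.ext h2
    rw [h3]
    exact hpS
  have hlev := cycloField_mem_levelsS (p ^ k) S hS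
  have hker : ∀ g : Cyclo.GQ, g ∈ (cycloField (p ^ k)).fixingSubgroup →
      modChar (p ^ k) g = 1 := by
    intro g hg
    apply modChar_eq_one_of_fix_cycloField
    intro x hx
    exact (IntermediateField.mem_fixingSubgroup_iff _ _).1 hg x hx
  exact ⟨_, hlev, fun g hg => ker_le_cycV hqn p (hker g hg)⟩

/-- `U = χ⁻¹⟨q⟩` (for `n = p ^ k`) is open for `levelsS S` if `p ∈ S`. -/
theorem cycU_isOpen {p : ℕ} [Fact p.Prime] {S : Finset Nat.Primes} (hpS : pPrime p ∈ S)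
    (k : ℕ) [NeZero (p ^ k)] (q : ℕ) (hqn : Nat.Coprime q (p ^ k)) :
    (levelsS S).IsOpen (cycU (p ^ k) q hqn) :=
  Levels.IsOpen.mono _ (cycV_isOpen hpS k q hqn) (cycV_le_cycU hqn p)

/-- The decomposition group at `q` lies in `U = χ⁻¹⟨q⟩`. -/
theorem cyl_local_mem_cycU {n : ℕ} [NeZero n] (q : Nat.Primes) (hqn : Nat.Coprime (q : ℕ) n)
    (τ : primeLocalGaloisGroup q) : primeLocalToGlobal q τ ∈ cycU n q hqn := by
  haveI : Fact (q : ℕ).Prime := ⟨q.2⟩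
  obtain ⟨i, hi⟩ := cyl_local_pow (q := (q : ℕ)) (n := n) hqn τ
  rw [mem_cycU]
  change modChar n (localGaloisToGlobal (q : ℕ) τ) ∈ _
  rw [hi]
  exact Subgroup.pow_mem _ (Subgroup.mem_zpowers _) i

/-! ### the package -/

/-- **R-C1a.**  The cyclotomic layer at `q ≠ p`: `n = p ^ k`, `U = χ_n⁻¹⟨q⟩`, `V = χ_n⁻¹⟨q ^ p⟩`,
`σ` the image of a local Frobenius `τ₀` at `q`.  `V` is open for `levelsS S` (`p ∈ S`), `(U, V, σ)`
is a cyclic layer of degree `p`, the decomposition group at `q` lies in `U`, `V ⊇ ker χ_n`, and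
`χ_n σ = q`. -/
theorem cycLayer_ne {p : ℕ} [Fact p.Prime] {S : Finset Nat.Primes} (hpS : pPrime p ∈ S)
    (q : Nat.Primes) (hq : (q : ℕ) ≠ p) :
    ∃ (k : ℕ) (_ : NeZero (p ^ k)) (hqn : Nat.Coprime (q : ℕ) (p ^ k))
      (τ₀ : primeLocalGaloisGroup q),
      0 < k ∧
      (levelsS S).IsOpen (cycV (p ^ k) q hqn p) ∧
      (levelsS S).IsOpen (cycU (p ^ k) q hqn) ∧
      IsCyc p (cycU (p ^ k) q hqn) (cycV (p ^ k) q hqn p) (primeLocalToGlobal q τ₀) ∧
      modChar (p ^ k) (primeLocalToGlobal q τ₀) = ZMod.unitOfCoprime q hqn ∧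
      (∀ τ : primeLocalGaloisGroup q, primeLocalToGlobal q τ ∈ cycU (p ^ k) q hqn) ∧
      (∀ g : Cyclo.GQ, modChar (p ^ k) g = 1 → g ∈ cycV (p ^ k) q hqn p) := by
  have hp : p.Prime := Fact.out
  obtain ⟨k, hqn, hk0, hord⟩ := cyl_exists_level hp q.2 hq
  haveI hne : NeZero (p ^ k) := ⟨pow_ne_zero k hp.ne_zero⟩
  haveI : Fact (q : ℕ).Prime := ⟨q.2⟩
  obtain ⟨τ₀, hτ₀⟩ := cyl_exists_frob (q := (q : ℕ)) (n := p ^ k) hqn
  exact ⟨k, hne, hqn, τ₀, hk0, cycV_isOpen hpS k q hqn, cycU_isOpen hpS k q hqn,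
    cyl_isCyc hqn hp hord hτ₀, hτ₀, cyl_local_mem_cycU q hqn,
    fun g hg => ker_le_cycV hqn p hg⟩

end Fermat.Agent.F4Cf
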