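import Fermat.Agent.F4.Cf.CycLayer
import Fermat.Agent.Lib.Frobenius.Lift
import Fermat.Agent.F4.Dict.PlaceSurj

/-!
# F4 / Cf / CycLayerFrob : seat R-C1a, second form — the cyclotomic layer at `q ≠ p` in the
language of Frobenius elements (Prelude's `ValuationSubring.IsFrobeniusAt`), parallel to
helper31's `exists_layer_at_p` (`F4/Cf/RecipC1.lean`).

* `cyl_exists_frobenius_at` : every place of `ℚ̄` over `ℓ` has a Frobenius element;
* `cyl_frob_mem`            : Frobenius elements at `q` lie in `cycU ∖ cycV`;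
* `cyl_inertia_mem`         : inertia at `q' ∤ n` lies in `cycV`;
* `cycLayer_ne_frob`        : the package.
-/

set_option autoImplicit false
set_option linter.unusedSectionVars false
set_option linter.style.haveILetI false

open ExtCitation

namespace Fermat.Agent.F4Cf

open Fermat.Agent.F4 Fermat.Agent.F4.Loc Fermat.Agent.Cyclo

/-- Every place of `ℚ̄` over a prime `ℓ` has a Frobenius element. -/
theorem cyl_exists_frobenius_at (ℓ : ℕ) (hℓ : ℓ.Prime) (A : ValuationSubring Qb)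
    (hA : A.LiesOverPrime ℓ) : ∃ σ : Cyclo.GQ, A.IsFrobeniusAt σ ℓ := by
  have hℓQ : (ℓ : Fermat.Agent.FrobExists.Zb) ∈ Fermat.Agent.FrobExists.centre A := by
    rw [Fermat.Agent.FrobExists.mem_centre_iff]
    exact hA
  obtain ⟨σ, hσQ, hσ⟩ := Fermat.Agent.FrobExists.frobMod_exists_h53 ℓ hℓ
    (Fermat.Agent.FrobExists.centre A) hℓQ
  exact ⟨σ, Fermat.Agent.FrobExists.isFrobeniusAt_of_centre ℓ A σ hσQ hσ⟩

section

variable {n : ℕ} [NeZero n] {q : ℕ} (hqn : Nat.Coprime q n)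

/-- Frobenius elements at `q ∤ n` have `χ = q`. -/
theorem cyl_modChar_frob (hq : q.Prime) (A : ValuationSubring Qb) (hA : A.LiesOverPrime q)
    (τ : Cyclo.GQ) (hτ : A.IsFrobeniusAt τ q) : modChar n τ = ZMod.unitOfCoprime q hqn := by
  have hn : ¬ q ∣ n := fun h => hq.one_lt.ne' (Nat.Coprime.eq_one_of_dvd hqn h)
  apply Units.ext
  rw [modChar_frobenius n hq hn A hA τ hτ, ZMod.coe_unitOfCoprime]

/-- Frobenius elements at `q` lie in `U`. -/
theorem cyl_frob_mem_cycU (hq : q.Prime) (A : ValuationSubring Qb) (hA : A.LiesOverPrime q)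
    (τ : Cyclo.GQ) (hτ : A.IsFrobeniusAt τ q) : τ ∈ cycU n q hqn := by
  rw [mem_cycU, cyl_modChar_frob hqn hq A hA τ hτ]
  exact Subgroup.mem_zpowers _

/-- Frobenius elements at `q` do not lie in `V` (if `p ∣ ord (q mod n)`): `q` is inert. -/
theorem cyl_frob_not_mem_cycV {p : ℕ} (hp : p.Prime)
    (hord : p ∣ orderOf (ZMod.unitOfCoprime q hqn)) (hq : q.Prime) (A : ValuationSubring Qb)
    (hA : A.LiesOverPrime q) (τ : Cyclo.GQ) (hτ : A.IsFrobeniusAt τ q) :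
    τ ∉ cycV n q hqn p :=
  (cyl_isCyc hqn hp hord (cyl_modChar_frob hqn hq A hA τ hτ)).not_mem

/-- Inertia at `q' ∤ n` lies in `V`. -/
theorem cyl_inertia_mem_cycV (p : ℕ) {q' : ℕ} (hq' : q'.Prime) (hn : ¬ q' ∣ n)
    (A : ValuationSubring Qb) (hA : A.LiesOverPrime q') (τ : Cyclo.GQ)
    (hτ : τ ∈ A.inertiaSubgroupIn ℚ) : τ ∈ cycV n q hqn p :=
  ker_le_cycV hqn p (modChar_inertia n hq' hn A hA τ hτ)

end

/-- **R-C1a, Frobenius form.**  The cyclotomic layer at `q ≠ p`: `n = p ^ k`, `U = χ_n⁻¹⟨q⟩`,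
`V = χ_n⁻¹⟨q ^ p⟩` open for `levelsS S`, `σ` a Frobenius element at the place `primeLocalPlace q`;
`(U, V, σ)` is a cyclic layer of degree `p`; every Frobenius element at every place over `q` lies
in `U ∖ V` (`q` splits completely in `ℚ̄^U` and its places are inert in `ℚ̄^V`); the layer is
unramified outside `p`; the decomposition group `D_q` lies in `U`. -/
theorem cycLayer_ne_frob {p : ℕ} [Fact p.Prime] {S : Finset Nat.Primes} (hpS : pPrime p ∈ S)
    (q : Nat.Primes) (hq : (q : ℕ) ≠ p) :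
    ∃ (k : ℕ) (_ : NeZero (p ^ k)) (hqn : Nat.Coprime (q : ℕ) (p ^ k)) (σ : Cyclo.GQ),
      0 < k ∧
      (levelsS S).IsOpen (cycV (p ^ k) q hqn p) ∧
      (levelsS S).IsOpen (cycU (p ^ k) q hqn) ∧
      IsCyc p (cycU (p ^ k) q hqn) (cycV (p ^ k) q hqn p) σ ∧
      (primeLocalPlace q).LiesOverPrime (q : ℕ) ∧
      (primeLocalPlace q).IsFrobeniusAt σ (q : ℕ) ∧
      (∀ A' : ValuationSubring Qb, A'.LiesOverPrime (q : ℕ) → ∀ τ : Cyclo.GQ,
        A'.IsFrobeniusAt τ (q : ℕ) → τ ∈ cycU (p ^ k) q hqn ∧ τ ∉ cycV (p ^ k) q hqn p) ∧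
      (∀ q' : ℕ, q'.Prime → q' ≠ p → ∀ A' : ValuationSubring Qb, A'.LiesOverPrime q' →
        ∀ τ : Cyclo.GQ, τ ∈ A'.inertiaSubgroupIn ℚ → τ ∈ cycV (p ^ k) q hqn p) ∧
      (∀ τ : primeLocalGaloisGroup q, primeLocalToGlobal q τ ∈ cycU (p ^ k) q hqn) ∧
      (∀ g : Cyclo.GQ, modChar (p ^ k) g = 1 → g ∈ cycV (p ^ k) q hqn p) := by
  have hp : p.Prime := Fact.out
  obtain ⟨k, hqn, hk0, hord⟩ := cyl_exists_level hp q.2 hq
  haveI hne : NeZero (p ^ k) := ⟨pow_ne_zero k hp.ne_zero⟩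
  have hA := primeLocalPlace_liesOverPrime q
  obtain ⟨σ, hσ⟩ := cyl_exists_frobenius_at (q : ℕ) q.2 (primeLocalPlace q) hA
  refine ⟨k, hne, hqn, σ, hk0, cycV_isOpen hpS k q hqn, cycU_isOpen hpS k q hqn,
    cyl_isCyc hqn hp hord (cyl_modChar_frob hqn q.2 _ hA σ hσ), hA, hσ, ?_, ?_,
    cyl_local_mem_cycU q hqn, fun g hg => ker_le_cycV hqn p hg⟩
  · intro A' hA' τ hτ
    exact ⟨cyl_frob_mem_cycU hqn q.2 A' hA' τ hτ,
      cyl_frob_not_mem_cycV hqn hp hord q.2 A' hA' τ hτ⟩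
  · intro q' hq' hq'p A' hA' τ hτ
    have hn : ¬ q' ∣ p ^ k := fun h =>
      hq'p ((Nat.prime_dvd_prime_iff_eq hq' hp).1 (hq'.dvd_of_dvd_pow h))
    exact cyl_inertia_mem_cycV hqn p hq' hn A' hA' τ hτ

end Fermat.Agent.F4Cf
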