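import Fermat.Agent.F4.Cf.Defs
import Fermat.Agent.F4.BR.Smooth

/-!
# F4 / Cf / DictU0 : `Gal(ℚ̄/ℚ(μ_p))` is open of index prime to `p` (helper74)

Proofs of the stubs `U0_isOpen`, `U0_index` of `F4/Cf/Dict.lean`, stated for
`MonoidHom.ker (cycloChar p)` (`= U0 p`).
-/

set_option autoImplicit false

open CategoryTheory groupCohomology ExtCitation

namespace Fermat.Agent.F4Cf

open Fermat.Agent.F4

variable (p : ℕ) [Fact p.Prime] (S : Finset Nat.Primes)

/-- `ℚ(μ_p) ⊂ ℚ_S` when `p ∈ S`: the kernel of the mod `p` cyclotomic character is open. -/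
theorem U0_isOpen_pf (hpS : pPrime p ∈ S) :
    (levelsS S).IsOpen (MonoidHom.ker (cycloChar p)) := by
  obtain ⟨U, hU, h⟩ := isSmooth_Fp1 (p := p) S hpS (1 : ZMod p)
  refine ⟨U, hU, fun g hg => ?_⟩
  have h1 := h g hg
  rw [br_smooth_Fp1_ρ] at h1
  rw [MonoidHom.mem_ker]
  apply Units.ext
  have h2 : ((cycloChar p g : (ZMod p)ˣ) : ZMod p) * 1 = 1 := h1
  rw [mul_one] at h2
  rw [h2, Units.val_one]

/-- The index of the kernel of the mod `p` cyclotomic character divides `p - 1`. -/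
theorem U0_index_pf : ¬ p ∣ (MonoidHom.ker (cycloChar p)).index := by
  have hp : p.Prime := Fact.out
  have : NeZero p := ⟨hp.ne_zero⟩
  rw [Subgroup.index_ker]
  intro hdvd
  have h1 : Nat.card (cycloChar p).range ∣ Nat.card (ZMod p)ˣ :=
    Subgroup.card_subgroup_dvd_card _
  have h2 : Nat.card (ZMod p)ˣ = p - 1 := by
    rw [Nat.card_eq_fintype_card, ZMod.card_units_eq_totient, Nat.totient_prime hp]
  rw [h2] at h1
  have h3 : p ∣ p - 1 := hdvd.trans h1
  have h4 : 0 < p - 1 := by have := hp.two_le; omega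
  have := Nat.le_of_dvd h4 h3
  omega

end Fermat.Agent.F4Cf
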