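import Fermat.Agent.Lib.Cyclo.ModCharGlobal
import Fermat.Agent.Lib.Minkowski.Final
import Fermat.Agent.Lib.Frobenius.Lift
import Fermat.Agent.Lib.KFin.Bridge
import Fermat.Agent.Lib.KFin.Val
import Fermat.Agent.F4.Loc.Datum.CycloLevel
import Fermat.Agent.F4.Recip.Statements

/-!
# F4 / Cf / RecipCFin : finite-level arithmetic of the cyclotomic layers (seat R-C, helper29)

`n ≥ 1`, `ℓ ∤ n` a prime, `F ≤ M ≤ ℚ(μ_n)` number fields inside `ℚ̄` (`Algebra F M` = inclusion),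
`g ∈ Gal(ℚ̄/ℚ)` with `χ_n(g) = ℓ`.

* `rcf_frob_sub_pow_mem` : `g x - x ^ ℓ ∈ 𝔪_A` for every valuation subring `A` of `ℚ̄` over `ℓ`
  and every `x ∈ A ∩ ℚ(μ_n)`;
* `rcf_unramAt`, `rcf_unramOutside` : `M / F` is unramified at the primes not dividing `n`;
* `rcf_isFrobRel` : `g|_M` is a Frobenius element (exponent `ℓ`) at every prime of `M` over `ℓ`;
* `rcf_absNorm_under` : if `g` fixes `F`, the primes of `F` over `ℓ` have norm `ℓ`;
* `rcf_frob_eq` : every Frobenius element of `M / F` at a prime over `ℓ` is `g|_M`;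
* `rcf_frob_ne_one` : it is `≠ 1` if `g` does not fix `M`.
-/

set_option autoImplicit false
set_option linter.unusedSectionVars false
set_option linter.style.haveILetI false

open NumberField IsDedekindDomain

namespace Fermat.Agent.F4RCF

open Fermat.Agent.Cyclo Fermat.Agent.F4Rec

attribute [local instance] Fermat.Agent.FrobExists.isGalois_Qb

variable (n : ℕ) [NeZero n] {ℓ : ℕ}

/-- Equal cyclotomic characters: equal action on `ℚ(μ_n)`. -/
theorem rcf_apply_eq_of_modChar_eq (g h : GQ)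
    (hgh : ((modChar n g : (ZMod n)ˣ) : ZMod n) = ((modChar n h : (ZMod n)ˣ) : ZMod n))
    {x : Qb} (hx : x ∈ cycloField n) : g x = h x := by
  have h1 : modChar n (h⁻¹ * g) = 1 := by
    rw [map_mul, map_inv, inv_mul_eq_one]
    exact (Units.ext hgh).symm
  have h2 := Fermat.Agent.F4.Loc.mem_fixingSubgroup_cycloField_of_modChar n (h⁻¹ * g) h1
  rw [IntermediateField.mem_fixingSubgroup_iff] at h2
  have h3 := h2 x hx
  have h5 : h (h⁻¹ (g x)) = g x := by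
    show h (h.symm (g x)) = g x
    simp
  calc g x = h (h⁻¹ (g x)) := h5.symm
    _ = h ((h⁻¹ * g) x) := rfl
    _ = h x := by rw [h3]

/-- There are Frobenius elements at every valuation subring over `ℓ`. -/
theorem rcf_exists_isFrobeniusAt (hℓ : ℓ.Prime) (A : ValuationSubring Qb)
    (hA : A.LiesOverPrime ℓ) : ∃ σ : GQ, A.IsFrobeniusAt σ ℓ := by
  have hℓQ : (ℓ : Fermat.Agent.FrobExists.Zb) ∈ Fermat.Agent.FrobExists.centre A := by
    rw [Fermat.Agent.FrobExists.mem_centre_iff]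
    exact hA
  obtain ⟨σ, hσQ, hσ⟩ := Fermat.Agent.FrobExists.frobMod_exists_h53 ℓ hℓ (Fermat.Agent.FrobExists.centre A) hℓQ
  exact ⟨σ, Fermat.Agent.FrobExists.isFrobeniusAt_of_centre ℓ A σ hσQ hσ⟩

/-- There are elements with cyclotomic character `ℓ`. -/
theorem rcf_exists_modChar_eq (hℓ : ℓ.Prime) (hℓn : ¬ ℓ ∣ n) :
    ∃ g : GQ, ((modChar n g : (ZMod n)ˣ) : ZMod n) = (ℓ : ZMod n) := by
  obtain ⟨A, σ, hA, hσ⟩ := Fermat.Agent.FrobExists.exists_frobenius ℓ hℓ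
  exact ⟨σ, modChar_frobenius n hℓ hℓn A hA σ hσ⟩

/-- `g` with `χ_n(g) = ℓ` is a Frobenius element on `ℚ(μ_n)` at EVERY place over `ℓ`. -/
theorem rcf_frob_sub_pow_mem (hℓ : ℓ.Prime) (hℓn : ¬ ℓ ∣ n) (g : GQ)
    (hg : ((modChar n g : (ZMod n)ˣ) : ZMod n) = (ℓ : ZMod n))
    (A : ValuationSubring Qb) (hA : A.LiesOverPrime ℓ) {x : Qb} (hx : x ∈ cycloField n)
    (hxA : x ∈ A) : g x - x ^ ℓ ∈ A.nonunits := by
  obtain ⟨σ, hσ⟩ := rcf_exists_isFrobeniusAt hℓ A hA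
  have h1 := modChar_frobenius n hℓ hℓn A hA σ hσ
  rw [rcf_apply_eq_of_modChar_eq n g σ (hg.trans h1.symm) hx]
  exact frob_sub_pow_mem_nonunits A hσ hxA

/-- Intermediate fields of `ℚ(μ_n)` are stable under `Gal(ℚ̄/ℚ)`. -/
theorem rcf_apply_mem (M : IntermediateField ℚ Qb) (hM : M ≤ cycloField n) (σ : GQ) {x : Qb}
    (hx : x ∈ M) : σ x ∈ M := by
  rw [← InfiniteGalois.fixedField_fixingSubgroup M, IntermediateField.mem_fixedField_iff]
  intro h hh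
  have h1 : (σ⁻¹ * h * σ) x = h x := by
    apply rcf_apply_eq_of_modChar_eq n _ _ _ (hM hx)
    rw [map_mul, map_mul, map_inv]
    congr 1
    rw [mul_comm, ← mul_assoc, mul_inv_cancel, one_mul]
  have h2 : h x = x := by
    rw [IntermediateField.mem_fixingSubgroup_iff] at hh
    exact hh x hx
  rw [h2] at h1
  have h3 : (σ⁻¹ * h * σ) x = σ⁻¹ (h (σ x)) := rfl
  rw [h3] at h1
  have h4 : σ (σ⁻¹ (h (σ x))) = h (σ x) := by
    show σ (σ.symm (h (σ x))) = h (σ x)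
    simp
  rw [← h4, h1]

/-- Intermediate fields of `ℚ(μ_n)` are normal over `ℚ`. -/
theorem rcf_normal (M : IntermediateField ℚ Qb) (hM : M ≤ cycloField n) : Normal ℚ M := by
  refine IntermediateField.normal_iff_forall_map_le'.2 ?_
  rintro σ _ ⟨x, hx, rfl⟩
  exact rcf_apply_mem n M hM σ hx

section Fields

variable (F M : IntermediateField ℚ Qb) [NumberField F] [NumberField M] [Algebra F M]
  [IsScalarTower F M Qb]

omit [NumberField F] [NumberField M] in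
theorem rcf_coe_algebraMap (a : F) : ((algebraMap F M a : M) : Qb) = (a : Qb) :=
  (IsScalarTower.algebraMap_apply F M Qb a).symm

/-- A valuation subring of `ℚ̄` over a given prime of `M`. -/
theorem rcf_exists_val (hℓ : ℓ.Prime) (Q : Ideal (𝓞 M)) (hQ : Q.IsPrime)
    (hℓQ : ((ℓ : ℕ) : 𝓞 M) ∈ Q) :
    ∃ V : ValuationSubring Qb, V.LiesOverPrime ℓ ∧ Fermat.Agent.KFin.primeBelow M V = Q := by
  have hQ0 : Q ≠ ⊥ := by
    intro h0
    rw [h0, Ideal.mem_bot] at hℓQ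
    exact hℓ.ne_zero (by exact_mod_cast hℓQ)
  have hQmax : Q.IsMaximal := hQ.isMaximal hQ0
  let φ : 𝓞 M →+* Qb := (algebraMap M Qb).comp (algebraMap (𝓞 M) M)
  have hφinj : Function.Injective φ :=
    (algebraMap M Qb).injective.comp (RingOfIntegers.coe_injective)
  let I : Ideal φ.range := Q.map φ.rangeRestrict
  have hI : I ≠ ⊤ := by
    intro h
    have hbij : Function.Bijective φ.rangeRestrict :=
      ⟨fun a b hab => hφinj (congrArg (Subtype.val : φ.range → Qb) hab),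
        φ.rangeRestrict_surjective⟩
    have h1 : Ideal.comap φ.rangeRestrict I = Q := Ideal.comap_map_of_bijective _ hbij
    rw [h, Ideal.comap_top] at h1
    exact hQ.ne_top h1.symm
  obtain ⟨V, -, hV⟩ := Ideal.image_subset_nonunits_valuationSubring I hI
  have hle : Q ≤ Fermat.Agent.KFin.primeBelow M V := by
    intro y hy
    rw [Fermat.Agent.KFin.mem_primeBelow_iff]
    exact hV ⟨φ.rangeRestrict y, Ideal.mem_map_of_mem _ hy, rfl⟩
  have heq : Q = Fermat.Agent.KFin.primeBelow M V :=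
    hQmax.eq_of_le (Fermat.Agent.KFin.primeBelow_isPrime M V).ne_top hle
  refine ⟨V, ?_, heq.symm⟩
  have h1 := hle hℓQ
  rw [Fermat.Agent.KFin.mem_primeBelow_iff] at h1
  have h2 : (((( (ℓ : ℕ) : 𝓞 M) : 𝓞 M) : M) : Qb) = (ℓ : Qb) := by simp
  rw [h2] at h1
  exact h1

/-- `M / F` is unramified at the primes of `M` over `ℓ ∤ n`. -/
theorem rcf_unramAt (hℓ : ℓ.Prime) (hℓn : ¬ ℓ ∣ n) (hM : M ≤ cycloField n)
    (Q : Ideal (𝓞 M)) (hQ : Q.IsPrime) (hℓQ : ((ℓ : ℕ) : 𝓞 M) ∈ Q) : UnramAt F Q := by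
  intro τ hin
  obtain ⟨V, hV, hVQ⟩ := rcf_exists_val M hℓ Q hQ hℓQ
  haveI : Normal ℚ M := rcf_normal n M hM
  haveI : IsGalois ℚ M := ⟨⟩
  let s : M ≃ₐ[ℚ] M := τ.restrictScalars ℚ
  have hs : ∀ x : M, IsIntegral ℤ x →
      ((s x : M) : Qb) - (x : Qb) ∈ V.nonunits := by
    intro x hx
    obtain ⟨y, hy, hxy⟩ := hin ⟨x, hx⟩
    rw [← hVQ, Fermat.Agent.KFin.mem_primeBelow_iff] at hy
    have : ((s x : M) : Qb) - (x : Qb) = (((y : 𝓞 M) : M) : Qb) := by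
      have := congrArg (fun z : M => (z : Qb)) hxy
      exact this
    rw [this]
    exact hy
  obtain ⟨σ, hσ, hres⟩ :=
    Fermat.Agent.Minkowski.exists_mem_inertiaSubgroupIn_restrict V ℓ hℓ hV M s hs
  have h1 : modChar n σ = 1 := modChar_inertia n hℓ hℓn V hV σ hσ
  have h2 := Fermat.Agent.F4.Loc.mem_fixingSubgroup_cycloField_of_modChar n σ h1
  rw [IntermediateField.mem_fixingSubgroup_iff] at h2
  apply AlgEquiv.ext
  intro x
  apply Subtype.ext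
  have h3 : ((s x : M) : Qb) = σ (x : Qb) := by
    rw [← hres]
    exact Fermat.Agent.FrobExists.coe_restrictNormalHom_apply M σ x
  have h4 : σ (x : Qb) = x := h2 _ (hM x.2)
  show ((τ x : M) : Qb) = (x : Qb)
  rw [← h4, ← h3]
  rfl

/-- `M / F` is unramified outside the primes dividing `n`. -/
theorem rcf_unramOutside (hM : M ≤ cycloField n) (T : Finset (HeightOneSpectrum (𝓞 F)))
    (hT : ∀ v : HeightOneSpectrum (𝓞 F), ((n : ℕ) : 𝓞 F) ∈ v.asIdeal → v ∈ T) :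
    UnramOutside F M T := by
  intro Q hQ hQ0 hQT
  have h1 := Ideal.absNorm_mem Q
  have h2 : ((Ideal.absNorm Q : ℕ) : 𝓞 M) ∈ Q := by exact_mod_cast h1
  rcases Fermat.Agent.KFin.exists_prime_natCast_mem Q _ h2 with h | ⟨ℓ, hℓ, hℓQ⟩
  · exact absurd (Ideal.absNorm_eq_zero_iff.mp h) hQ0
  · refine rcf_unramAt n F M hℓ ?_ hM Q hQ hℓQ
    intro hdvd
    have hnQ : ((n : ℕ) : 𝓞 M) ∈ Q := by
      obtain ⟨c, rfl⟩ := hdvd
      rw [Nat.cast_mul]
      exact Q.mul_mem_right _ hℓQ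
    have hnP : ((n : ℕ) : 𝓞 F) ∈ Q.under (𝓞 F) := by
      rw [Ideal.under_def, Ideal.mem_comap, map_natCast]
      exact hnQ
    have hP0 : Q.under (𝓞 F) ≠ ⊥ := Ideal.under_ne_bot (𝓞 F) hQ0
    have hPprime : (Q.under (𝓞 F)).IsPrime := Ideal.IsPrime.under (𝓞 F) Q
    exact hQT ⟨Q.under (𝓞 F), hPprime, hP0⟩ (hT _ hnP) rfl

/-- `g|_M` is a Frobenius element at every prime of `M` over `ℓ`. -/
theorem rcf_isFrobRel (hℓ : ℓ.Prime) (hℓn : ¬ ℓ ∣ n) (hM : M ≤ cycloField n) (g : GQ)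
    (hg : ((modChar n g : (ZMod n)ˣ) : ZMod n) = (ℓ : ZMod n))
    (τ : M ≃ₐ[F] M) (hτ : ∀ x : M, ((τ x : M) : Qb) = g (x : Qb))
    (Q : Ideal (𝓞 M)) (hQ : Q.IsPrime) (hℓQ : ((ℓ : ℕ) : 𝓞 M) ∈ Q) : IsFrobRel τ Q ℓ := by
  obtain ⟨V, hV, hVQ⟩ := rcf_exists_val M hℓ Q hQ hℓQ
  intro x
  have hxi : IsIntegral ℤ (x : M) := x.isIntegral_coe
  have hτi : IsIntegral ℤ (τ (x : M)) := by
    have := hxi.map (τ.restrictScalars ℤ : M ≃ₐ[ℤ] M)
    exact this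
  have hyi : IsIntegral ℤ (τ (x : M) - (x : M) ^ ℓ) := hτi.sub (hxi.pow ℓ)
  refine ⟨⟨_, hyi⟩, ?_, rfl⟩
  rw [← hVQ]
  apply (Fermat.Agent.KFin.mem_primeBelow_iff M V _).2
  show ((τ (x : M) - (x : M) ^ ℓ : M) : Qb) ∈ V.nonunits
  have e : ((τ (x : M) - (x : M) ^ ℓ : M) : Qb) = g ((x : M) : Qb) - ((x : M) : Qb) ^ ℓ := by
    rw [← hτ]
    rfl
  rw [e]
  refine rcf_frob_sub_pow_mem n hℓ hℓn g hg V hV (hM (x : M).2) ?_
  exact Fermat.Agent.FrobExists.mem_valuationSubring_of_isIntegral V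
    (hxi.map (IsScalarTower.toAlgHom ℤ M Qb))

/-- A finite field of characteristic `ℓ` in which `a ^ ℓ = a` for all `a` has `ℓ` elements. -/
theorem rcf_card_eq_of_pow_eq {k : Type*} [Field k] [Finite k] (hℓ : ℓ.Prime) [CharP k ℓ]
    (h : ∀ a : k, a ^ ℓ = a) : Nat.card k = ℓ := by
  classical
  haveI := Fintype.ofFinite k
  obtain ⟨m, -, hcard⟩ := FiniteField.card k ℓ
  have hne : (Polynomial.X ^ ℓ - Polynomial.X : Polynomial k) ≠ 0 :=
    FiniteField.X_pow_card_sub_X_ne_zero k hℓ.one_lt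
  have hdeg : (Polynomial.X ^ ℓ - Polynomial.X : Polynomial k).natDegree = ℓ :=
    FiniteField.X_pow_card_sub_X_natDegree_eq k hℓ.one_lt
  have hle : Fintype.card k ≤ ℓ := by
    calc Fintype.card k = (Finset.univ : Finset k).card := rfl
      _ ≤ (Polynomial.X ^ ℓ - Polynomial.X : Polynomial k).roots.toFinset.card := by
          apply Finset.card_le_card
          intro a _
          rw [Multiset.mem_toFinset, Polynomial.mem_roots hne]
          simp [h a]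
      _ ≤ Multiset.card (Polynomial.X ^ ℓ - Polynomial.X : Polynomial k).roots :=
          Multiset.toFinset_card_le _
      _ ≤ (Polynomial.X ^ ℓ - Polynomial.X : Polynomial k).natDegree := Polynomial.card_roots' _
      _ = ℓ := hdeg
  have hge : ℓ ≤ Fintype.card k := by
    rw [hcard]
    calc ℓ = ℓ ^ 1 := (pow_one ℓ).symm
      _ ≤ ℓ ^ (m : ℕ) := Nat.pow_le_pow_right hℓ.pos m.pos
  rw [Nat.card_eq_fintype_card]
  exact le_antisymm hle hge

/-- If `g` fixes `F`, the primes of `F` over `ℓ` have norm `ℓ`. -/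
theorem rcf_absNorm_under (hℓ : ℓ.Prime) (hℓn : ¬ ℓ ∣ n) (hM : M ≤ cycloField n) (g : GQ)
    (hg : ((modChar n g : (ZMod n)ˣ) : ZMod n) = (ℓ : ZMod n)) (hgF : g ∈ F.fixingSubgroup)
    (Q : Ideal (𝓞 M)) (hQ : Q.IsPrime) (hℓQ : ((ℓ : ℕ) : 𝓞 M) ∈ Q) :
    Ideal.absNorm (Q.under (𝓞 F)) = ℓ := by
  obtain ⟨V, hV, hVQ⟩ := rcf_exists_val M hℓ Q hQ hℓQ
  have hQ0 : Q ≠ ⊥ := by
    intro h0
    rw [h0, Ideal.mem_bot] at hℓQ
    exact hℓ.ne_zero (by exact_mod_cast hℓQ)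
  have hP0 : Q.under (𝓞 F) ≠ ⊥ := Ideal.under_ne_bot (𝓞 F) hQ0
  have hPprime : (Q.under (𝓞 F)).IsPrime := Ideal.IsPrime.under (𝓞 F) Q
  haveI hPmax : (Q.under (𝓞 F)).IsMaximal := hPprime.isMaximal hP0
  letI : Field (𝓞 F ⧸ Q.under (𝓞 F)) := Ideal.Quotient.field _
  haveI : Finite (𝓞 F ⧸ Q.under (𝓞 F)) := Ideal.finiteQuotientOfFreeOfNeBot _ hP0
  have hℓP : ((ℓ : ℕ) : 𝓞 F) ∈ Q.under (𝓞 F) := by
    rw [Ideal.under_def, Ideal.mem_comap, map_natCast]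
    exact hℓQ
  haveI hchar : CharP (𝓞 F ⧸ Q.under (𝓞 F)) ℓ := by
    have h0 : ((ℓ : ℕ) : 𝓞 F ⧸ Q.under (𝓞 F)) = 0 := by
      have : (Ideal.Quotient.mk (Q.under (𝓞 F)) ((ℓ : ℕ) : 𝓞 F)) = 0 :=
        Ideal.Quotient.eq_zero_iff_mem.mpr hℓP
      simpa using this
    exact (CharP.charP_iff_prime_eq_zero hℓ).mpr h0
  have hmem : ∀ x : 𝓞 F, x ^ ℓ - x ∈ Q.under (𝓞 F) := by
    intro x
    rw [Ideal.under_def, Ideal.mem_comap, ← hVQ]
    apply (Fermat.Agent.KFin.mem_primeBelow_iff M V _).2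
    have e : ((((algebraMap (𝓞 F) (𝓞 M) (x ^ ℓ - x) : 𝓞 M) : M)) : Qb)
        = -(g ((x : F) : Qb) - ((x : F) : Qb) ^ ℓ) := by
      have h1 : (((algebraMap (𝓞 F) (𝓞 M) (x ^ ℓ - x) : 𝓞 M) : M))
          = algebraMap F M ((x ^ ℓ - x : 𝓞 F) : F) := rfl
      rw [h1, rcf_coe_algebraMap]
      have h2 : g ((x : F) : Qb) = ((x : F) : Qb) := by
        rw [IntermediateField.mem_fixingSubgroup_iff] at hgF
        exact hgF _ (x : F).2
      rw [h2]
      push_cast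
      ring
    rw [e]
    have hxM : ((x : F) : Qb) ∈ cycloField n := by
      have := (algebraMap F M (x : F)).2
      rw [rcf_coe_algebraMap] at this
      exact hM this
    have hxV : ((x : F) : Qb) ∈ V :=
      Fermat.Agent.FrobExists.mem_valuationSubring_of_isIntegral V
        (x.isIntegral_coe.map (IsScalarTower.toAlgHom ℤ F Qb))
    have := rcf_frob_sub_pow_mem n hℓ hℓn g hg V hV hxM hxV
    exact nonunits_neg_mem V this
  have hpow : ∀ a : 𝓞 F ⧸ Q.under (𝓞 F), a ^ ℓ = a := by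
    intro a
    obtain ⟨x, rfl⟩ := Ideal.Quotient.mk_surjective a
    rw [← map_pow, ← sub_eq_zero, ← map_sub]
    exact Ideal.Quotient.eq_zero_iff_mem.mpr (hmem x)
  rw [Ideal.absNorm_apply, Submodule.cardQuot_apply]
  exact rcf_card_eq_of_pow_eq hℓ hpow

/-- Every Frobenius element of `M / F` at a prime over `ℓ` is `g|_M`. -/
theorem rcf_frob_eq (hℓ : ℓ.Prime) (hℓn : ¬ ℓ ∣ n) (hM : M ≤ cycloField n) (g : GQ)
    (hg : ((modChar n g : (ZMod n)ˣ) : ZMod n) = (ℓ : ZMod n)) (hgF : g ∈ F.fixingSubgroup)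
    (τ : M ≃ₐ[F] M) (hτ : ∀ x : M, ((τ x : M) : Qb) = g (x : Qb))
    (Q : Ideal (𝓞 M)) (hQ : Q.IsPrime) (hℓQ : ((ℓ : ℕ) : 𝓞 M) ∈ Q)
    (τ' : M ≃ₐ[F] M) (hτ' : IsFrobRel τ' Q (Ideal.absNorm (Q.under (𝓞 F)))) : τ' = τ := by
  rw [rcf_absNorm_under n F M hℓ hℓn hM g hg hgF Q hQ hℓQ] at hτ'
  have h1 := rcf_isFrobRel n F M hℓ hℓn hM g hg τ hτ Q hQ hℓQ
  have hU := rcf_unramAt n F M hℓ hℓn hM Q hQ hℓQ
  have hin : Fermat.Agent.S14.InInertia (τ * τ'⁻¹) Q := by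
    intro x
    have hxi : IsIntegral ℤ (τ'⁻¹ (x : M)) := by
      have := x.isIntegral_coe.map ((τ'⁻¹).restrictScalars ℤ : M ≃ₐ[ℤ] M)
      exact this
    obtain ⟨y₁, hy₁, e₁⟩ := h1 ⟨_, hxi⟩
    obtain ⟨y₂, hy₂, e₂⟩ := hτ' ⟨_, hxi⟩
    refine ⟨y₁ - y₂, Q.sub_mem hy₁ hy₂, ?_⟩
    have e₃ : τ' (τ'⁻¹ (x : M)) = (x : M) := by
      show τ' (τ'.symm (x : M)) = (x : M)
      simp
    have e₁' : τ (τ'⁻¹ (x : M)) - (τ'⁻¹ (x : M)) ^ ℓ = (y₁ : M) := e₁
    have e₂' : τ' (τ'⁻¹ (x : M)) - (τ'⁻¹ (x : M)) ^ ℓ = (y₂ : M) := e₂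
    rw [e₃] at e₂'
    show τ (τ'⁻¹ (x : M)) - (x : M) = (y₁ : M) - (y₂ : M)
    rw [← e₁', ← e₂']
    ring
  have := hU _ hin
  exact (mul_inv_eq_one.mp this).symm

/-- The restriction of `g` to `M`, if `g` fixes `F`. -/
noncomputable def rcfRes (hM : M ≤ cycloField n) (g : GQ) (hgF : g ∈ F.fixingSubgroup) :
    M ≃ₐ[F] M :=
  haveI : Normal ℚ M := rcf_normal n M hM
  AlgEquiv.ofRingEquiv (f := (AlgEquiv.restrictNormalHom M g).toRingEquiv) (fun a => by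
    apply Subtype.ext
    show ((AlgEquiv.restrictNormalHom M g (algebraMap F M a) : M) : Qb) = _
    rw [Fermat.Agent.FrobExists.coe_restrictNormalHom_apply, rcf_coe_algebraMap]
    rw [IntermediateField.mem_fixingSubgroup_iff] at hgF
    exact hgF _ a.2)

theorem rcfRes_coe (hM : M ≤ cycloField n) (g : GQ) (hgF : g ∈ F.fixingSubgroup) (x : M) :
    ((rcfRes n F M hM g hgF x : M) : Qb) = g (x : Qb) := by
  haveI : Normal ℚ M := rcf_normal n M hM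
  exact Fermat.Agent.FrobExists.coe_restrictNormalHom_apply M g x

/-- The Frobenius elements of `M / F` over `ℓ` are non-trivial if `g` does not fix `M`. -/
theorem rcf_frob_ne_one (hℓ : ℓ.Prime) (hℓn : ¬ ℓ ∣ n) (hM : M ≤ cycloField n) (g : GQ)
    (hg : ((modChar n g : (ZMod n)ˣ) : ZMod n) = (ℓ : ZMod n)) (hgF : g ∈ F.fixingSubgroup)
    (hgM : g ∉ M.fixingSubgroup)
    (Q : Ideal (𝓞 M)) (hQ : Q.IsPrime) (hℓQ : ((ℓ : ℕ) : 𝓞 M) ∈ Q)
    (τ' : M ≃ₐ[F] M) (hτ' : IsFrobRel τ' Q (Ideal.absNorm (Q.under (𝓞 F)))) : τ' ≠ 1 := by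
  intro h1
  have h2 := rcf_frob_eq n F M hℓ hℓn hM g hg hgF (rcfRes n F M hM g hgF)
    (rcfRes_coe n F M hM g hgF) Q hQ hℓQ τ' hτ'
  apply hgM
  rw [IntermediateField.mem_fixingSubgroup_iff]
  intro x hx
  have h3 := rcfRes_coe n F M hM g hgF ⟨x, hx⟩
  rw [← h2, h1] at h3
  exact h3.symm

end Fields

end Fermat.Agent.F4RCF
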