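import Fermat.Agent.F4.Cf.Defs

/-!
# F4 / Cf / Lines : seat ACF-3a — all cyclic classes lie on one line

* `carryCo_add_char_pf` : the cyclic cocycle `x ∪ δχ` is additive in `χ` up to the explicit
  coboundary of `g ↦ - carry (χ g) (χ' g) • x`;
* `lines_pf` : any two cyclic classes are dependent (from the axioms `second`, `distinct` of a
  `PCF` and the two statements of the cyclic layer ACF-2, taken as hypotheses `hN`, `hI`).
-/

set_option autoImplicit false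
set_option linter.unusedSectionVars false

open CategoryTheory groupCohomology

namespace Fermat.Agent.F4Cf

open Fermat.Agent.F4

variable {G : Type} [Group G] {p : ℕ} [Fact p.Prime] {𝓤 : Levels G} {C : Rep.{0} ℤ G}
  {U₀ : Subgroup G}

/-! ### additivity in the character -/

lemma acf3_isLC₁_pair {X Y : Type*} {f : G → X} {f' : G → Y} (hf : IsLC₁ 𝓤 f)
    (hf' : IsLC₁ 𝓤 f') : IsLC₁ 𝓤 (fun g => (f g, f' g)) := by
  obtain ⟨U, hU, h⟩ := hf
  obtain ⟨V, hV, h'⟩ := hf'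
  obtain ⟨W, hW, hWle⟩ := 𝓤.directed U hU V hV
  exact ⟨W, hW, fun g s hs => by
    show (f (g * s), f' (g * s)) = (f g, f' g)
    rw [h g s (hWle hs).1, h' g s (hWle hs).2]⟩

lemma acf3_carry_identity {p : ℕ} [NeZero p] (u v u' v' : ZMod p) :
    ((((u + u').val + (v + v').val) / p : ℕ) : ℤ) - (((u.val + v.val) / p : ℕ) : ℤ)
        - (((u'.val + v'.val) / p : ℕ) : ℤ)
      = ((((u + v).val + (u' + v').val) / p : ℕ) : ℤ) - (((u.val + u'.val) / p : ℕ) : ℤ)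
        - (((v.val + v'.val) / p : ℕ) : ℤ) := by
  have h1 := UC.val_add_carry (u + u') (v + v')
  have h2 := UC.val_add_carry u v
  have h3 := UC.val_add_carry u' v'
  have h4 := UC.val_add_carry (u + v) (u' + v')
  have h5 := UC.val_add_carry u u'
  have h6 := UC.val_add_carry v v'
  have e : (u + u') + (v + v') = (u + v) + (u' + v') := by ring
  rw [e] at h1
  have hp : (p : ℤ) ≠ 0 := by exact_mod_cast NeZero.ne p
  replace h1 := congrArg (Nat.cast : ℕ → ℤ) h1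
  replace h2 := congrArg (Nat.cast : ℕ → ℤ) h2
  replace h3 := congrArg (Nat.cast : ℕ → ℤ) h3
  replace h4 := congrArg (Nat.cast : ℕ → ℤ) h4
  replace h5 := congrArg (Nat.cast : ℕ → ℤ) h5
  replace h6 := congrArg (Nat.cast : ℕ → ℤ) h6
  simp only [Nat.cast_add, Nat.cast_mul] at h1 h2 h3 h4 h5 h6
  apply mul_left_cancel₀ hp
  linear_combination h1 - h4 + h5 + h6 - h2 - h3

/-- The carry cochain is additive in the character, up to an explicit coboundary (**ACF-3a**). -/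
theorem carryCo_add_char_pf {χ χ' : G → ZMod p} (hχ : IsSmChar 𝓤 χ)
    (hχ' : IsSmChar 𝓤 χ') {x : C} (hx : Fix C ⊤ x) :
    (fun q => UC.carryCo C (χ + χ') x q - UC.carryCo C χ x q - UC.carryCo C χ' x q)
      ∈ B2 𝓤 C := by
  have : NeZero p := ⟨(Fact.out : p.Prime).ne_zero⟩
  have hx' : ∀ g, C.ρ g x = x := fun g => hx g (Subgroup.mem_top g)
  refine (UC.mem_B2 𝓤 C _).2
    ⟨fun g => (-((((χ g).val + (χ' g).val) / p : ℕ) : ℤ)) • x, ?_, ?_⟩
  · exact UC.isLC₁_map (fun c : ZMod p × ZMod p => (-(((c.1.val + c.2.val) / p : ℕ) : ℤ)) • x)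
      (acf3_isLC₁_pair hχ.2 hχ'.2)
  · funext ⟨g, h⟩
    have key := acf3_carry_identity (χ g) (χ h) (χ' g) (χ' h)
    show C.ρ g ((-((((χ h).val + (χ' h).val) / p : ℕ) : ℤ)) • x)
        - (-((((χ (g * h)).val + (χ' (g * h)).val) / p : ℕ) : ℤ)) • x
        + (-((((χ g).val + (χ' g).val) / p : ℕ) : ℤ)) • x
      = ((((χ g + χ' g).val + (χ h + χ' h).val) / p : ℕ)) • x
        - ((((χ g).val + (χ h).val) / p : ℕ)) • x - ((((χ' g).val + (χ' h).val) / p : ℕ)) • x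
    rw [hχ.1 g h, hχ'.1 g h, map_zsmul, hx' g]
    simp only [← natCast_zsmul]
    generalize ((((χ g + χ' g).val + (χ h + χ' h).val) / p : ℕ) : ℤ) = c1 at key ⊢
    generalize ((((χ g).val + (χ h).val) / p : ℕ) : ℤ) = c2 at key ⊢
    generalize ((((χ' g).val + (χ' h).val) / p : ℕ) : ℤ) = c3 at key ⊢
    generalize ((((χ g + χ h).val + (χ' g + χ' h).val) / p : ℕ) : ℤ) = c4 at key ⊢
    generalize ((((χ g).val + (χ' g).val) / p : ℕ) : ℤ) = c5 at key ⊢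
    generalize ((((χ h).val + (χ' h).val) / p : ℕ) : ℤ) = c6 at key ⊢
    have key' : c1 = c2 + c3 + c4 - c5 - c6 := by linarith
    rw [key']
    module

end Fermat.Agent.F4Cf

namespace Fermat.Agent.F4Cf

open Fermat.Agent.F4

variable {G : Type} [Group G] {p : ℕ} [Fact p.Prime] {𝓤 : Levels G} {C : Rep.{0} ℤ G}
  {U₀ : Subgroup G}

/-! ### characters and their cyclic layers -/

lemma acf3_char_one {χ : G → ZMod p} (hχ : ∀ g h : G, χ (g * h) = χ g + χ h) : χ 1 = 0 :=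
  (charKer χ hχ).one_mem

lemma acf3_char_inv {χ : G → ZMod p} (hχ : ∀ g h : G, χ (g * h) = χ g + χ h) (g : G) :
    χ g⁻¹ = -χ g := by
  have h := hχ g g⁻¹
  rw [mul_inv_cancel, acf3_char_one hχ] at h
  exact eq_neg_of_add_eq_zero_right h.symm

lemma acf3_char_pow {χ : G → ZMod p} (hχ : ∀ g h : G, χ (g * h) = χ g + χ h) (g : G) (n : ℕ) :
    χ (g ^ n) = (n : ZMod p) * χ g := by
  induction n with
  | zero => simp [acf3_char_one hχ]
  | succ n ih => rw [pow_succ, hχ, ih]; push_cast; ring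

lemma acf3_isSmChar_zero : IsSmChar 𝓤 (0 : G → ZMod p) :=
  ⟨fun _ _ => by simp, isLC₁_const 𝓤 (0 : ZMod p)⟩

lemma acf3_isSmChar_add {χ χ' : G → ZMod p} (hχ : IsSmChar 𝓤 χ) (hχ' : IsSmChar 𝓤 χ') :
    IsSmChar 𝓤 (χ + χ') :=
  ⟨fun g h => by simp only [Pi.add_apply, hχ.1 g h, hχ'.1 g h]; ring, hχ.2.add hχ'.2⟩

lemma acf3_isSmChar_nsmul {χ : G → ZMod p} (hχ : IsSmChar 𝓤 χ) (n : ℕ) :
    IsSmChar 𝓤 (n • χ) := by
  induction n with
  | zero => rw [zero_smul]; exact acf3_isSmChar_zero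
  | succ n ih => rw [succ_nsmul]; exact acf3_isSmChar_add ih hχ

lemma acf3_isOpen_charKer {χ : G → ZMod p} (hχ : IsSmChar 𝓤 χ) :
    𝓤.IsOpen (charKer χ hχ.1) := by
  obtain ⟨U, hU, h⟩ := hχ.2
  refine ⟨U, hU, fun s hs => ?_⟩
  show χ s = 0
  have := h 1 s hs
  rwa [one_mul, acf3_char_one hχ.1] at this

/-- A nonzero character takes the value `1`. -/
lemma acf3_exists_eq_one {χ : G → ZMod p} (hχ : ∀ g h : G, χ (g * h) = χ g + χ h) {g : G}
    (hg : χ g ≠ 0) : ∃ σ : G, χ σ = 1 := by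
  refine ⟨g ^ ((χ g)⁻¹).val, ?_⟩
  rw [acf3_char_pow hχ, ZMod.natCast_zmod_val, inv_mul_cancel₀ hg]

/-- The cyclic layer of a character with `χ σ = 1`. -/
lemma acf3_isCyc_of_char {χ : G → ZMod p} (hχ : ∀ g h : G, χ (g * h) = χ g + χ h) {σ : G}
    (hσ : χ σ = 1) : IsCyc p ⊤ (charKer χ hχ) σ where
  le := le_top
  normal := by
    intro u _ v hv
    show χ (u * v * u⁻¹) = 0
    rw [hχ, hχ, acf3_char_inv hχ, show χ v = 0 from hv]
    ring
  mem := Subgroup.mem_top σ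
  not_mem := by
    intro h
    have h0 : χ σ = 0 := h
    rw [hσ] at h0
    exact one_ne_zero h0
  pow_mem := by
    show χ (σ ^ p) = 0
    rw [acf3_char_pow hχ, ZMod.natCast_self, zero_mul]
  gen := by
    intro u _
    refine ⟨(χ u).val, ZMod.val_lt _, ?_⟩
    show χ ((σ ^ (χ u).val)⁻¹ * u) = 0
    rw [hχ, acf3_char_inv hχ, acf3_char_pow hχ, hσ, ZMod.natCast_zmod_val]
    ring

/-! ### norms of a cyclic layer -/

lemma acf3_ρ_mul (g h : G) (x : C) : C.ρ (g * h) x = C.ρ g (C.ρ h x) := by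
  rw [map_mul]; rfl

lemma acf3_ρ_one (x : C) : C.ρ 1 x = x := by
  rw [map_one]; rfl

/-- The norm of a cyclic layer is invariant under the big group. -/
lemma acf3_fix_cnorm {U V : Subgroup G} {σ : G} (hcyc : IsCyc p U V σ) {y : C}
    (hy : Fix C V y) : Fix C U (cnorm C p σ y) := by
  -- `V` fixes every `σ^j y`
  have hV : ∀ v ∈ V, ∀ j : ℕ, C.ρ v (C.ρ (σ ^ j) y) = C.ρ (σ ^ j) y := by
    intro v hv j
    have hmem : (σ ^ j)⁻¹ * v * ((σ ^ j)⁻¹)⁻¹ ∈ V :=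
      hcyc.normal _ (U.inv_mem (U.pow_mem hcyc.mem j)) v hv
    have e : v * σ ^ j = σ ^ j * ((σ ^ j)⁻¹ * v * ((σ ^ j)⁻¹)⁻¹) := by group
    rw [← acf3_ρ_mul, e, acf3_ρ_mul, hy _ hmem]
  have hVN : ∀ v ∈ V, C.ρ v (cnorm C p σ y) = cnorm C p σ y := by
    intro v hv
    unfold cnorm
    rw [map_sum]
    exact Finset.sum_congr rfl fun j _ => hV v hv j
  have hσN : C.ρ σ (cnorm C p σ y) = cnorm C p σ y := by
    unfold cnorm
    rw [map_sum]
    have e1 : ∀ j : ℕ, C.ρ σ (C.ρ (σ ^ j) y) = C.ρ (σ ^ (j + 1)) y := by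
      intro j
      rw [← acf3_ρ_mul, ← pow_succ']
    simp only [e1]
    have h1 := Finset.sum_range_succ' (fun j => C.ρ (σ ^ j) y) p
    have h2 := Finset.sum_range_succ (fun j => C.ρ (σ ^ j) y) p
    rw [h2] at h1
    simp only [pow_zero, acf3_ρ_one, hy _ hcyc.pow_mem] at h1
    exact (add_right_cancel h1).symm
  have hpow : ∀ i : ℕ, C.ρ (σ ^ i) (cnorm C p σ y) = cnorm C p σ y := by
    intro i
    induction i with
    | zero => rw [pow_zero, acf3_ρ_one]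
    | succ i ih => rw [pow_succ, acf3_ρ_mul, hσN, ih]
  intro u hu
  obtain ⟨i, -, hv⟩ := hcyc.gen u hu
  have e : u = σ ^ i * ((σ ^ i)⁻¹ * u) := by group
  rw [e, acf3_ρ_mul, hVN _ hv, hpow]

/-- The norm of an invariant element is its `p`-th multiple. -/
lemma acf3_cnorm_of_fix (σ : G) {x : C} (hx : Fix C ⊤ x) : cnorm C p σ x = p • x := by
  unfold cnorm
  rw [Finset.sum_congr rfl fun i _ => hx (σ ^ i) (Subgroup.mem_top _)]
  simp

/-! ### classes modulo smooth coboundaries -/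

/-- The class of a 2-cochain modulo smooth coboundaries (as a map of additive groups). -/
noncomputable def acf3_cls (𝓤 : Levels G) (C : Rep.{0} ℤ G) :
    (G × G → C) →+ ((G × G → C) ⧸ (B2 𝓤 C).toAddSubgroup) :=
  QuotientAddGroup.mk' (B2 𝓤 C).toAddSubgroup

lemma acf3_cls_eq_zero {w : G × G → C} : acf3_cls 𝓤 C w = 0 ↔ w ∈ B2 𝓤 C := by
  unfold acf3_cls
  rw [QuotientAddGroup.mk'_apply, QuotientAddGroup.eq_zero_iff]
  rfl

/-- The cyclic class `x ∪ δχ`. -/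
noncomputable def acf3_cyc (𝓤 : Levels G) (C : Rep.{0} ℤ G) (χ : G → ZMod p) (x : C) :
    (G × G → C) ⧸ (B2 𝓤 C).toAddSubgroup := acf3_cls 𝓤 C (UC.carryCo C χ x)

lemma acf3_cyc_add (χ : G → ZMod p) (x x' : C) :
    acf3_cyc 𝓤 C χ (x + x') = acf3_cyc 𝓤 C χ x + acf3_cyc 𝓤 C χ x' := by
  unfold acf3_cyc
  rw [← map_add]
  congr 1
  funext q
  simp [UC.carryCo_apply, smul_add]

lemma acf3_cyc_sub (χ : G → ZMod p) (x x' : C) :
    acf3_cyc 𝓤 C χ (x - x') = acf3_cyc 𝓤 C χ x - acf3_cyc 𝓤 C χ x' := by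
  unfold acf3_cyc
  rw [← map_sub]
  congr 1
  funext q
  simp [UC.carryCo_apply, smul_sub]

lemma acf3_cyc_nsmul (χ : G → ZMod p) (n : ℕ) (x : C) :
    acf3_cyc 𝓤 C χ (n • x) = n • acf3_cyc 𝓤 C χ x := by
  unfold acf3_cyc
  rw [← map_nsmul]
  congr 1
  funext q
  simp only [UC.carryCo_apply, Pi.smul_apply]
  rw [smul_comm]

lemma acf3_cyc_zero_char (x : C) : acf3_cyc 𝓤 C (0 : G → ZMod p) x = 0 := by
  unfold acf3_cyc
  rw [acf3_cls_eq_zero]
  have : UC.carryCo C (0 : G → ZMod p) x = 0 := by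
    funext q
    simp [UC.carryCo_apply]
  rw [this]
  exact Submodule.zero_mem _

lemma acf3_cyc_add_char {χ χ' : G → ZMod p} (hχ : IsSmChar 𝓤 χ) (hχ' : IsSmChar 𝓤 χ') {x : C}
    (hx : Fix C ⊤ x) : acf3_cyc 𝓤 C (χ + χ') x = acf3_cyc 𝓤 C χ x + acf3_cyc 𝓤 C χ' x := by
  have h := carryCo_add_char_pf hχ hχ' hx
  rw [← acf3_cls_eq_zero] at h
  have e : (fun q => UC.carryCo C (χ + χ') x q - UC.carryCo C χ x q - UC.carryCo C χ' x q)
      = UC.carryCo C (χ + χ') x - UC.carryCo C χ x - UC.carryCo C χ' x := rfl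
  rw [e, map_sub, map_sub, sub_sub, sub_eq_zero] at h
  exact h

lemma acf3_cyc_nsmul_char {χ : G → ZMod p} (hχ : IsSmChar 𝓤 χ) {x : C} (hx : Fix C ⊤ x) (n : ℕ) :
    acf3_cyc 𝓤 C (n • χ) x = n • acf3_cyc 𝓤 C χ x := by
  induction n with
  | zero => rw [zero_smul, zero_smul]; exact acf3_cyc_zero_char x
  | succ n ih =>
    rw [succ_nsmul, acf3_cyc_add_char (acf3_isSmChar_nsmul hχ n) hχ hx, ih, succ_nsmul]

/-! ### the hypotheses from the cyclic layer (ACF-2) and their `acf3_cyc` forms -/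

/-- The statement of `carryCo_of_norm` (ACF-2) for the formation `(G, 𝓤, C)`. -/
def Acf3HypNorm (p : ℕ) (𝓤 : Levels G) (C : Rep.{0} ℤ G) : Prop :=
  ∀ (χ : G → ZMod p) (hχ : IsSmChar 𝓤 χ) (σ : G), χ σ = 1 → ∀ y : C,
    Fix C (charKer χ hχ.1) y → UC.carryCo C χ (cnorm C p σ y) ∈ B2 𝓤 C

/-- The statement of `carryCo_inj` (ACF-2) for the formation `(G, 𝓤, C)`. -/
def Acf3HypInj (p : ℕ) (𝓤 : Levels G) (C : Rep.{0} ℤ G) : Prop :=
  ∀ (χ : G → ZMod p) (hχ : IsSmChar 𝓤 χ) (σ : G), χ σ = 1 → ∀ x : C, Fix C ⊤ x →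
    UC.carryCo C χ x ∈ B2 𝓤 C → IsNormFrom C p (charKer χ hχ.1) σ x

lemma acf3_fix_mono {U V : Subgroup G} (hVU : V ≤ U) {x : C} (hx : Fix C U x) : Fix C V x :=
  fun g hg => hx g (hVU hg)

lemma acf3_fix_nsmul {U : Subgroup G} {x : C} (hx : Fix C U x) (n : ℕ) : Fix C U (n • x) :=
  fun g hg => by rw [map_nsmul, hx g hg]

lemma acf3_fix_sub {U : Subgroup G} {x y : C} (hx : Fix C U x) (hy : Fix C U y) :
    Fix C U (x - y) :=
  fun g hg => by rw [map_sub, hx g hg, hy g hg]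

lemma acf3_cyc_of_norm (hN : Acf3HypNorm p 𝓤 C) {χ : G → ZMod p} (hχ : IsSmChar 𝓤 χ) {σ : G}
    (hσ : χ σ = 1) {x : C} (hxN : IsNormFrom C p (charKer χ hχ.1) σ x) : acf3_cyc 𝓤 C χ x = 0 := by
  obtain ⟨y, hy, rfl⟩ := hxN
  exact acf3_cls_eq_zero.2 (hN χ hχ σ hσ y hy)

lemma acf3_norm_of_cyc (hI : Acf3HypInj p 𝓤 C) {χ : G → ZMod p} (hχ : IsSmChar 𝓤 χ) {σ : G}
    (hσ : χ σ = 1) {x : C} (hx : Fix C ⊤ x) (h0 : acf3_cyc 𝓤 C χ x = 0) :
    IsNormFrom C p (charKer χ hχ.1) σ x :=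
  hI χ hχ σ hσ x hx (acf3_cls_eq_zero.1 h0)

lemma acf3_p_smul_cyc (hN : Acf3HypNorm p 𝓤 C) {χ : G → ZMod p} (hχ : IsSmChar 𝓤 χ) {σ : G}
    (hσ : χ σ = 1) {x : C} (hx : Fix C ⊤ x) : p • acf3_cyc 𝓤 C χ x = 0 := by
  rw [← acf3_cyc_nsmul, ← acf3_cnorm_of_fix σ hx]
  exact acf3_cyc_of_norm hN hχ hσ ⟨x, acf3_fix_mono le_top hx, rfl⟩

/-- the axiom `second` in terms of cyclic classes -/
lemma acf3_cyc_second (h : PCF p 𝓤 C U₀) (hN : Acf3HypNorm p 𝓤 C) {χ : G → ZMod p}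
    (hχ : IsSmChar 𝓤 χ) {σ : G} (hσ : χ σ = 1) {a b : C} (ha : Fix C ⊤ a) (hb : Fix C ⊤ b)
    (hna : ¬ IsNormFrom C p (charKer χ hχ.1) σ a) :
    ∃ k : ℕ, acf3_cyc 𝓤 C χ b = k • acf3_cyc 𝓤 C χ a := by
  obtain ⟨k, hk⟩ := h.second ⊤ (charKer χ hχ.1) σ (acf3_isOpen_charKer hχ)
    (acf3_isCyc_of_char hχ.1 hσ) a b ha hb hna
  refine ⟨k, ?_⟩
  have := acf3_cyc_of_norm hN hχ hσ hk
  rw [acf3_cyc_sub, acf3_cyc_nsmul, sub_eq_zero] at this
  exact this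

/-- membership in `B2` of a combination, as an equation between classes -/
lemma acf3_comb_mem_iff (a b : ℤ) (w w' : G × G → C) :
    (fun q => a • w q + b • w' q) ∈ B2 𝓤 C ↔ a • acf3_cls 𝓤 C w + b • acf3_cls 𝓤 C w' = 0 := by
  rw [← acf3_cls_eq_zero, ← map_zsmul, ← map_zsmul, ← map_add]
  rfl

/-- two characters with the same kernel are proportional -/
lemma acf3_char_eq_smul {χ χ' : G → ZMod p} (hχ : ∀ g h : G, χ (g * h) = χ g + χ h)
    (hχ' : ∀ g h : G, χ' (g * h) = χ' g + χ' h) {σ : G} (hσ : χ σ = 1)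
    (hker : charKer χ hχ = charKer χ' hχ') : χ' = (χ' σ).val • χ := by
  funext g
  have hmem : (σ ^ (χ g).val)⁻¹ * g ∈ charKer χ hχ := by
    show χ ((σ ^ (χ g).val)⁻¹ * g) = 0
    rw [hχ, acf3_char_inv hχ, acf3_char_pow hχ, hσ, ZMod.natCast_zmod_val]
    ring
  rw [hker] at hmem
  have h0 : χ' ((σ ^ (χ g).val)⁻¹ * g) = 0 := hmem
  rw [hχ', acf3_char_inv hχ', acf3_char_pow hχ', ZMod.natCast_zmod_val] at h0
  have h1 : χ' g = χ g * χ' σ := by
    have := eq_neg_of_add_eq_zero_right h0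
    rw [this]; ring
  rw [h1, Pi.smul_apply, nsmul_eq_mul, ZMod.natCast_zmod_val]
  ring

/-- **Claim B** (ACF-3a): any two cyclic classes are dependent. -/
theorem lines_pf (h : PCF p 𝓤 C U₀) (hN : Acf3HypNorm p 𝓤 C) (hI : Acf3HypInj p 𝓤 C)
    {χ χ' : G → ZMod p} (hχ : IsSmChar 𝓤 χ) (hχ' : IsSmChar 𝓤 χ')
    {x x' : C} (hx : Fix C ⊤ x) (hx' : Fix C ⊤ x') :
    ∃ a b : ℤ, (¬ (p : ℤ) ∣ a ∨ ¬ (p : ℤ) ∣ b) ∧
      (fun q => a • UC.carryCo C χ x q + b • UC.carryCo C χ' x' q) ∈ B2 𝓤 C := by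
  have hp : p.Prime := Fact.out
  have hp1 : ¬ (p : ℤ) ∣ 1 := by
    intro hd
    have := Int.eq_one_of_dvd_one (by positivity) hd
    have : p = 1 := by exact_mod_cast this
    exact hp.one_lt.ne' this
  suffices H : ∃ a b : ℤ, (¬ (p : ℤ) ∣ a ∨ ¬ (p : ℤ) ∣ b) ∧
      a • acf3_cyc 𝓤 C χ x + b • acf3_cyc 𝓤 C χ' x' = 0 by
    obtain ⟨a, b, hab, hcomb⟩ := H
    exact ⟨a, b, hab, (acf3_comb_mem_iff a b _ _).2 hcomb⟩
  -- trivial characters
  by_cases hχ0 : ∀ g, χ g = 0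
  · have : χ = 0 := funext hχ0
    subst this
    exact ⟨1, 0, Or.inl hp1, by rw [acf3_cyc_zero_char]; simp⟩
  by_cases hχ'0 : ∀ g, χ' g = 0
  · have : χ' = 0 := funext hχ'0
    subst this
    exact ⟨0, 1, Or.inr hp1, by rw [acf3_cyc_zero_char]; simp⟩
  push Not at hχ0 hχ'0
  obtain ⟨g, hg⟩ := hχ0
  obtain ⟨g', hg'⟩ := hχ'0
  obtain ⟨σ, hσ⟩ := acf3_exists_eq_one hχ.1 hg
  obtain ⟨σ', hσ'⟩ := acf3_exists_eq_one hχ'.1 hg'
  by_cases hVV : charKer χ hχ.1 = charKer χ' hχ'.1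
  · -- same kernel
    have hc := acf3_char_eq_smul hχ.1 hχ'.1 hσ hVV
    have e1 : acf3_cyc 𝓤 C χ' x' = acf3_cyc 𝓤 C χ ((χ' σ).val • x') := by
      conv_lhs => rw [hc]
      rw [acf3_cyc_nsmul_char hχ hx', acf3_cyc_nsmul]
    by_cases hxN : IsNormFrom C p (charKer χ hχ.1) σ x
    · exact ⟨1, 0, Or.inl hp1, by rw [acf3_cyc_of_norm hN hχ hσ hxN]; simp⟩
    · obtain ⟨k, hk⟩ := acf3_cyc_second h hN hχ hσ hx (acf3_fix_nsmul hx' (χ' σ).val) hxN
      refine ⟨-(k : ℤ), 1, Or.inr hp1, ?_⟩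
      rw [e1, hk, neg_smul, natCast_zsmul, one_smul, neg_add_cancel]
  · -- different kernels
    have hVV' : charKer χ' hχ'.1 ≠ charKer χ hχ.1 := fun e => hVV e.symm
    have hχ'' : IsSmChar 𝓤 (χ + χ') := acf3_isSmChar_add hχ hχ'
    -- `χ + χ'` is not zero
    have hne : ∃ g'', (χ + χ') g'' ≠ 0 := by
      by_contra hall
      push Not at hall
      apply hVV
      ext u
      show χ u = 0 ↔ χ' u = 0
      have := hall u
      rw [Pi.add_apply] at this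
      constructor
      · intro hu; rw [hu, zero_add] at this; exact this
      · intro hu; rw [hu, add_zero] at this; exact this
    obtain ⟨g'', hg''⟩ := hne
    obtain ⟨σ'', hσ''⟩ := acf3_exists_eq_one hχ''.1 hg''
    have L := acf3_isCyc_of_char hχ.1 hσ
    have L' := acf3_isCyc_of_char hχ'.1 hσ'
    obtain ⟨y, hy, hn⟩ := h.distinct ⊤ _ _ σ σ' (acf3_isOpen_charKer hχ)
      (acf3_isOpen_charKer hχ') L L' hVV
    obtain ⟨y', hy', hn'⟩ := h.distinct ⊤ _ _ σ' σ (acf3_isOpen_charKer hχ')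
      (acf3_isOpen_charKer hχ) L' L hVV'
    set n := cnorm C p σ y with hndef
    set n' := cnorm C p σ' y' with hn'def
    have hnfix : Fix C ⊤ n := acf3_fix_cnorm L hy
    have hn'fix : Fix C ⊤ n' := acf3_fix_cnorm L' hy'
    have c1 : acf3_cyc 𝓤 C χ n = 0 := acf3_cyc_of_norm hN hχ hσ ⟨y, hy, rfl⟩
    have c2 : acf3_cyc 𝓤 C χ' n' = 0 := acf3_cyc_of_norm hN hχ' hσ' ⟨y', hy', rfl⟩
    set e := acf3_cyc 𝓤 C χ' n with hedef
    have c3 : acf3_cyc 𝓤 C (χ + χ') n = e := by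
      rw [acf3_cyc_add_char hχ hχ' hnfix, c1, zero_add]
    have c4 : acf3_cyc 𝓤 C (χ + χ') n' = acf3_cyc 𝓤 C χ n' := by
      rw [acf3_cyc_add_char hχ hχ' hn'fix, c2, add_zero]
    have he : e ≠ 0 := fun h0 => hn (acf3_norm_of_cyc hI hχ' hσ' hnfix h0)
    have hn'' : ¬ IsNormFrom C p (charKer (χ + χ') hχ''.1) σ'' n := by
      intro hnorm
      have := acf3_cyc_of_norm hN hχ'' hσ'' hnorm
      rw [c3] at this
      exact he this
    obtain ⟨k, hk⟩ := acf3_cyc_second h hN hχ'' hσ'' hnfix hn'fix hn''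
    rw [c4, c3] at hk
    obtain ⟨j, hj⟩ := acf3_cyc_second h hN hχ hσ hn'fix hx hn'
    obtain ⟨j', hj'⟩ := acf3_cyc_second h hN hχ' hσ' hnfix hx' hn
    rw [hk] at hj
    rw [← hedef] at hj'
    have hpe : p • e = 0 := acf3_p_smul_cyc hN hχ' hσ' hnfix
    by_cases hdiv : p ∣ j'
    · obtain ⟨m, rfl⟩ := hdiv
      refine ⟨0, 1, Or.inr hp1, ?_⟩
      rw [hj', zero_smul, one_smul, zero_add, mul_comm, mul_smul, hpe, smul_zero]
    · refine ⟨(j' : ℤ), -((j * k : ℕ) : ℤ), Or.inl ?_, ?_⟩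
      · intro hd
        exact hdiv (Int.natCast_dvd_natCast.1 hd)
      · rw [hj, hj', neg_smul, natCast_zsmul, natCast_zsmul, smul_smul, smul_smul, smul_smul]
        rw [show j' * j * k = j * k * j' by ring, add_neg_cancel]

end Fermat.Agent.F4Cf
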