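import Fermat.Agent.F4.Cf.Defs
import Fermat.Agent.F4.Dict.Formation
import Fermat.Agent.F4.Cf.DictU0
import Fermat.Agent.F4.Dict.Two
import Fermat.Agent.F4.Dict.HasseDict
import Fermat.Agent.F4.Dict.ArtinMain
import Fermat.Agent.F4.Dict.Second
import Fermat.Agent.F4.Dict.ExistFin

/-!
# F4 / Cf / Dict : the formation `(G_ℚ, levelsS S, C = J / E)` is a class formation mod `p`
(STUBS — layer DICT of GLOB; statements by helper53, blueprint `NOTES/blueprint-F4-GLOB.md`)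

Target: `pcf_Crep : PCF p (levelsS S) (Crep S) (U0 p)`, `U0 p = Gal(ℚ̄/ℚ(μ_p))`, for `p` odd,
`p ∈ S`, with `Crep S = Jrep S / EinJ S` of `F4/Dict/Formation.lean`.

Dictionary.  `U` open in `G_S`, `F` its fixed field (a number field inside `ℚ_S`), `V ⊴ U` of
index `p`, `M ⊃ F` its fixed field, cyclic of degree `p`, unramified outside `S`.
Up to prime-to-`p` torsion, `(Crep S)^U = C_S(F) := (∏_{w | S} F_w^× × I_F^S) / F^×`
(`I_F^S` = fractional ideals prime to `S`): seat KAPPA.  Then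

* `hasse`    ⟸ Hasse norm theorem `F4G.hasseNorm` (+ Hilbert 90 for idèles and for ideals);
* `first`    ⟸ `F4G.firstIneq_norm`;
* `second`   ⟸ `F4G.SecondIneqNorm` (`F4G.secondIneqNorm_of`, `F4Ray.SecondIneqRay`);
* `distinct` ⟸ Artin reciprocity `F4Rec.ArtinRay` (the norm group determines the layer);
* `two`      ⟸ Kummer theory: `F ⊇ μ_p`, `F(ζ_{p²})` or `F(p^{1/p})`, `F(u^{1/p})`;
* `exist`    ⟸ existence theorem for exponent `p`, `F4Kum.KumEx`.
-/

set_option autoImplicit false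
set_option synthInstance.maxHeartbeats 400000

open CategoryTheory groupCohomology ExtCitation

namespace Fermat.Agent.F4Cf

open Fermat.Agent.F4

variable (p : ℕ) [Fact p.Prime] (S : Finset Nat.Primes)

/-- `Gal(ℚ̄/ℚ(μ_p))`, the kernel of the mod `p` cyclotomic character. -/
noncomputable def U0 : Subgroup GQ := MonoidHom.ker (cycloChar p)

/-- `ℚ(μ_p) ⊂ ℚ_S` when `p ∈ S`. -/
theorem U0_isOpen (hpS : pPrime p ∈ S) : (levelsS S).IsOpen (U0 p) :=
  U0_isOpen_pf p S hpS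

theorem U0_index : ¬ p ∣ (U0 p).index :=
  U0_index_pf p

/-- **Hasse norm theorem** for `C = J / E`. -/
theorem dict_hasse (hp2 : p ≠ 2) (hpS : pPrime p ∈ S) (U V : Subgroup GQ) (σ : GQ)
    (hV : (levelsS S).IsOpen V) (hc : IsCyc p U V σ) (y : Crep S) (hy : Fix (Crep S) V y)
    (hN : cnorm (Crep S) p σ y = 0) :
    ∃ (m : ℕ) (z : Crep S), ¬ p ∣ m ∧ Fix (Crep S) V z ∧ m • y = (Crep S).ρ σ z - z :=
  dict_hasse_pf p S hp2 hpS U V σ hV hc y hy hN

/-- **First inequality** for `C = J / E`. -/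
theorem dict_first (hp2 : p ≠ 2) (hpS : pPrime p ∈ S) (U V : Subgroup GQ) (σ : GQ)
    (hV : (levelsS S).IsOpen V) (hc : IsCyc p U V σ) :
    ∃ a : Crep S, Fix (Crep S) U a ∧ ¬ IsNormFrom (Crep S) p V σ a :=
  dict_first_pf hp2 hpS U V σ hV hc

/-- **Second inequality** for `C = J / E`. -/
theorem dict_second (hp2 : p ≠ 2) (hpS : pPrime p ∈ S) (U V : Subgroup GQ) (σ : GQ)
    (hV : (levelsS S).IsOpen V) (hc : IsCyc p U V σ) (a b : Crep S)
    (ha : Fix (Crep S) U a) (hb : Fix (Crep S) U b) (hna : ¬ IsNormFrom (Crep S) p V σ a) :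
    ∃ k : ℕ, IsNormFrom (Crep S) p V σ (b - k • a) :=
  Fermat.Agent.F4.dict_second_pf p S hpS U V σ hV hc a b ha hb hna

/-- **Reciprocity**: distinct cyclic layers of degree `p` have distinct norm groups. -/
theorem dict_distinct (hp2 : p ≠ 2) (hpS : pPrime p ∈ S) (U V V' : Subgroup GQ) (σ σ' : GQ)
    (hV : (levelsS S).IsOpen V) (hV' : (levelsS S).IsOpen V')
    (hc : IsCyc p U V σ) (hc' : IsCyc p U V' σ') (hne : V ≠ V') :
    ∃ y : Crep S, Fix (Crep S) V y ∧ ¬ IsNormFrom (Crep S) p V' σ' (cnorm (Crep S) p σ y) :=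
  dict_distinct_pf hp2 hpS U V V' σ σ' hV hV' hc hc' hne

/-- **Kummer**: a number field `F ⊇ ℚ(μ_p)` inside `ℚ_S` (`p ∈ S`) has two distinct cyclic
extensions of degree `p` inside `ℚ_S`. -/
theorem dict_two (hp2 : p ≠ 2) (hpS : pPrime p ∈ S) (U : Subgroup GQ)
    (hU : (levelsS S).IsOpen U) (hU0 : U ≤ U0 p) :
    ∃ (V V' : Subgroup GQ) (σ σ' : GQ), (levelsS S).IsOpen V ∧ (levelsS S).IsOpen V' ∧
      IsCyc p U V σ ∧ IsCyc p U V' σ' ∧ V ≠ V' :=
  dict_two_pf p S hp2 hpS U hU hU0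

/-- **Existence theorem** for exponent `p` (`F ⊇ ℚ(μ_p)`). -/
theorem dict_exist (hp2 : p ≠ 2) (hpS : pPrime p ∈ S) (U : Subgroup GQ)
    (hU : (levelsS S).IsOpen U) (hU0 : U ≤ U0 p) (a : Crep S) (ha : Fix (Crep S) U a)
    (hall : ∀ (V : Subgroup GQ) (σ : GQ), (levelsS S).IsOpen V → IsCyc p U V σ →
      IsNormFrom (Crep S) p V σ a) :
    ∃ (m : ℕ) (b : Crep S), ¬ p ∣ m ∧ Fix (Crep S) U b ∧ m • a = p • b :=
  Fermat.Agent.F4.dict_exist_pf p S hp2 hpS U hU hU0 a ha hall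

/-- **DICT**: `(G_ℚ, levelsS S, J / E)` is a class formation mod `p`. -/
theorem pcf_Crep (hp2 : p ≠ 2) (hpS : pPrime p ∈ S) :
    PCF p (levelsS S) (Crep S) (U0 p) where
  smooth := Crep_smooth S
  open₀ := U0_isOpen p S hpS
  normal₀ := by unfold U0; infer_instance
  index₀ := U0_index p
  hasse := dict_hasse p S hp2 hpS
  first := dict_first p S hp2 hpS
  second := dict_second p S hp2 hpS
  distinct := dict_distinct p S hp2 hpS
  two := dict_two p S hp2 hpS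
  exist := dict_exist p S hp2 hpS

end Fermat.Agent.F4Cf
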