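import Fermat.Agent.F4.Cf.Defs
import Fermat.Agent.F4.Shapiro.ModCor

/-!
# F4 / Cf / F1sm : seat ACF-3d — `F1sm` for a class formation mod `p` (Sylow reduction)
(owner helper13; statement `f1sm` of `F4/Cf/Statements.lean`, proved here under the name
`f1sm_pf`, with the statements of `PCF.res` (ACF-0), `cyclic_of_pGroup` (ACF-3c) and `lines`
(ACF-3a) for the formations of the open subgroups as explicit hypotheses.)

Proof.  `W ∈ 𝓤`, `W ≤ U₀`, a level of `w₁, w₂`; `P` the preimage of a Sylow `p`-subgroup of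
`G ⧸ W`; then `P ≤ U₀`; over `P` both classes are cyclic (`cyclic_of_pGroup`), hence dependent
(`lines`); `cor ∘ res = [G : P]` and `p ∤ [G : P]`.

The group-theoretic lemmas `f1g_exists_sylow_preimage`, `f1g_res_mem_B2`,
`f1g_index_smul_mem_B2` are the ones of helper89's `F4/Loc/Smooth/F1.lean` (copied, to keep
`F4/Cf` independent of `F4/Loc`).
-/

set_option autoImplicit false
set_option linter.unusedSectionVars false
set_option linter.style.haveILetI false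

open CategoryTheory groupCohomology

namespace Fermat.Agent.F4Cf

open Fermat.Agent.F4

section Sylow

variable {G : Type} [Group G]

/-- The preimage `U` of a Sylow `p`-subgroup of `G ⧸ V`: `p ∤ [G : U]`, `[U : V] = p ^ a`. -/
theorem f1g_exists_sylow_preimage (p : ℕ) [Fact p.Prime] (V : Subgroup G) [V.Normal]
    [V.FiniteIndex] :
    ∃ (U : Subgroup G) (a : ℕ), V ≤ U ∧ ¬ p ∣ U.index ∧ (V.subgroupOf U).index = p ^ a := by
  have : Finite (G ⧸ V) := Subgroup.finite_quotient_of_finiteIndex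
  obtain ⟨P₀⟩ : Nonempty (Sylow p (G ⧸ V)) := inferInstance
  set U : Subgroup G := (P₀ : Subgroup (G ⧸ V)).comap (QuotientGroup.mk' V) with hUdef
  have hVU : V ≤ U := by
    intro v hv
    show QuotientGroup.mk' V v ∈ (P₀ : Subgroup (G ⧸ V))
    rw [QuotientGroup.mk'_apply, (QuotientGroup.eq_one_iff v).mpr hv]
    exact one_mem _
  have hidx : U.index = (P₀ : Subgroup (G ⧸ V)).index :=
    Subgroup.index_comap_of_surjective _ (QuotientGroup.mk'_surjective V)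
  obtain ⟨a, ha⟩ := P₀.2.exists_card_eq
  refine ⟨U, a, hVU, ?_, ?_⟩
  · rw [hidx]
    exact P₀.not_dvd_index
  · have h1 : V.relIndex U * U.index = V.index := Subgroup.relIndex_mul_index hVU
    have h2 : (P₀ : Subgroup (G ⧸ V)).index * Nat.card (P₀ : Subgroup (G ⧸ V)) =
        Nat.card (G ⧸ V) := Subgroup.index_mul_card _
    have h3 : V.index = Nat.card (G ⧸ V) := Subgroup.index_eq_card V
    have h4 : U.index ≠ 0 := by
      rw [hidx]
      exact Subgroup.FiniteIndex.index_ne_zero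
    have h5 : V.relIndex U * U.index = Nat.card (P₀ : Subgroup (G ⧸ V)) * U.index := by
      rw [h1, h3, ← h2, hidx, mul_comm]
    have h6 := Nat.eq_of_mul_eq_mul_right (Nat.pos_of_ne_zero h4) h5
    show V.relIndex U = p ^ a
    rw [h6]
    exact ha

/-- A subgroup `P ⊇ V` with `[P : V]` a power of `p` lies in every normal subgroup `U₀ ⊇ V` of
index prime to `p`. -/
theorem f1g_le_of_pow_index (p : ℕ) [Fact p.Prime] {V P U₀ : Subgroup G} [U₀.Normal]
    (hVU₀ : V ≤ U₀) {a : ℕ} (hidx : (V.subgroupOf P).index = p ^ a)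
    (h₀ : ¬ p ∣ U₀.index) : P ≤ U₀ := by
  have hpp : p.Prime := Fact.out
  rw [← Subgroup.relIndex_eq_one]
  have h1 : U₀.relIndex P ∣ V.relIndex P := Subgroup.relIndex_dvd_of_le_left P hVU₀
  have h2 : U₀.relIndex P ∣ U₀.index := Subgroup.relIndex_dvd_index_of_normal U₀ P
  have h3 : V.relIndex P = p ^ a := hidx
  rw [h3] at h1
  obtain ⟨i, -, hi⟩ := (Nat.dvd_prime_pow hpp).1 h1
  rcases Nat.eq_zero_or_pos i with h0 | hpos
  · rw [hi, h0, pow_zero]
  · exfalso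
    apply h₀
    rw [hi] at h2
    exact (dvd_pow_self p hpos.ne').trans h2

variable (𝓤 : Levels G) (A : Rep.{0} ℤ G)

/-- The restriction of a smooth coboundary to a subgroup is a smooth coboundary. -/
theorem f1g_res_mem_B2 (U : Subgroup G) {w : G × G → A} (hw : w ∈ B2 𝓤 A) :
    (fun h : U × U => w (h.1, h.2)) ∈ B2 (𝓤.sub U) (Rep.res U.subtype A) := by
  obtain ⟨s, hs, rfl⟩ := hw
  refine ⟨fun h => s h, IsLC₁.comp_hom 𝓤 U.subtype hs, ?_⟩
  funext h
  simp [d₁₂_hom_apply]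

variable {𝓤 A}

/-- `cor ∘ res = index` (helper48's `card_smul_mem_B2_of_res`). -/
theorem f1g_index_smul_mem_B2 (U : Subgroup G) (hU : 𝓤.IsOpen U) (c : G × G → A)
    (hc : c ∈ Z2 𝓤 A)
    (hres : (fun h : U × U => c (h.1, h.2)) ∈ B2 (𝓤.sub U) (Rep.res U.subtype A)) :
    (fun z => (U.index : ℤ) • c z) ∈ B2 𝓤 A := by
  obtain ⟨V, hV, hVU⟩ := hU
  have hVf := 𝓤.finiteIndex V hV
  have hUf : U.FiniteIndex := Subgroup.finiteIndex_of_le hVU
  have : Finite (G ⧸ U) := Subgroup.finite_quotient_of_finiteIndex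
  let _ : Fintype (G ⧸ U) := Fintype.ofFinite _
  have h1 := card_smul_mem_B2_of_res U A ⟨V, hV, hVU⟩ hc hres
  have e : (fun z => (U.index : ℤ) • c z) = Fintype.card (G ⧸ U) • c := by
    funext z
    rw [Subgroup.index_eq_card, Nat.card_eq_fintype_card, natCast_zsmul]
    rfl
  rw [e]
  exact h1

end Sylow

variable {G : Type} [Group G] {p : ℕ} [Fact p.Prime] {𝓤 : Levels G} {C : Rep.{0} ℤ G}
  {U₀ : Subgroup G}

/-- **F1sm** (seat ACF-3d).  `hres`, `hcyc`, `hlines` are the statements of `PCF.res`,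
`cyclic_of_pGroup`, `lines` for the formations of the open subgroups of `G`. -/
theorem f1sm_pf (h : PCF p 𝓤 C U₀)
    (hres : ∀ P : Subgroup G, 𝓤.IsOpen P →
      PCF p (𝓤.sub P) (Rep.res P.subtype C) (U₀.subgroupOf P))
    (hcyc : ∀ P : Subgroup G, 𝓤.IsOpen P → PCF p (𝓤.sub P) (Rep.res P.subtype C) ⊤ →
      ∀ (a : ℕ) (W : Subgroup P), W.Normal → (𝓤.sub P).IsOpen W → W.index = p ^ a →
      ∀ w : P × P → Rep.res P.subtype C, w ∈ Z2 (𝓤.sub P) (Rep.res P.subtype C) → Infl2 W w →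
      (fun q => (p : ℤ) • w q) ∈ B2 (𝓤.sub P) (Rep.res P.subtype C) →
      ∃ (χ : P → ZMod p) (x : Rep.res P.subtype C), IsSmChar (𝓤.sub P) χ ∧
        Fix (Rep.res P.subtype C) ⊤ x ∧
        (fun q => w q - UC.carryCo (Rep.res P.subtype C) χ x q)
          ∈ B2 (𝓤.sub P) (Rep.res P.subtype C))
    (hlines : ∀ P : Subgroup G, 𝓤.IsOpen P → PCF p (𝓤.sub P) (Rep.res P.subtype C) ⊤ →
      ∀ (χ χ' : P → ZMod p), IsSmChar (𝓤.sub P) χ → IsSmChar (𝓤.sub P) χ' →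
      ∀ x x' : Rep.res P.subtype C, Fix (Rep.res P.subtype C) ⊤ x →
      Fix (Rep.res P.subtype C) ⊤ x' →
      ∃ a b : ℤ, (¬ (p : ℤ) ∣ a ∨ ¬ (p : ℤ) ∣ b) ∧
        (fun q => a • UC.carryCo (Rep.res P.subtype C) χ x q
          + b • UC.carryCo (Rep.res P.subtype C) χ' x' q)
          ∈ B2 (𝓤.sub P) (Rep.res P.subtype C)) :
    UC.F1sm p 𝓤 C := by
  intro w₁ w₂ hw₁ hw₂ hp₁ hp₂
  have hpp : p.Prime := Fact.out
  -- a common level `W ≤ U₀`
  obtain ⟨V₁, hV₁, hc₁⟩ := hw₁.2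
  obtain ⟨V₂, hV₂, hc₂⟩ := hw₂.2
  obtain ⟨V₀, hV₀, hV₀le⟩ := h.open₀
  obtain ⟨V₃, hV₃, hV₃le⟩ := 𝓤.directed V₁ hV₁ V₂ hV₂
  obtain ⟨W, hW, hWle⟩ := 𝓤.directed V₃ hV₃ V₀ hV₀
  have hWV₁ : W ≤ V₁ := fun x hx => (hV₃le (hWle hx).1).1
  have hWV₂ : W ≤ V₂ := fun x hx => (hV₃le (hWle hx).1).2
  have hWU₀ : W ≤ U₀ := fun x hx => hV₀le (hWle hx).2
  haveI hWn : W.Normal := 𝓤.normal W hW
  haveI hWf : W.FiniteIndex := 𝓤.finiteIndex W hW
  haveI hU₀n : U₀.Normal := h.normal₀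
  -- the Sylow preimage
  obtain ⟨P, a, hWP, hpP, hidx⟩ := f1g_exists_sylow_preimage p W
  have hP : 𝓤.IsOpen P := ⟨W, hW, hWP⟩
  have hPU₀ : P ≤ U₀ := f1g_le_of_pow_index p hWU₀ hidx h.index₀
  have hPCF : PCF p (𝓤.sub P) (Rep.res P.subtype C) ⊤ := by
    have h1 := hres P hP
    rwa [Subgroup.subgroupOf_eq_top.2 hPU₀] at h1
  -- over `P` both classes are cyclic
  have hWopen : (𝓤.sub P).IsOpen (W.subgroupOf P) :=
    (𝓤.sub P).isOpen_of_mem ⟨W, hW, rfl⟩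
  have hWn' : (W.subgroupOf P).Normal := inferInstance
  obtain ⟨χ₁, x₁, hχ₁, hx₁, hcob₁⟩ := hcyc P hP hPCF a (W.subgroupOf P) hWn' hWopen hidx
    (fun q : P × P => w₁ (q.1, q.2)) (Z2res 𝓤 C P.subtype ⟨w₁, hw₁⟩).2
    (fun g g' v v' hv hv' => hc₁ g g' v v' (hWV₁ hv) (hWV₁ hv'))
    (f1g_res_mem_B2 𝓤 C P hp₁)
  obtain ⟨χ₂, x₂, hχ₂, hx₂, hcob₂⟩ := hcyc P hP hPCF a (W.subgroupOf P) hWn' hWopen hidx
    (fun q : P × P => w₂ (q.1, q.2)) (Z2res 𝓤 C P.subtype ⟨w₂, hw₂⟩).2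
    (fun g g' v v' hv hv' => hc₂ g g' v v' (hWV₂ hv) (hWV₂ hv'))
    (f1g_res_mem_B2 𝓤 C P hp₂)
  obtain ⟨x, y, hxy, hdep⟩ := hlines P hP hPCF χ₁ χ₂ hχ₁ hχ₂ x₁ x₂ hx₁ hx₂
  -- dependency over `P`
  have hresB : (fun q : P × P => (x • w₁ + y • w₂) (q.1, q.2))
      ∈ B2 (𝓤.sub P) (Rep.res P.subtype C) := by
    have e : (fun q : P × P => (x • w₁ + y • w₂) ((q.1 : G), (q.2 : G))) =
        x • (fun q : P × P => (show Rep.res P.subtype C from w₁ ((q.1 : G), (q.2 : G)))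
            - UC.carryCo (Rep.res P.subtype C) χ₁ x₁ q)
        + y • (fun q : P × P => (show Rep.res P.subtype C from w₂ ((q.1 : G), (q.2 : G)))
            - UC.carryCo (Rep.res P.subtype C) χ₂ x₂ q)
        + (fun q : P × P => x • UC.carryCo (Rep.res P.subtype C) χ₁ x₁ q
            + y • UC.carryCo (Rep.res P.subtype C) χ₂ x₂ q) := by
      funext q
      simp only [Pi.add_apply, Pi.smul_apply, smul_sub]
      abel
    rw [e]
    exact add_mem (add_mem (zsmul_mem hcob₁ x) (zsmul_mem hcob₂ y)) hdep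
  have hZ : (x • w₁ + y • w₂) ∈ Z2 𝓤 C := add_mem (zsmul_mem hw₁ x) (zsmul_mem hw₂ y)
  have hidxB := f1g_index_smul_mem_B2 P hP (x • w₁ + y • w₂) hZ hresB
  -- conclusion
  have hpidx : ¬ (p : ℤ) ∣ (P.index : ℤ) := fun hd => hpP (Int.natCast_dvd_natCast.1 hd)
  have hprime : Prime (p : ℤ) := Nat.prime_iff_prime_int.1 hpp
  refine ⟨(P.index : ℤ) * x, (P.index : ℤ) * y, ?_, ?_⟩
  · rcases hxy with hx | hy
    · exact Or.inl fun hd => (hprime.dvd_or_dvd hd).elim hpidx hx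
    · exact Or.inr fun hd => (hprime.dvd_or_dvd hd).elim hpidx hy
  · have e : (fun q => ((P.index : ℤ) * x) • w₁ q + ((P.index : ℤ) * y) • w₂ q) =
        (fun z => (P.index : ℤ) • (x • w₁ + y • w₂) z) := by
      funext q
      simp only [Pi.add_apply, Pi.smul_apply, smul_add, mul_smul]
    rw [e]
    exact hidxB

end Fermat.Agent.F4Cf
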