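import Fermat.Agent.F4.Cf.Defs

/-!
# F4 / Cf / F34 : seat ACF-4 — `F3sm` and `F4sm` for a class formation mod `p`
(owner helper13; statements `f3sm`, `f4sm` of `F4/Cf/Statements.lean`, proved here under the
names `f3sm_pf`, `f4sm_pf`, with the statement of `carryCo_inj` (seat ACF-2) for the formation
`(G, 𝓤, C)` as an explicit hypothesis `hinj`).

* `f34_exists_eq_one`     : a nonzero additive character takes the value `1`;
* `f34_isCyc_charKer`     : `(⊤, ker χ, σ)` is a cyclic layer if `χ σ = 1`;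
* `f34_isOpen_charKer`    : the kernel of a smooth character is open;
* `f34_exists_char`       : every cyclic layer `(⊤, V, σ)` with `V` open is the layer of a smooth
                            character `χ` with `χ σ = 1`, `ker χ = V`;
* `f3sm_pf`, `f4sm_pf`.
-/

set_option autoImplicit false
set_option linter.unusedSectionVars false
set_option linter.style.haveILetI false

open CategoryTheory groupCohomology

namespace Fermat.Agent.F4Cf

open Fermat.Agent.F4

variable {G : Type} [Group G] {p : ℕ} [Fact p.Prime] {𝓤 : Levels G} {C : Rep.{0} ℤ G}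
  {U₀ : Subgroup G}

/-! ### additive characters -/

/-- an additive character as a monoid homomorphism -/
def f34Hom (χ : G → ZMod p) (hχ : ∀ g h : G, χ (g * h) = χ g + χ h) :
    G →* Multiplicative (ZMod p) :=
  MonoidHom.mk' (fun g => Multiplicative.ofAdd (χ g)) (fun a b => by
    show Multiplicative.ofAdd (χ (a * b)) = Multiplicative.ofAdd (χ a) * Multiplicative.ofAdd (χ b)
    rw [hχ, ofAdd_add])

theorem f34_map_one {χ : G → ZMod p} (hχ : ∀ g h : G, χ (g * h) = χ g + χ h) : χ 1 = 0 := by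
  have := map_one (f34Hom χ hχ)
  exact this

theorem f34_map_inv {χ : G → ZMod p} (hχ : ∀ g h : G, χ (g * h) = χ g + χ h) (g : G) :
    χ g⁻¹ = -χ g := by
  have := map_inv (f34Hom χ hχ) g
  exact this

theorem f34_map_pow {χ : G → ZMod p} (hχ : ∀ g h : G, χ (g * h) = χ g + χ h) (g : G) (n : ℕ) :
    χ (g ^ n) = n • χ g := by
  have := map_pow (f34Hom χ hχ) g n
  exact this

/-- a nonzero additive character with values in `ZMod p` takes the value `1`. -/
theorem f34_exists_eq_one {χ : G → ZMod p} (hχ : ∀ g h : G, χ (g * h) = χ g + χ h)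
    (hne : χ ≠ 0) : ∃ σ : G, χ σ = 1 := by
  have hex : ∃ g, χ g ≠ 0 := by
    by_contra hcon
    exact hne (funext fun g => by_contra fun hg => hcon ⟨g, hg⟩)
  obtain ⟨g, hg⟩ := hex
  refine ⟨g ^ ((χ g)⁻¹).val, ?_⟩
  rw [f34_map_pow hχ, nsmul_eq_mul, ZMod.natCast_zmod_val, inv_mul_cancel₀ hg]

theorem f34_isCyc_charKer {χ : G → ZMod p} (hχ : ∀ g h : G, χ (g * h) = χ g + χ h) {σ : G}
    (hσ : χ σ = 1) : IsCyc p ⊤ (charKer χ hχ) σ where
  le := le_top
  normal := by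
    intro u _ v hv
    show χ (u * v * u⁻¹) = 0
    rw [hχ, hχ, f34_map_inv hχ, show χ v = 0 from hv]
    ring
  mem := Subgroup.mem_top σ
  not_mem := by
    intro h
    have h0 : χ σ = 0 := h
    rw [hσ] at h0
    exact one_ne_zero h0
  pow_mem := by
    show χ (σ ^ p) = 0
    rw [f34_map_pow hχ, hσ, nsmul_eq_mul, mul_one, CharP.cast_eq_zero]
  gen := by
    intro u _
    refine ⟨(χ u).val, ZMod.val_lt _, ?_⟩
    show χ ((σ ^ (χ u).val)⁻¹ * u) = 0
    rw [hχ, f34_map_inv hχ, f34_map_pow hχ, hσ, nsmul_eq_mul, mul_one, ZMod.natCast_zmod_val]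
    ring

theorem f34_isOpen_charKer {χ : G → ZMod p} (hχ : IsSmChar 𝓤 χ) :
    𝓤.IsOpen (charKer χ hχ.1) := by
  obtain ⟨U, hU, hinv⟩ := hχ.2
  refine ⟨U, hU, fun s hs => ?_⟩
  show χ s = 0
  have := hinv 1 s hs
  rwa [one_mul, f34_map_one hχ.1] at this

/-- every cyclic layer `(⊤, V, σ)` with `V` open is the layer of a smooth character. -/
theorem f34_exists_char {V : Subgroup G} {σ : G} (hV : 𝓤.IsOpen V) (hc : IsCyc p ⊤ V σ) :
    ∃ (χ : G → ZMod p) (hχ : IsSmChar 𝓤 χ), χ σ = 1 ∧ charKer χ hχ.1 = V := by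
  haveI hVn : V.Normal := ⟨fun v hv u => hc.normal u (Subgroup.mem_top u) v hv⟩
  let s : Additive (G ⧸ V) := Additive.ofMul (QuotientGroup.mk σ : G ⧸ V)
  have hs0 : s ≠ 0 := by
    intro h
    have h1 : (QuotientGroup.mk σ : G ⧸ V) = 1 := h
    exact hc.not_mem ((QuotientGroup.eq_one_iff σ).1 h1)
  have hps : (p : ℤ) • s = 0 := by
    have h1 : ((QuotientGroup.mk σ : G ⧸ V)) ^ p = 1 := by
      rw [← QuotientGroup.mk_pow]
      exact (QuotientGroup.eq_one_iff _).2 hc.pow_mem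
    rw [natCast_zsmul]
    exact h1
  let f : ZMod p →+ Additive (G ⧸ V) :=
    ZMod.lift p ⟨zmultiplesHom _ s, by simpa using hps⟩
  have hf_nat : ∀ i : ℕ, f (i : ZMod p) = i • s := by
    intro i
    have h1 : f ((i : ℤ) : ZMod p) = (i : ℤ) • s := by
      show ZMod.lift p _ ((i : ℤ) : ZMod p) = _
      rw [ZMod.lift_coe]
      rfl
    rw [Int.cast_natCast, natCast_zsmul] at h1
    exact h1
  have hf1 : f 1 = s := by
    have := hf_nat 1
    rwa [Nat.cast_one, one_smul] at this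
  have hinj : Function.Injective f := by
    rw [injective_iff_map_eq_zero]
    intro a ha
    by_contra ha0
    apply hs0
    have h1 : (1 : ZMod p) = (a⁻¹).val • a := by
      rw [nsmul_eq_mul, ZMod.natCast_zmod_val, inv_mul_cancel₀ ha0]
    rw [← hf1, h1, map_nsmul, ha, smul_zero]
  have hsurj : Function.Surjective f := by
    intro q
    obtain ⟨g, rfl⟩ := QuotientGroup.mk_surjective (Additive.toMul q)
    obtain ⟨i, -, hi⟩ := hc.gen g (Subgroup.mem_top g)
    refine ⟨(i : ZMod p), ?_⟩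
    rw [hf_nat]
    show (QuotientGroup.mk σ : G ⧸ V) ^ i = QuotientGroup.mk g
    rw [← QuotientGroup.mk_pow]
    exact QuotientGroup.eq.2 hi
  let e : ZMod p ≃+ Additive (G ⧸ V) := AddEquiv.ofBijective f ⟨hinj, hsurj⟩
  let χ : G → ZMod p := fun g => e.symm (Additive.ofMul (QuotientGroup.mk g : G ⧸ V))
  have hadd : ∀ g h : G, χ (g * h) = χ g + χ h := by
    intro g h
    show e.symm (Additive.ofMul (QuotientGroup.mk (g * h) : G ⧸ V)) = _
    rw [QuotientGroup.mk_mul, ofMul_mul, map_add]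
  have hker : ∀ g : G, χ g = 0 ↔ g ∈ V := by
    intro g
    show e.symm (Additive.ofMul (QuotientGroup.mk g : G ⧸ V)) = 0 ↔ _
    rw [AddEquiv.map_eq_zero_iff, ← QuotientGroup.eq_one_iff]
    rfl
  have hLC : IsLC₁ 𝓤 χ := by
    obtain ⟨W, hW, hWV⟩ := hV
    refine ⟨W, hW, fun g w hw => ?_⟩
    rw [hadd, (hker w).2 (hWV hw), add_zero]
  refine ⟨χ, ⟨hadd, hLC⟩, ?_, ?_⟩
  · show e.symm s = 1
    rw [← hf1]
    exact e.symm_apply_apply 1
  · ext g
    exact hker g

/-! ### `F3sm`, `F4sm` -/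

/-- **F3sm** (seat ACF-4).  `hinj` is the statement of `carryCo_inj`. -/
theorem f3sm_pf (h : PCF p 𝓤 C U₀)
    (hinj : ∀ {χ : G → ZMod p} (hχ : IsSmChar 𝓤 χ) {σ : G}, χ σ = 1 → ∀ {x : C}, Fix C ⊤ x →
      UC.carryCo C χ x ∈ B2 𝓤 C → IsNormFrom C p (charKer χ hχ.1) σ x) :
    UC.F3sm p 𝓤 C := by
  intro χ hadd hLC hne
  have hχ : IsSmChar 𝓤 χ := ⟨hadd, hLC⟩
  obtain ⟨σ, hσ⟩ := f34_exists_eq_one hadd hne
  obtain ⟨a, ha, hnot⟩ := h.first ⊤ _ σ (f34_isOpen_charKer hχ) (f34_isCyc_charKer hadd hσ)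
  exact ⟨a, fun g => ha g (Subgroup.mem_top g), fun hcob => hnot (hinj hχ hσ ha hcob)⟩

/-- **F4sm** below `U₀` (seat ACF-4).  `hinj` is the statement of `carryCo_inj`. -/
theorem f4sm_pf (h : PCF p 𝓤 C ⊤)
    (hinj : ∀ {χ : G → ZMod p} (hχ : IsSmChar 𝓤 χ) {σ : G}, χ σ = 1 → ∀ {x : C}, Fix C ⊤ x →
      UC.carryCo C χ x ∈ B2 𝓤 C → IsNormFrom C p (charKer χ hχ.1) σ x) :
    UC.F4sm p 𝓤 C := by
  intro x hx hall
  have hxfix : Fix C ⊤ x := fun g _ => hx g
  have huniv : ∀ (V : Subgroup G) (σ : G), 𝓤.IsOpen V → IsCyc p ⊤ V σ →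
      IsNormFrom C p V σ x := by
    intro V σ hV hcyc
    obtain ⟨χ, hχ, hσ, hker⟩ := f34_exists_char hV hcyc
    have := hinj hχ hσ hxfix (hall χ hχ.1 hχ.2)
    rwa [hker] at this
  obtain ⟨m, b, hm, hb, hmx⟩ := h.exist ⊤ 𝓤.isOpen_top le_rfl x hxfix huniv
  have hcop : Nat.Coprime m p :=
    ((Nat.Prime.coprime_iff_not_dvd (Fact.out : p.Prime)).2 hm).symm
  obtain ⟨u, v, huv⟩ := Nat.Coprime.isCoprime hcop
  refine ⟨u • b + v • x, fun g => ?_, ?_⟩
  · rw [map_add, map_zsmul, map_zsmul, hb g (Subgroup.mem_top g), hx g]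
  · have h1 : x = u • (m • x) + v • ((p : ℤ) • x) := by
      rw [← natCast_zsmul x m, ← mul_smul, ← mul_smul, ← add_smul, huv, one_smul]
    rw [hmx] at h1
    rw [smul_add, ← mul_smul, ← mul_smul, mul_comm (p : ℤ) u, mul_comm (p : ℤ) v, mul_smul,
      mul_smul, natCast_zsmul]
    exact h1

end Fermat.Agent.F4Cf
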