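import Fermat.Agent.F4.Coind.Datum
import Fermat.Agent.F4.HyperPair

/-!
# F4 / Cf / RecipA2 : seat R-A, second half — reciprocity up to units

`exists_rescale_recip_pf` : if every local factor contributes to `HH²(G_S, KC)` (`T3`), then
`inv ∘ g = Σ_q c_q · inv_q ∘ ev_q ∘ res_q` on `ZZ²(G_S, KJ)` with units `c_q ∈ 𝔽_pˣ`
(the statement `exists_rescale_recip` of `F4/Cf/Recip.lean`, with `T3`, `LocTrivAway` unfolded).

* `ra_toHom N hN e K : CxHom K (homCx N K)`, `x ↦ (n ↦ e n • x)` for a module `N` with trivial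
  action and a linear form `e` on `N`;
* `ra_inj_of_a2Inj` : `A2Inj` for `permRep ⊤` gives injectivity of `inv` on `HH²`;
* `ra_shapiro_sep` : Shapiro's lemma `shapiro2` for `N = 𝔽_p`: a class of `KJ` all of whose
  local components vanish is trivial;
* `ra_exists_units` : the linear algebra.
-/

set_option autoImplicit false
set_option linter.unusedSectionVars false

open CategoryTheory groupCohomology ExtCitation

namespace Fermat.Agent.F4Cf

open Fermat.Agent.F4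

section HomTriv

variable {k G : Type} [CommRing k] [Group G]

/-- `K → Hom(N, K)`, `x ↦ (n ↦ e n • x)`, for a module `N` with trivial action. -/
def ra_toHom (N : Rep.{0} k G) (hN : ∀ (g : G) (n : N), N.ρ g n = n) (e : N →ₗ[k] k)
    (K : Cx k G) : CxHom K (homCx N K) where
  f0 := LinearMap.smulRightₗ e
  f1 := LinearMap.smulRightₗ e
  comm0 g x := by
    refine LinearMap.ext fun n => ?_
    show e n • K.K0.ρ g x = K.K0.ρ g (e (N.ρ g⁻¹ n) • x)
    rw [hN, map_smul]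
  comm1 g x := by
    refine LinearMap.ext fun n => ?_
    show e n • K.K1.ρ g x = K.K1.ρ g (e (N.ρ g⁻¹ n) • x)
    rw [hN, map_smul]
  commd x := by
    refine LinearMap.ext fun n => ?_
    show e n • K.d x = K.d (e n • x)
    rw [map_smul]

lemma ra_cup2_toHom (N : Rep.{0} k G) (hN : ∀ (g : G) (n : N), N.ρ g n = n) (e : N →ₗ[k] k)
    (K : Cx k G) (z : T2 K) (n : N) :
    cup2 N K ((ra_toHom N hN e K).onT2 z) n = e n • z := rfl

end HomTriv

section Inj

variable {k G : Type} [CommRing k] [Group G]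

/-- `A2Inj` for the trivial permutation module `k[G/G]` is the injectivity of `inv` on `HH²`. -/
lemma ra_inj_of_a2Inj (𝓤 : Levels G) (K : Cx k G) (inv : HH2 𝓤 K →ₗ[k] k)
    (h : A2Inj 𝓤 K (permRep k (⊤ : Subgroup G)) inv) (z : ↥(ZZ2 𝓤 K))
    (hz : inv (HH2π 𝓤 K z) = 0) : (z : T2 K) ∈ BB2 𝓤 K := by
  have hsub : Subsingleton (G ⧸ (⊤ : Subgroup G)) := QuotientGroup.subsingleton_quotient_top
  have hN : ∀ (g : G) (n : permRep k (⊤ : Subgroup G)), (permRep k (⊤ : Subgroup G)).ρ g n = n := by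
    intro g n
    funext x
    rw [permRep_ρ_apply]
    exact congrArg _ (Subsingleton.elim _ _)
  let e : permRep k (⊤ : Subgroup G) →ₗ[k] k :=
    LinearMap.proj (((1 : G) : G ⧸ (⊤ : Subgroup G)))
  have hz' := h ((ra_toHom _ hN e K).mapZZ2 𝓤 z) (fun n hn => by
    have e1 : cupZ2 𝓤 K _ ((ra_toHom _ hN e K).mapZZ2 𝓤 z) n hn = e n • z := Subtype.ext rfl
    rw [e1, map_smul, map_smul, hz, smul_zero])
  have h1 := cup2_mem_BB2 𝓤 K (permRep k (⊤ : Subgroup G)) hz' (fun _ => (1 : k))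
    (fun g => hN g _)
  have e2 : cup2 (permRep k (⊤ : Subgroup G)) K
      (((ra_toHom _ hN e K).mapZZ2 𝓤 z : ↥(ZZ2 𝓤 (homCx _ K))) : T2 (homCx _ K))
      (fun _ => (1 : k)) = (z : T2 K) := by
    show e (fun _ => (1 : k)) • (z : T2 K) = z
    show (1 : k) • (z : T2 K) = z
    rw [one_smul]
  rw [e2] at h1
  exact h1

end Inj

section Sep

variable {p : ℕ} [Fact p.Prime] {S : Finset Nat.Primes}

/-- **Shapiro, separation form**: a class of `KJ` whose local components all vanish is trivial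
(`shapiro2` for `N = 𝔽_p`). -/
lemma ra_shapiro_sep {loc : ∀ q : ↥S, LocalDatum p S q.1} (C : CoindDatum p S loc)
    (z : ↥(ZZ2 (levelsS S) C.KJ))
    (h : ∀ q : ↥S, (C.ev q).onT2 (resT2 (primeLocalToGlobal q.1) C.KJ z.1)
      ∈ BB2 (locLevelsS S q.1) (loc q).K) :
    (z : T2 C.KJ) ∈ BB2 (levelsS S) C.KJ := by
  have hN : ∀ (g : GQ) (n : Rep.trivial (ZMod p) GQ (ZMod p)),
      (Rep.trivial (ZMod p) GQ (ZMod p)).ρ g n = n := fun _ _ => rfl
  have hNsm : IsSmooth (levelsS S) (Rep.trivial (ZMod p) GQ (ZMod p)) := fun a => by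
    obtain ⟨U, hU⟩ := (levelsS S).nonempty
    exact ⟨U, hU, fun g _ => rfl⟩
  have hfin : Module.Finite (ZMod p) (Rep.trivial (ZMod p) GQ (ZMod p)) :=
    (inferInstance : Module.Finite (ZMod p) (ZMod p))
  have hz' := C.shapiro2 (Rep.trivial (ZMod p) GQ (ZMod p)) hNsm hfin
    ((ra_toHom _ hN LinearMap.id C.KJ).mapZZ2 _ z) (fun q => by
      have hq := (ra_toHom (Rep.res (primeLocalToGlobal q.1) (Rep.trivial (ZMod p) GQ (ZMod p)))
        (fun _ _ => rfl) LinearMap.id (loc q).K).onT2_mem_BB2 (locLevelsS S q.1) (h q)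
      convert hq using 1
      refine Prod.ext (funext fun x => LinearMap.ext fun n => ?_)
        (funext fun g => LinearMap.ext fun n => ?_)
      · exact LinearMap.map_smul (C.ev q).f0 n
          ((z : T2 C.KJ).1 (primeLocalToGlobal q.1 x.1, primeLocalToGlobal q.1 x.2))
      · exact LinearMap.map_smul (C.ev q).f1 n ((z : T2 C.KJ).2 (primeLocalToGlobal q.1 g)))
  have h1 := cup2_mem_BB2 (levelsS S) C.KJ (Rep.trivial (ZMod p) GQ (ZMod p)) hz' (1 : ZMod p)
    (fun g => rfl)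
  have e2 : cup2 (Rep.trivial (ZMod p) GQ (ZMod p)) C.KJ
      (((ra_toHom _ hN LinearMap.id C.KJ).mapZZ2 (levelsS S) z :
        ↥(ZZ2 (levelsS S) (homCx _ C.KJ))) : T2 (homCx _ C.KJ))
      (1 : ZMod p) = (z : T2 C.KJ) := by
    show (1 : ZMod p) • (z : T2 C.KJ) = z
    rw [one_smul]
  rw [e2] at h1
  exact h1

end Sep

section LinAlg

/-- Linear forms `μ`, `L i` on `V` such that the `L i` separate the points seen by `μ` and such
that there are vectors `z i` with `L j (z i) = 0` for `j ≠ i` and `μ (z i) ≠ 0`: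
then `μ = Σ c_i L_i` with units `c_i`. -/
lemma ra_exists_units {k V ι : Type*} [Field k] [AddCommGroup V] [Module k V] [Fintype ι]
    [DecidableEq ι] (μ : V →ₗ[k] k) (L : ι → V →ₗ[k] k)
    (hsep : ∀ v, (∀ i, L i v = 0) → μ v = 0)
    (z : ι → V) (hz : ∀ i j, j ≠ i → L j (z i) = 0) (hμ : ∀ i, μ (z i) ≠ 0) :
    ∃ c : ι → kˣ, ∀ v, μ v = ∑ i, (c i : k) * L i v := by
  have hL : ∀ i, L i (z i) ≠ 0 := by
    intro i h0
    apply hμ i
    apply hsep
    intro j
    by_cases hj : j = i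
    · rw [hj]; exact h0
    · exact hz i j hj
  refine ⟨fun i => Units.mk0 (μ (z i) / L i (z i)) (div_ne_zero (hμ i) (hL i)), fun v => ?_⟩
  have hv : μ (v - ∑ i, (L i v / L i (z i)) • z i) = 0 := by
    apply hsep
    intro j
    rw [map_sub, map_sum]
    simp only [map_smul, smul_eq_mul]
    rw [Finset.sum_eq_single j]
    · rw [div_mul_cancel₀ _ (hL j), sub_self]
    · intro i _ hij
      rw [hz i j (Ne.symm hij), mul_zero]
    · intro h
      exact absurd (Finset.mem_univ j) h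
  rw [map_sub, map_sum, sub_eq_zero] at hv
  rw [hv]
  refine Finset.sum_congr rfl fun i _ => ?_
  simp only [map_smul, smul_eq_mul, Units.val_mk0]
  have := hL i
  field_simp

end LinAlg

section Main

variable {p : ℕ} [Fact p.Prime] {S : Finset Nat.Primes}

/-- Restriction of smooth 2-cocycles, as a linear map. -/
def ra_resZZ2 {k G H : Type} [CommRing k] [Group G] [Group H] (r : H →* G) (𝓤 : Levels G)
    (K : Cx k G) : ↥(ZZ2 𝓤 K) →ₗ[k] ↥(ZZ2 (𝓤.comap r) (K.res r)) where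
  toFun z := ⟨resT2 r K z.1, resT2_mem_ZZ2 r 𝓤 K z.2⟩
  map_add' _ _ := rfl
  map_smul' _ _ := rfl

/-- **R-A, second half.**  Reciprocity up to units (the statement `exists_rescale_recip` of
`F4/Cf/Recip.lean`; the hypothesis is `T3 C inv` unfolded). -/
theorem exists_rescale_recip_pf {loc : ∀ q : ↥S, LocalDatum p S q.1} (C : CoindDatum p S loc)
    (inv : HH2 (levelsS S) C.KC →ₗ[ZMod p] ZMod p)
    (hT3 : ∀ q : ↥S, ∃ z : ↥(ZZ2 (levelsS S) C.KJ),
      (∀ q' : ↥S, q' ≠ q →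
        (((C.ev q').mapZZ2 _ ⟨resT2 (primeLocalToGlobal q'.1) C.KJ z.1,
            resT2_mem_ZZ2 _ _ C.KJ z.2⟩ : ↥(ZZ2 (locLevelsS S q'.1) (loc q').K)) : T2 (loc q').K)
          ∈ BB2 (locLevelsS S q'.1) (loc q').K) ∧
        inv (HH2π _ _ (C.g.mapZZ2 _ z)) ≠ 0) :
    ∃ c : ↥S → (ZMod p)ˣ, ∀ z : ↥(ZZ2 (levelsS S) C.KJ),
      inv (HH2π _ _ (C.g.mapZZ2 _ z)) =
        ∑ q : ↥S, (c q : ZMod p) * (loc q).inv (HH2π _ _ ((C.ev q).mapZZ2 _
          ⟨resT2 (primeLocalToGlobal q.1) C.KJ z.1, resT2_mem_ZZ2 _ _ C.KJ z.2⟩)) := by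
  classical
  have hp : p.Prime := Fact.out
  -- the linear forms
  let μ : ↥(ZZ2 (levelsS S) C.KJ) →ₗ[ZMod p] ZMod p :=
    inv ∘ₗ HH2π (levelsS S) C.KC ∘ₗ C.g.mapZZ2 (levelsS S)
  let L : ↥S → ↥(ZZ2 (levelsS S) C.KJ) →ₗ[ZMod p] ZMod p := fun q =>
    (loc q).inv ∘ₗ HH2π (locLevelsS S q.1) (loc q).K ∘ₗ (C.ev q).mapZZ2 (locLevelsS S q.1) ∘ₗ
      ra_resZZ2 (primeLocalToGlobal q.1) (levelsS S) C.KJ
  -- the `L q` separate
  have hsep : ∀ z, (∀ q, L q z = 0) → μ z = 0 := by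
    intro z hz
    have hB : (z : T2 C.KJ) ∈ BB2 (levelsS S) C.KJ := by
      apply ra_shapiro_sep C z
      intro q
      have hidx : ¬ p ∣ (⊤ : Subgroup (primeLocalGaloisGroup q.1)).index := by
        rw [Subgroup.index_top]
        exact hp.not_dvd_one
      exact ra_inj_of_a2Inj (locLevelsS S q.1) (loc q).K (loc q).inv
        ((loc q).a2inj ⊤ (locLevelsS S q.1).isOpen_top hidx) _ (hz q)
    have h2 : HH2π (levelsS S) C.KC (C.g.mapZZ2 (levelsS S) z) = 0 :=
      (HH2π_eq_zero_iff (levelsS S) C.KC _).2 (C.g.onT2_mem_BB2 (levelsS S) hB)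
    show inv (HH2π (levelsS S) C.KC (C.g.mapZZ2 (levelsS S) z)) = 0
    rw [h2, map_zero]
  choose z hz1 hz2 using hT3
  have hz : ∀ i j, j ≠ i → L j (z i) = 0 := by
    intro i j hji
    have h0 : HH2π (locLevelsS S j.1) (loc j).K ((C.ev j).mapZZ2 (locLevelsS S j.1)
        (ra_resZZ2 (primeLocalToGlobal j.1) (levelsS S) C.KJ (z i))) = 0 :=
      (HH2π_eq_zero_iff _ _ _).2 (hz1 i j hji)
    show (loc j).inv (HH2π (locLevelsS S j.1) (loc j).K ((C.ev j).mapZZ2 (locLevelsS S j.1)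
        (ra_resZZ2 (primeLocalToGlobal j.1) (levelsS S) C.KJ (z i)))) = 0
    rw [h0, map_zero]
  obtain ⟨c, hc⟩ := ra_exists_units μ L hsep z hz hz2
  exact ⟨c, fun v => hc v⟩

end Main

end Fermat.Agent.F4Cf
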