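import Fermat.Agent.F4.Cf.Defs
import Fermat.Agent.F4.CfCore.H1Slack

/-!
# F4 / Cf / H1 : seat ACF-1 — `H¹(C)` is torsion prime to `p` for a class formation mod `p`
(owner helper49; statements of `F4/Cf/Statements.lean`, proved here under the names
`h1slack_pf`, `h1p0_pf`)

* `h1slack_pf : PCF p 𝓤 C U₀ → H1slack p 𝓤 C`  (only the field `hasse` is used);
* `h1p0_pf    : H1slack p 𝓤 C → UC.H1p0 p 𝓤 C`.

The work is done in `F4/CfCore/H1Slack.lean` (`slack_of_finiteIndex`: Sylow + induction on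
`p`-groups + averaging); here it is transported to `Rep ℤ G`.
-/

set_option autoImplicit false

open CategoryTheory groupCohomology

namespace Fermat.Agent.F4Cf

open Fermat.Agent.F4 Fermat.Agent.F4CfCore

variable {G : Type} [Group G] {p : ℕ} [Fact p.Prime] {𝓤 : Levels G} {C : Rep.{0} ℤ G}
  {U₀ : Subgroup G}

/-- The action of `G` on the module of a representation, as a `DistribMulAction`
(`g • a = C.ρ g a` by definition). -/
@[reducible] def repDMA (C : Rep.{0} ℤ G) : DistribMulAction G C where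
  smul g a := C.ρ g a
  one_smul a := by
    show C.ρ 1 a = a
    rw [map_one]
    rfl
  mul_smul g h a := by
    show C.ρ (g * h) a = C.ρ g (C.ρ h a)
    rw [map_mul]
    rfl
  smul_zero g := map_zero (C.ρ g)
  smul_add g a b := map_add (C.ρ g) a b

/-- A layer of prime index with a chosen generator is an `IsCyc`. -/
lemma isCyc_of_relIndex {H H' : Subgroup G} (hle : H' ≤ H) (hn : NormalIn H H')
    (hidx : H'.relIndex H = p) {σ : G} (hσ : σ ∈ H) (hσ' : σ ∉ H') : IsCyc p H H' σ where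
  le := hle
  normal := hn
  mem := hσ
  not_mem := hσ'
  pow_mem := pow_prime_mem hn hidx hσ
  gen := by
    intro u hu
    obtain ⟨i, x, hx, rfl⟩ := exists_pow_mul hn hidx hσ hσ' hu
    have hp : 0 < p := (Fact.out : p.Prime).pos
    refine ⟨i % p, Nat.mod_lt i hp, ?_⟩
    have h1 : σ ^ i = σ ^ (i % p) * (σ ^ p) ^ (i / p) := by
      rw [← pow_mul, ← pow_add, Nat.mod_add_div]
    have h2 : (σ ^ (i % p))⁻¹ * (σ ^ i * x) = (σ ^ p) ^ (i / p) * x := by
      rw [h1]
      group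
    rw [h2]
    exact H'.mul_mem (H'.pow_mem (pow_prime_mem hn hidx hσ) _) hx

/-- **T1** (seat ACF-1).  `H¹(C)` is torsion prime to `p`. -/
theorem h1slack_pf (h : PCF p 𝓤 C U₀) : H1slack p 𝓤 C := by
  intro c hc
  have hcoc : ∀ g k : G, c (g * k) = C.ρ g (c k) + c g := (mem_cocycles₁_iff c).1 hc.1
  obtain ⟨V, hV, hinvV⟩ : IsLC₁ 𝓤 c := hc.2
  let _ : DistribMulAction G C := repDMA C
  have hVn : V.Normal := 𝓤.normal V hV
  have hVfi : V.FiniteIndex := 𝓤.finiteIndex V hV
  have hf : CocOn (⊤ : Subgroup G) c := by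
    intro g _ k _
    rw [hcoc g k, add_comm]
    rfl
  have hinv : InvOn (⊤ : Subgroup G) V c := fun g _ v hv => hinvV g v hv
  have hnorm : NormalIn (⊤ : Subgroup G) V := fun g _ x hx => hVn.conj_mem x hx g
  have hfin : V.relIndex ⊤ ≠ 0 := by
    rw [Subgroup.relIndex_top_right]
    exact hVfi.index_ne_zero
  have hHasse : ∀ H H' : Subgroup G, V ≤ H' → H' ≤ H → H ≤ ⊤ → NormalIn H H' →
      H'.relIndex H = p → HasseSlackAt p H H' C := by
    intro H H' hVH' hle _ hn hidx σ hσ hσ' y hy hN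
    have hcyc : IsCyc p H H' σ := isCyc_of_relIndex hle hn hidx hσ hσ'
    obtain ⟨m, z, hm, hz, hmy⟩ := h.hasse H H' σ ⟨V, hV, hVH'⟩ hcyc y hy hN
    exact ⟨m, z, hm, hz, hmy⟩
  obtain ⟨m, z, hm, hmz⟩ := slack_of_finiteIndex V ⊤ le_top hnorm hfin hHasse hf hinv
  refine ⟨m, hm, z, ?_⟩
  funext g
  rw [d₀₁_hom_apply]
  exact (hmz g (Subgroup.mem_top g)).symm

/-- In an abelian group, an element with two coprime multiples in a subgroup lies in it. -/
lemma mem_of_coprime_smul_mem {M : Type*} [AddCommGroup M] (S : AddSubgroup M)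
    {c : M} {m n : ℕ} (hcop : Nat.Coprime m n) (h1 : m • c ∈ S) (h2 : (n : ℤ) • c ∈ S) :
    c ∈ S := by
  obtain ⟨u, v, huv⟩ := Nat.Coprime.isCoprime hcop
  have h3 := S.add_mem (S.zsmul_mem h1 u) (S.zsmul_mem h2 v)
  have h4 : c = u • (m • c) + v • ((n : ℤ) • c) := by
    rw [← natCast_zsmul c m, ← mul_smul, ← mul_smul, ← add_smul, huv, one_smul]
  rw [h4]
  exact h3

/-- `H1slack` implies `H¹(C)[p] = 0` (seat ACF-1). -/
theorem h1p0_pf (h : H1slack p 𝓤 C) : UC.H1p0 p 𝓤 C := by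
  intro c hc hpc
  obtain ⟨m, hm, hmc⟩ := h c hc
  have hcop : Nat.Coprime m p :=
    ((Nat.Prime.coprime_iff_not_dvd (Fact.out : p.Prime)).2 hm).symm
  exact mem_of_coprime_smul_mem (B1 C).toAddSubgroup hcop hmc hpc

end Fermat.Agent.F4Cf
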