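import Fermat.Agent.F4.Cf.Defs
import Fermat.Agent.F4.UC.Res

/-!
# F4 / Cf / Res : the axioms of a class formation mod `p` restrict to open subgroups (ACF-0)

`PCF.res_pf : PCF p 𝓤 C U₀ → 𝓤.IsOpen U → PCF p (𝓤.sub U) (Rep.res U.subtype C) (U₀.subgroupOf U)`
(the exact statement of the stub `PCF.res` of `F4/Cf/Statements.lean`).

Dictionary between subgroups of `U` and subgroups of `G` contained in `U`:
`isOpen_map_sub`, `isOpen_subgroupOf`, `fix_res_iff`, `cnorm_res`, `IsCyc.map_sub`,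
`IsCyc.subgroupOf`, `isNormFrom_res_iff`.
-/

set_option autoImplicit false

open CategoryTheory groupCohomology

namespace Fermat.Agent.F4Cf

open Fermat.Agent.F4

variable {G : Type} [Group G] {p : ℕ} {𝓤 : Levels G} {C : Rep.{0} ℤ G} {U₀ : Subgroup G}

/-- An open subgroup of an open subgroup is open. -/
lemma isOpen_map_sub {U : Subgroup G} (hU : 𝓤.IsOpen U) {V : Subgroup U}
    (hV : (𝓤.sub U).IsOpen V) : 𝓤.IsOpen (V.map U.subtype) := by
  obtain ⟨W', ⟨W, hW, rfl⟩, hWV⟩ := hV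
  obtain ⟨W₁, hW₁, hW₁U⟩ := hU
  obtain ⟨W₂, hW₂, hle⟩ := 𝓤.directed W hW W₁ hW₁
  refine ⟨W₂, hW₂, fun g hg => ?_⟩
  have hg' := hle hg
  have hgU : g ∈ U := hW₁U hg'.2
  exact ⟨⟨g, hgU⟩, hWV (show (⟨g, hgU⟩ : U) ∈ W.comap U.subtype from hg'.1), rfl⟩

/-- The trace on `U` of an open subgroup is open. -/
lemma isOpen_subgroupOf (U : Subgroup G) {V : Subgroup G} (hV : 𝓤.IsOpen V) :
    (𝓤.sub U).IsOpen (V.subgroupOf U) := by
  obtain ⟨W, hW, hWV⟩ := hV
  exact ⟨W.comap U.subtype, ⟨W, hW, rfl⟩, Subgroup.comap_mono hWV⟩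

/-- Fixed vectors of the restricted representation. -/
lemma fix_res_iff (U : Subgroup G) (V : Subgroup U) (a : C) :
    Fix (Rep.res U.subtype C) V a ↔ Fix C (V.map U.subtype) a := by
  constructor
  · rintro h g ⟨v, hv, rfl⟩
    exact h v hv
  · intro h v hv
    exact h (v : G) ⟨v, hv, rfl⟩

/-- The cyclic norm of the restricted representation. -/
lemma cnorm_res (U : Subgroup G) (n : ℕ) (σ : U) (a : C) :
    cnorm (Rep.res U.subtype C) n σ a = cnorm C n (σ : G) a := by
  unfold cnorm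
  refine Finset.sum_congr rfl fun i _ => ?_
  show C.ρ ((σ ^ i : U) : G) a = C.ρ ((σ : G) ^ i) a
  rw [Subgroup.coe_pow]

/-- A cyclic layer of `U` is a cyclic layer of `G`. -/
lemma IsCyc.map_sub {U : Subgroup G} {U' V' : Subgroup U} {σ : U} (h : IsCyc p U' V' σ) :
    IsCyc p (U'.map U.subtype) (V'.map U.subtype) (σ : G) where
  le := Subgroup.map_mono h.le
  normal := by
    rintro _ ⟨u, hu, rfl⟩ _ ⟨v, hv, rfl⟩
    exact ⟨u * v * u⁻¹, h.normal u hu v hv, rfl⟩
  mem := ⟨σ, h.mem, rfl⟩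
  not_mem := by
    rintro ⟨v, hv, hvσ⟩
    have : v = σ := Subtype.ext hvσ
    exact h.not_mem (this ▸ hv)
  pow_mem := ⟨σ ^ p, h.pow_mem, by simp⟩
  gen := by
    rintro _ ⟨u, hu, rfl⟩
    obtain ⟨i, hi, hmem⟩ := h.gen u hu
    exact ⟨i, hi, ⟨(σ ^ i)⁻¹ * u, hmem, by simp⟩⟩

/-- A cyclic layer of `G` inside `U` is a cyclic layer of `U`. -/
lemma IsCyc.subgroupOf {U U' V' : Subgroup G} {σ : G} (h : IsCyc p U' V' σ) (hU' : U' ≤ U) :
    IsCyc p (U'.subgroupOf U) (V'.subgroupOf U) (⟨σ, hU' h.mem⟩ : U) where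
  le := fun g hg => h.le (show (g : G) ∈ V' from hg)
  normal := fun u hu v hv => h.normal (u : G) hu (v : G) hv
  mem := h.mem
  not_mem := h.not_mem
  pow_mem := by
    show ((⟨σ, hU' h.mem⟩ ^ p : U) : G) ∈ V'
    rw [Subgroup.coe_pow]
    exact h.pow_mem
  gen := by
    intro u hu
    obtain ⟨i, hi, hmem⟩ := h.gen (u : G) hu
    refine ⟨i, hi, ?_⟩
    show ((((⟨σ, hU' h.mem⟩ : U) ^ i)⁻¹ * u : U) : G) ∈ V'
    simpa using hmem

/-- Norms of the restricted representation. -/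
lemma isNormFrom_res_iff (U : Subgroup G) (V : Subgroup U) (σ : U) (a : C) :
    IsNormFrom (Rep.res U.subtype C) p V σ a ↔ IsNormFrom C p (V.map U.subtype) (σ : G) a := by
  constructor
  · rintro ⟨y, hy, hay⟩
    exact ⟨y, (fix_res_iff U V y).1 hy, hay.trans (cnorm_res U p σ y)⟩
  · rintro ⟨y, hy, hay⟩
    exact ⟨y, (fix_res_iff U V y).2 hy, hay.trans (cnorm_res U p σ y).symm⟩

/-- `map subtype` after `subgroupOf` for a subgroup contained in `U`. -/
lemma map_subgroupOf_of_le {U V : Subgroup G} (h : V ≤ U) :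
    (V.subgroupOf U).map U.subtype = V :=
  Subgroup.map_subgroupOf_eq_of_le h

/-- `subgroupOf` after `map subtype`. -/
lemma subgroupOf_map_sub (U : Subgroup G) (V : Subgroup U) :
    (V.map U.subtype).subgroupOf U = V :=
  Subgroup.comap_map_eq_self_of_injective U.subtype_injective V

/-- **ACF-0.**  The axioms of a class formation mod `p` restrict to open subgroups
(the exact statement of the stub `PCF.res`). -/
theorem PCF.res_pf (h : PCF p 𝓤 C U₀) {U : Subgroup G} (hU : 𝓤.IsOpen U) :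
    PCF p (𝓤.sub U) (Rep.res U.subtype C) (U₀.subgroupOf U) where
  smooth := UC.isSmooth_res U.subtype h.smooth
  open₀ := isOpen_subgroupOf U h.open₀
  normal₀ := by
    have := h.normal₀
    infer_instance
  index₀ := by
    intro hdvd
    have := h.normal₀
    exact h.index₀ (hdvd.trans (Subgroup.relIndex_dvd_index_of_normal U₀ U))
  hasse := by
    intro U' V' σ hV' hcyc y hy hN
    obtain ⟨m, z, hm, hz, hmz⟩ := h.hasse (U'.map U.subtype) (V'.map U.subtype) (σ : G)
      (isOpen_map_sub hU hV') hcyc.map_sub y ((fix_res_iff U V' y).1 hy)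
      ((cnorm_res U p σ y).symm.trans hN)
    exact ⟨m, z, hm, (fix_res_iff U V' z).2 hz, hmz⟩
  first := by
    intro U' V' σ hV' hcyc
    obtain ⟨a, ha, hna⟩ := h.first (U'.map U.subtype) (V'.map U.subtype) (σ : G)
      (isOpen_map_sub hU hV') hcyc.map_sub
    exact ⟨a, (fix_res_iff U U' a).2 ha, fun hn => hna ((isNormFrom_res_iff U V' σ a).1 hn)⟩
  second := by
    intro U' V' σ hV' hcyc a b ha hb hna
    obtain ⟨k, hk⟩ := h.second (U'.map U.subtype) (V'.map U.subtype) (σ : G)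
      (isOpen_map_sub hU hV') hcyc.map_sub a b ((fix_res_iff U U' a).1 ha)
      ((fix_res_iff U U' b).1 hb) (fun hn => hna ((isNormFrom_res_iff U V' σ a).2 hn))
    exact ⟨k, (isNormFrom_res_iff U V' σ (b - k • a)).2 hk⟩
  distinct := by
    intro U' V V' σ σ' hV hV' hcyc hcyc' hne
    obtain ⟨y, hy, hny⟩ := h.distinct (U'.map U.subtype) (V.map U.subtype) (V'.map U.subtype)
      (σ : G) (σ' : G) (isOpen_map_sub hU hV) (isOpen_map_sub hU hV') hcyc.map_sub hcyc'.map_sub
      (fun heq => hne (Subgroup.map_injective U.subtype_injective heq))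
    refine ⟨y, (fix_res_iff U V y).2 hy, fun hn => hny ?_⟩
    have := (isNormFrom_res_iff U V' σ' _).1 hn
    rwa [cnorm_res] at this
  two := by
    intro U' hU' hle
    have hle' : U'.map U.subtype ≤ U₀ := by
      rintro _ ⟨u, hu, rfl⟩
      exact hle hu
    have hU'U : U'.map U.subtype ≤ U := by
      rintro _ ⟨u, _, rfl⟩
      exact u.2
    obtain ⟨V, V', σ, σ', hV, hV', hcyc, hcyc', hne⟩ :=
      h.two (U'.map U.subtype) (isOpen_map_sub hU hU') hle'
    have h1 := hcyc.subgroupOf hU'U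
    have h2 := hcyc'.subgroupOf hU'U
    rw [subgroupOf_map_sub] at h1 h2
    refine ⟨V.subgroupOf U, V'.subgroupOf U, _, _, isOpen_subgroupOf U hV,
      isOpen_subgroupOf U hV', h1, h2, fun heq => hne ?_⟩
    rw [← map_subgroupOf_of_le (hcyc.le.trans hU'U), ← map_subgroupOf_of_le (hcyc'.le.trans hU'U),
      heq]
  exist := by
    intro U' hU' hle a ha hall
    have hle' : U'.map U.subtype ≤ U₀ := by
      rintro _ ⟨u, hu, rfl⟩
      exact hle hu
    have hU'U : U'.map U.subtype ≤ U := by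
      rintro _ ⟨u, _, rfl⟩
      exact u.2
    obtain ⟨m, b, hm, hb, hmb⟩ := h.exist (U'.map U.subtype) (isOpen_map_sub hU hU') hle' a
      ((fix_res_iff U U' a).1 ha) (by
        intro V σ hV hcyc
        have h1 := hcyc.subgroupOf hU'U
        rw [subgroupOf_map_sub] at h1
        have h2 := (isNormFrom_res_iff U _ _ a).1 (hall _ _ (isOpen_subgroupOf U hV) h1)
        rwa [map_subgroupOf_of_le (hcyc.le.trans hU'U)] at h2)
    exact ⟨m, b, hm, (fix_res_iff U U' b).2 hb, hmb⟩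

end Fermat.Agent.F4Cf
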