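import Fermat.Agent.F4.Cf.RecipDefs
import Fermat.Agent.F4.Cf.Cyc
import Fermat.Agent.F4.Cf.H1
import Fermat.Agent.F4.Cf.Res
import Fermat.Agent.F4.Cf.F34
import Fermat.Agent.F4.Shapiro.Reduce

/-!
# F4 / Cf / RecipB : a class of `KJ` from a local non-norm (seat R-B, helper89)

`t3_of_nonNorm_pf` : the exact statement of the stub `t3_of_nonNorm` of `F4/Cf/Recip.lean`.

`j ∈ J^U` supported at `q`, `[j] ∈ C^U` not a norm from the cyclic layer `(U, V, σ)`, `χ : U → 𝔽_p`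
the character of the layer.  Choose `s ∈ I_J` supported at `q` with `p s = ι j`; then
`z₁ = (δ⁰ s, π s)` is a 1-cocycle of `KJ|_U` supported at `q`, `z_U = z₁ ∪ χ`, `z = cor_U z_U`.

* `rbResHom`, `rb_onT2_corT2`, `rb_onT2_cupχ` : naturality of `cor` and `∪ χ`;
* `rb_exists_rel1α` : `α¹` with a prescribed division;
* `rb_rel1α_quot0_res` : `α¹` is compatible with `K → K / M[0]` over a subgroup;
* `rb_t3_abstract` : the abstract form (products of universal-coefficient data);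
* `t3_of_nonNorm_pf`.
-/

set_option autoImplicit false
set_option linter.unusedSectionVars false

open CategoryTheory groupCohomology ExtCitation

namespace Fermat.Agent.F4Cf

open Fermat.Agent.F4

/-! ### naturality -/

section Nat

variable {k G : Type} [CommRing k] [Group G]

/-- Restriction of a map of complexes along a group homomorphism. -/
def rbResHom {H : Type} [Group H] (r : H →* G) {K L : Cx k G} (f : CxHom K L) :
    CxHom (K.res r) (L.res r) where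
  f0 := f.f0
  f1 := f.f1
  comm0 h x := f.comm0 (r h) x
  comm1 h x := f.comm1 (r h) x
  commd := f.commd

/-- Corestriction is natural. -/
lemma rb_onT2_corT2 (U : Subgroup G) [Fintype (G ⧸ U)] {K L : Cx k G} (f : CxHom K L)
    (y : T2 (K.res U.subtype)) :
    f.onT2 (corT2 U K y) = corT2 U L ((rbResHom U.subtype f).onT2 y) := by
  refine Prod.ext (funext fun q => ?_) (funext fun g => ?_)
  · have h1 := corT2_fst_aux U K y.1 y.2 q
    have h2 := corT2_fst_aux U L (fun t => (rbResHom U.subtype f).f0 (y.1 t))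
      (fun u => (rbResHom U.subtype f).f1 (y.2 u)) q
    refine (congrArg f.f0 h1).trans (Eq.trans ?_ h2.symm)
    rw [map_sum]
    exact Finset.sum_congr rfl fun x _ => f.comm0 _ _
  · have h1 := corT2_snd_aux U K y.1 y.2 g
    have h2 := corT2_snd_aux U L (fun t => (rbResHom U.subtype f).f0 (y.1 t))
      (fun u => (rbResHom U.subtype f).f1 (y.2 u)) g
    refine (congrArg f.f1 h1).trans (Eq.trans ?_ h2.symm)
    rw [map_sum]
    exact Finset.sum_congr rfl fun x _ => f.comm1 _ _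

/-- The cup product with a character is natural. -/
lemma rb_onT2_cupχ {p : ℕ} {K L : Cx (ZMod p) G} (f : CxHom K L) (z : T1 K) (χ : G → ZMod p) :
    f.onT2 (UC.cupχ z χ) = UC.cupχ (f.onT1 z) χ :=
  Prod.ext (funext fun _ => map_smul f.f0 _ _) (funext fun _ => map_smul f.f1 _ _)

end Nat

/-! ### `α¹` with a prescribed division -/

section Rel

variable {G : Type} [Group G] {p : ℕ} {K : Cx (ZMod p) G} {C I Q : Rep.{0} ℤ G}

/-- `α¹(x)` is represented by `(δ⁰ s, π s)` for ANY `s` with `p s = ι x`. -/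
lemma rb_exists_rel1α (D : UCData p K C I Q) {𝓤 : Levels G} (hI : IsSmooth 𝓤 I) {x : C}
    (hx : ∀ g, C.ρ g x = x) (s : I) (hps : (p : ℤ) • s = D.ι x) :
    ∃ z : T1 K, z ∈ ZZ1 𝓤 K ∧ (∀ g, D.i0 (z.1 g) = δ0 I s g) ∧ D.i1 z.2 = D.π s := by
  have ha : ∀ g, (p : ℤ) • δ0 I s g = 0 := by
    intro g
    rw [← UCData.δ0_smul_apply, hps, ← D.ι_δ0, δ0_apply, hx g, sub_self, map_zero]
  have hb : (p : ℤ) • D.π s = 0 := by
    rw [← map_zsmul, hps, D.π_ι]
  have ea : (fun g => D.i0 (D.pre0 _ (ha g))) = fun g => δ0 I s g :=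
    funext fun g => D.i0_pre0 _ _
  refine ⟨(fun g => D.pre0 _ (ha g), D.pre1 _ hb),
    (mem_ZZ1_iff 𝓤 K _).2 ⟨?_, ?_, ?_⟩, fun g => D.i0_pre0 _ (ha g), D.i1_pre1 _ hb⟩
  · funext q
    apply D.i0_inj
    rw [D.i0_δ1, ea, UCData.δ1_δ0_apply]
    simp only [Pi.zero_apply, map_zero]
  · funext g
    apply D.i1_inj
    rw [Cx.dco_apply, ← D.comm, D.i0_pre0, D.i1_δ0, D.i1_pre1, D.π_δ0]
  · apply UC.isLC₁_of_inj D.i0_inj
    rw [ea]
    exact isLC₁_δ0 hI _

/-- `α¹` is compatible with the quotient maps, over a subgroup. -/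
lemma rb_rel1α_quot0_res {D : UCData p K C I Q} {M : Rep.{0} (ZMod p) G}
    {f : CxHom (Cx.deg0 M) K} {E : AddSubgroup C} (h : D.QuotHyp f E)
    {H : Type} [Group H] (r : H →* G) {x : C} {z : T1 (K.res r)} (s : I)
    (hps : (p : ℤ) • s = D.ι x) (ha : ∀ g : H, D.i0 (z.1 g) = δ0 (Rep.res r I) s g)
    (hb : D.i1 z.2 = D.π s) :
    ((D.quot0 h).res r).Rel1α (h.qJ x) ((rbResHom r (K.quot0Map f)).onT1 z) := by
  refine ⟨h.qI s, ?_, fun g => ?_, ?_⟩
  · show (p : ℤ) • h.qI s = h.ι' (h.qJ x)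
    rw [← map_zsmul, hps, h.ι'_qJ]
  · have e1 : h.i0' ((K.quot0Map f).f0 (show K.K0 from z.1 g))
        = h.qI (D.i0 (show K.K0 from z.1 g)) := h.i0'_mk _
    have e2 : D.i0 (show K.K0 from z.1 g) = I.ρ (r g) s - s := ha g
    have e3 : h.qI (I.ρ (r g) s - s) = h.IC.ρ (r g) (h.qI s) - h.qI s := by
      rw [map_sub, h.qI_comm]
    exact e1.trans ((congrArg h.qI e2).trans e3)
  · show D.i1 z.2 = h.π' (h.qI s)
    rw [h.π'_qI, hb]

end Rel

/-! ### the abstract form -/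

section SumApply

variable {k G ι : Type} [CommRing k] [Group G]

/-- Evaluation at a component commutes with finite sums in a product of representations. -/
lemma rb_sum_apply (A : ι → Rep.{0} k G) {X : Type} (s : Finset X) (F : X → cxPiRep A)
    (i : ι) : ((∑ x ∈ s, F x : cxPiRep A) : ∀ i, A i) i = ∑ x ∈ s, (F x : ∀ i, A i) i := by
  classical
  induction s using Finset.induction_on with
  | empty => rfl
  | insert a s ha ih =>
    rw [Finset.sum_insert ha, Finset.sum_insert ha, ← ih]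
    rfl

end SumApply

section Abstract

variable {p : ℕ} [Fact p.Prime] {G : Type} [Group G] {𝓤 : Levels G} {ι : Type}
  {K : ι → Cx (ZMod p) G} {C I Q : ι → Rep.{0} ℤ G}

/-- **R-B, abstract form.**  `D = ∏ Dat i` a product of universal-coefficient data, `E ≤ ∏ C i`
with the quotient hypotheses, `(∏ C i) / E` a class formation mod `p`, `inv ∘ cor_U` injective.
If `j ∈ (∏ C i)^U` is supported at `q` and `[j]` is not a norm from the cyclic layer `(U, V, σ)`,
there is a 2-cocycle of `∏ K i` supported at `q` whose image in `(∏ K i) / M[0]` has non-zero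
invariant. -/
theorem rb_t3_abstract (Dat : ∀ i, UCData p (K i) (C i) (I i) (Q i))
    (hI : IsSmooth 𝓤 (cxPiRep I))
    {M : Rep.{0} (ZMod p) G} {f : CxHom (Cx.deg0 M) (Cx.pi K)} {E : AddSubgroup (cxPiRep C)}
    (hQ : (UCData.pi Dat).QuotHyp f E)
    {U₀ : Subgroup G} (h : PCF p 𝓤 hQ.C U₀)
    (inv : HH2 𝓤 ((Cx.pi K).quot0 f) →ₗ[ZMod p] ZMod p)
    (q : ι) (U V : Subgroup G) (σ : G) (hU : 𝓤.IsOpen U) [Fintype (G ⧸ U)]
    (hA2 : A2InjU U ((Cx.pi K).quot0 f) inv hU)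
    (hV : 𝓤.IsOpen V) (hc : IsCyc p U V σ)
    (j : cxPiRep C) (hj : Fix (cxPiRep C) U j) (hsupp : ∀ i, i ≠ q → (j : ∀ i, C i) i = 0)
    (hnn : ¬ IsNormFrom hQ.C p V σ (hQ.qJ j)) :
    ∃ z : ↥(ZZ2 𝓤 (Cx.pi K)),
      (∀ i, i ≠ q → (∀ t, ((z : T2 (Cx.pi K)).1 t : ∀ i, (K i).K0) i = 0) ∧
        ∀ g, ((z : T2 (Cx.pi K)).2 g : ∀ i, (K i).K1) i = 0) ∧
      inv (HH2π _ _ (((Cx.pi K).quot0Map f).mapZZ2 _ z)) ≠ 0 := by
  classical
  have : NeZero p := ⟨(Fact.out : p.Prime).ne_zero⟩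
  -- the character of the layer
  have hcU : IsCyc p (⊤ : Subgroup U) (V.subgroupOf U) (⟨σ, hc.mem⟩ : U) := by
    have := hc.subgroupOf (le_refl U)
    rwa [Subgroup.subgroupOf_self] at this
  obtain ⟨χ, hχ, hχσ, hker⟩ := f34_exists_char (isOpen_subgroupOf U hV) hcU
  -- division of `ι j`, supported at `q`
  obtain ⟨sq, hsq⟩ := (Dat q).div ((Dat q).ι ((j : ∀ i, C i) q))
  let s : cxPiRep I := Function.update (0 : ∀ i, I i) q sq
  have hs_q : (s : ∀ i, I i) q = sq := Function.update_self q sq (0 : ∀ i, I i)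
  have hs_ne : ∀ i, i ≠ q → (s : ∀ i, I i) i = 0 := fun i hi =>
    Function.update_of_ne hi sq (0 : ∀ i, I i)
  have hps : (p : ℤ) • s = (UCData.pi Dat).ι j := by
    funext i
    show (p : ℤ) • (s : ∀ i, I i) i = (Dat i).ι ((j : ∀ i, C i) i)
    by_cases hi : i = q
    · subst hi
      rw [hs_q, hsq]
    · rw [hs_ne i hi, hsupp i hi, smul_zero, map_zero]
  have hjU : ∀ u : U, (Rep.res U.subtype (cxPiRep C)).ρ u j = j := fun u => hj u u.2
  have hIU : IsSmooth (𝓤.sub U) (Rep.res U.subtype (cxPiRep I)) := UC.isSmooth_res U.subtype hI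
  obtain ⟨z1, hz1, hz1a, hz1b⟩ :=
    rb_exists_rel1α ((UCData.pi Dat).res U.subtype) hIU hjU s hps
  -- support of `z1`
  have hz1_supp0 : ∀ i, i ≠ q → ∀ u, (z1.1 u : ∀ i, (K i).K0) i = 0 := by
    intro i hi u
    apply (Dat i).i0_inj
    have h1 : (Dat i).i0 ((z1.1 u : ∀ i, (K i).K0) i)
        = (I i).ρ (u : G) ((s : ∀ i, I i) i) - (s : ∀ i, I i) i := congrFun (hz1a u) i
    rw [h1, hs_ne i hi, map_zero, sub_zero, map_zero]
  have hz1_supp1 : ∀ i, i ≠ q → (z1.2 : ∀ i, (K i).K1) i = 0 := by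
    intro i hi
    apply (Dat i).i1_inj
    have h1 : (Dat i).i1 ((z1.2 : ∀ i, (K i).K1) i) = (Dat i).π ((s : ∀ i, I i) i) :=
      congrFun hz1b i
    rw [h1, hs_ne i hi, map_zero, map_zero]
  -- the cocycle over `U`
  have hzU : UC.cupχ z1 χ ∈ ZZ2 (𝓤.sub U) ((Cx.pi K).res U.subtype) :=
    UCData.cupχ_mem_ZZ2 hz1 hχ.1 hχ.2
  refine ⟨corZZ2 U (Cx.pi K) hU ⟨UC.cupχ z1 χ, hzU⟩, fun i hi => ⟨fun t => ?_, fun g => ?_⟩,
    fun h0 => ?_⟩
  · have h1 := corT2_fst_aux U (Cx.pi K) (UC.cupχ z1 χ).1 (UC.cupχ z1 χ).2 t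
    have h2 : ((corT2 U (Cx.pi K) (UC.cupχ z1 χ)).1 t : ∀ i, (K i).K0) i
        = (∑ x : G ⧸ U, (Cx.pi K).K0.ρ (shSec U x)
            ((UC.cupχ z1 χ).1 (shW U x t.1, shW U (t.1⁻¹ • x) t.2)) : ∀ i, (K i).K0) i :=
      congrFun h1 i
    refine h2.trans ((rb_sum_apply (fun i => (K i).K0) _ _ i).trans ?_)
    refine Finset.sum_eq_zero fun x _ => ?_
    show (K i).K0.ρ (shSec U x)
      (χ (shW U (t.1⁻¹ • x) t.2) • (z1.1 (shW U x t.1) : ∀ i, (K i).K0) i) = 0
    rw [hz1_supp0 i hi, smul_zero, map_zero]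
  · have h1 := corT2_snd_aux U (Cx.pi K) (UC.cupχ z1 χ).1 (UC.cupχ z1 χ).2 g
    have h2 : ((corT2 U (Cx.pi K) (UC.cupχ z1 χ)).2 g : ∀ i, (K i).K1) i
        = (∑ x : G ⧸ U, (Cx.pi K).K1.ρ (shSec U x)
            ((UC.cupχ z1 χ).2 (shW U x g)) : ∀ i, (K i).K1) i :=
      congrFun h1 i
    refine h2.trans ((rb_sum_apply (fun i => (K i).K1) _ _ i).trans ?_)
    refine Finset.sum_eq_zero fun x _ => ?_
    show (K i).K1.ρ (shSec U x) (χ (shW U x g) • (z1.2 : ∀ i, (K i).K1) i) = 0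
    rw [hz1_supp1 i hi, smul_zero, map_zero]
  · -- non-vanishing
    have e : ((Cx.pi K).quot0Map f).mapZZ2 𝓤 (corZZ2 U (Cx.pi K) hU ⟨UC.cupχ z1 χ, hzU⟩)
        = corZZ2 U ((Cx.pi K).quot0 f) hU
            ⟨(rbResHom U.subtype ((Cx.pi K).quot0Map f)).onT2 (UC.cupχ z1 χ),
              (rbResHom U.subtype ((Cx.pi K).quot0Map f)).onT2_mem_ZZ2 _ hzU⟩ :=
      Subtype.ext (rb_onT2_corT2 U ((Cx.pi K).quot0Map f) (UC.cupχ z1 χ))
    rw [e] at h0
    have hB := hA2 _ h0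
    have hB' : UC.cupχ ((rbResHom U.subtype ((Cx.pi K).quot0Map f)).onT1 z1) χ
        ∈ BB2 (𝓤.sub U) (((Cx.pi K).quot0 f).res U.subtype) := by
      rw [← rb_onT2_cupχ]
      exact hB
    have hrel := rb_rel1α_quot0_res hQ U.subtype s hps hz1a hz1b
    have hrel2 := UCData.rel2_cupχ (𝓤 := 𝓤.sub U) hrel hχ.1 hχ.2
    have hICU : IsSmooth (𝓤.sub U) (Rep.res U.subtype hQ.IC) :=
      UC.isSmooth_res U.subtype (hQ.smoothIC hI)
    have hcob := hrel2.mem_B2 hICU hB'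
    have hcob' : UC.carryCo (Rep.res U.subtype hQ.C) χ (hQ.qJ j)
        ∈ B2 (𝓤.sub U) (Rep.res U.subtype hQ.C) := by
      have h1 := (B2 (𝓤.sub U) (Rep.res U.subtype hQ.C)).neg_mem hcob
      have e1 : (-fun t => -UC.carryCo (Rep.res U.subtype hQ.C) χ (hQ.qJ j) t)
          = UC.carryCo (Rep.res U.subtype hQ.C) χ (hQ.qJ j) := by
        funext t
        simp
      rwa [e1] at h1
    have hPU := h.res_pf hU
    have hfix : Fix (Rep.res U.subtype hQ.C) ⊤ (hQ.qJ j) := by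
      intro u _
      show hQ.C.ρ (u : G) (hQ.qJ j) = hQ.qJ j
      rw [← hQ.qJ_comm, hj u u.2]
    have hnorm := carryCo_inj_pf hχ (h1slack_pf (hPU.res_pf (cf_isOpen_charKer hχ))) hχσ hfix
      hcob'
    rw [hker] at hnorm
    have h2 := (isNormFrom_res_iff U _ _ _).1 hnorm
    rw [map_subgroupOf_of_le hc.le] at h2
    exact hnn h2

end Abstract

/-! ### the statement of the seat -/

section Concrete

variable {p : ℕ} [Fact p.Prime] {S : Finset Nat.Primes}

/-- A finite product of coinduced modules is smooth. -/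
lemma rb_smooth_pi_coInd (A : ∀ q : ↥S, Rep.{0} ℤ (primeLocalGaloisGroup q.1)) :
    IsSmooth (levelsS S)
      (cxPiRep fun q : ↥S => coInd (primeLocalToGlobal q.1) (levelsS S) (A q)) := by
  classical
  intro x
  have h : ∀ q : ↥S, ∃ U ∈ (levelsS S).sets, ∀ g ∈ U,
      (coInd (primeLocalToGlobal q.1) (levelsS S) (A q)).ρ g (x q) = x q :=
    fun q => coInd_smooth (A q) (x q)
  obtain ⟨U, hU, hUq⟩ := (levelsS S).coind_exists_le_of_finite (Set.univ : Set ↥S)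
    Set.finite_univ
    (fun q V => ∀ g ∈ V, (coInd (primeLocalToGlobal q.1) (levelsS S) (A q)).ρ g (x q) = x q)
    (fun q _ => h q) (fun q U V hVU hP g hg => hP g (hVU hg))
  exact ⟨U, hU, fun g hg => funext fun q => hUq q (Set.mem_univ _) g hg⟩

/-- **R-B.**  A non-norm `[j]`, `j ∈ J^U` supported at `q`, gives a class of `KJ` locally trivial
away from `q` with non-zero image in `HH²(G_S, KC)`
(the exact statement of the stub `t3_of_nonNorm` of `F4/Cf/Recip.lean`). -/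
theorem t3_of_nonNorm_pf (hpS : pPrime p ∈ S) (loc : ∀ q : ↥S, LocalDatum p S q.1)
    {I Q : ∀ q : ↥S, Rep.{0} ℤ (primeLocalGaloisGroup q.1)}
    (Dat : ∀ q : ↥S, UCData p (loc q).K (LqS S q.1) (I q) (Q q))
    (hI : ∀ q : ↥S, IsSmooth (locLevelsS S q.1) (I q))
    (hQ : (datJ loc Dat hI).QuotHyp (coindF loc (isSmooth_Fp1 S hpS)) (EinJ S))
    {U₀ : Subgroup GQ} (h : PCF p (levelsS S) (Crep S) U₀)
    (inv : HH2 (levelsS S) (coindKC loc (isSmooth_Fp1 S hpS)) →ₗ[ZMod p] ZMod p)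
    (hA2 : ∀ (W : Subgroup GQ) [Fintype (GQ ⧸ W)] (hW : (levelsS S).IsOpen W),
      A2InjU W (coindKC loc (isSmooth_Fp1 S hpS)) inv hW)
    (q : ↥S) (U V : Subgroup GQ) (σ : GQ) (hV : (levelsS S).IsOpen V) (hc : IsCyc p U V σ)
    (j : Jrep S) (hj : Fix (Jrep S) U j) (hsupp : ∀ q' : ↥S, q' ≠ q → j q' = 0)
    (hnn : ¬ IsNormFrom (Crep S) p V σ (CMk S j)) :
    ∃ z : ↥(ZZ2 (levelsS S) (coindKJ loc)),
      LocTrivAway (coindDatum hpS loc) q z ∧
        inv (HH2π _ _ ((coindG loc (isSmooth_Fp1 S hpS)).mapZZ2 _ z)) ≠ 0 := by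
  have hU : (levelsS S).IsOpen U := by
    obtain ⟨W, hW, hWV⟩ := hV
    exact ⟨W, hW, hWV.trans hc.le⟩
  have := hU.finite_quotient
  let _ := Fintype.ofFinite (GQ ⧸ U)
  obtain ⟨z, hz, hne⟩ := rb_t3_abstract
    (fun q : ↥S => (Dat q).coInd (primeLocalToGlobal q.1) (levelsS S) (hI q))
    (rb_smooth_pi_coInd I) hQ h inv q U V σ hU (hA2 U hU) hV hc j hj hsupp hnn
  refine ⟨z, fun q' hq' => ?_, hne⟩
  have e : (((coindDatum hpS loc).ev q').onT2
      (resT2 (primeLocalToGlobal q'.1) (coindDatum hpS loc).KJ z.1) : T2 (loc q').K) = 0 := by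
    refine Prod.ext (funext fun t => ?_) (funext fun d => ?_)
    · have h1 := (hz q' hq').1 (primeLocalToGlobal q'.1 t.1, primeLocalToGlobal q'.1 t.2)
      exact congrArg
        (fun φ => (loc q').K.coIndFun0 (primeLocalToGlobal q'.1) (levelsS S) φ 1) h1
    · have h1 := (hz q' hq').2 (primeLocalToGlobal q'.1 d)
      exact congrArg
        (fun φ => (loc q').K.coIndFun1 (primeLocalToGlobal q'.1) (levelsS S) φ 1) h1
  show (((coindDatum hpS loc).ev q').onT2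
      (resT2 (primeLocalToGlobal q'.1) (coindDatum hpS loc).KJ z.1) : T2 (loc q').K)
    ∈ BB2 (locLevelsS S q'.1) (loc q').K
  rw [e]
  exact Submodule.zero_mem _

end Concrete

end Fermat.Agent.F4Cf
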