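import Fermat.Agent.F4.Cf.Defs
import Fermat.Agent.F4.Loc.Datum.CycloLevel
import Fermat.Agent.Lib.Frobenius.Exists

/-!
# F4 / Cf / RecipC1 : seat R-C1b — the cyclic layer of `dict_local` at `q = p`  (helper31)

For `dict_local` (`F4/Cf/Recip.lean`) at the prime `q = p`:  `U = ⊤` (`F = ℚ`),
`V = cycV1 p = {g | χ(g) ^ (p - 1) = 1}`, `χ = Cyclo.modChar (p ^ 2)` the cyclotomic character
modulo `p²` (`V = Gal(ℚ̄/ℚ_1)`, `ℚ_1 ⊂ ℚ(μ_{p²})` the first layer of the cyclotomic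
`ℤ_p`-extension), `ℓ ∉ S` a prime with `ℓ ^ (p - 1) ≢ 1 mod p²` (inert in `ℚ_1`), `σ` a Frobenius
element at `ℓ`.

* `cycV1 p`, `mem_cycV1`, `cycV1_normal`;
* `cycV1_isOpen`        : `V` is open for `levelsS S` when `p ∈ S` (`ℚ_1 ⊂ ℚ(μ_{p²}) ⊂ ℚ_S`);
* `isCyc_cycV1`         : `IsCyc p ⊤ (cycV1 p) σ` for EVERY `σ ∉ cycV1 p`;
* `frob_not_mem_cycV1`  : a Frobenius element at `ℓ ≠ p` with `ℓ ^ (p - 1) ≠ 1` in `ZMod (p ^ 2)`
                          is not in `V` (`ℓ` is inert in `ℚ_1`);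
* `mem_cycV1_of_frob`   : conversely, Frobenius elements at `ℓ ≠ p` with `ℓ ^ (p - 1) = 1` in
                          `ZMod (p ^ 2)` are in `V` (`ℓ` splits in `ℚ_1`);
* `exists_inert_prime`  : there is a prime `ℓ ∉ S`, `ℓ ≠ p`, `ℓ ^ (p - 1) ≠ 1` in `ZMod (p ^ 2)`
                          (elementary: a prime factor of `1 + p ∏_{q ∈ S, q ≠ p} q`);
* `exists_layer_at_p`   : the package.

No hypothesis `p ≠ 2` is needed.
-/

set_option autoImplicit false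

open ExtCitation

namespace Fermat.Agent.F4Cf

open Fermat.Agent.F4

/-! ### The group `(ℤ/p²)ˣ` -/

section Units

variable (p : ℕ) [Fact p.Prime]

theorem rc1_card_units : Nat.card (ZMod (p ^ 2))ˣ = p * (p - 1) := by
  have hp : p.Prime := Fact.out
  rw [Nat.card_eq_fintype_card, ZMod.card_units_eq_totient,
    Nat.totient_prime_pow hp (by norm_num : 0 < 2)]
  simp

/-- `(x ^ (p - 1)) ^ p = 1` in `(ℤ/p²)ˣ`. -/
theorem rc1_pow_pow_eq_one (x : (ZMod (p ^ 2))ˣ) : (x ^ (p - 1)) ^ p = 1 := by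
  rw [← pow_mul, mul_comm, ← rc1_card_units p]
  exact pow_card_eq_one'

/-- The subgroup `{y | y ^ p = 1}` of `(ℤ/p²)ˣ` has order dividing `p`. -/
theorem rc1_card_ker_dvd : Nat.card ((powMonoidHom p : (ZMod (p ^ 2))ˣ →* (ZMod (p ^ 2))ˣ).ker) ∣ p := by
  have hp : p.Prime := Fact.out
  set P : Subgroup (ZMod (p ^ 2))ˣ := (powMonoidHom p : (ZMod (p ^ 2))ˣ →* (ZMod (p ^ 2))ˣ).ker
    with hP
  have hpg : IsPGroup p P := by
    intro g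
    refine ⟨1, ?_⟩
    have hg : (g : (ZMod (p ^ 2))ˣ) ^ p = 1 := g.2
    apply Subtype.ext
    rw [pow_one]
    exact hg
  obtain ⟨n, hn⟩ := hpg.exists_card_eq
  have hdvd : Nat.card P ∣ p * (p - 1) := by
    rw [← rc1_card_units p]
    exact Subgroup.card_subgroup_dvd_card P
  rw [hn] at hdvd ⊢
  have hn1 : n ≤ 1 := by
    by_contra hcon
    push Not at hcon
    have h2 : p ^ 2 ∣ p * (p - 1) := (pow_dvd_pow p hcon).trans hdvd
    rw [pow_two] at h2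
    have h3 : p ∣ p - 1 := (Nat.mul_dvd_mul_iff_left hp.pos).1 h2
    have h4 : 0 < p - 1 := by have := hp.two_le; omega
    have := Nat.le_of_dvd h4 h3
    omega
  calc p ^ n ∣ p ^ 1 := pow_dvd_pow p hn1
    _ = p := pow_one p

/-- In `(ℤ/p²)ˣ`, a non-trivial element `a` with `a ^ p = 1` generates `{y | y ^ p = 1}`. -/
theorem rc1_exists_pow {a y : (ZMod (p ^ 2))ˣ} (ha : a ^ p = 1) (ha1 : a ≠ 1) (hy : y ^ p = 1) :
    ∃ i : ℕ, i < p ∧ a ^ i = y := by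
  have hp : p.Prime := Fact.out
  set P : Subgroup (ZMod (p ^ 2))ˣ := (powMonoidHom p : (ZMod (p ^ 2))ˣ →* (ZMod (p ^ 2))ˣ).ker
    with hP
  have haP : a ∈ P := ha
  have hyP : y ∈ P := hy
  have hcard : Nat.card P = p := by
    rcases (Nat.dvd_prime hp).1 (rc1_card_ker_dvd p) with h1 | h1
    · exfalso
      have hsub : Subsingleton P := (Nat.card_eq_one_iff_unique.1 h1).1
      apply ha1
      have := Subsingleton.elim (⟨a, haP⟩ : P) 1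
      exact congrArg Subtype.val this
    · exact h1
  have hne : (⟨a, haP⟩ : P) ≠ 1 := fun h => ha1 (congrArg Subtype.val h)
  obtain ⟨n, hn⟩ := mem_powers_of_prime_card hcard hne (g' := (⟨y, hyP⟩ : P))
  have hn' : a ^ n = y := by
    have := congrArg Subtype.val hn
    simpa using this
  refine ⟨n % p, Nat.mod_lt _ hp.pos, ?_⟩
  rw [← hn']
  conv_rhs => rw [← Nat.div_add_mod n p]
  rw [pow_add, pow_mul, ha, one_pow, one_mul]

/-- `(1 + x) ^ n = 1 + n x` when `x ^ 2 = 0`. -/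
theorem rc1_one_add_pow {R : Type*} [CommRing R] {x : R} (hx : x ^ 2 = 0) (n : ℕ) :
    (1 + x) ^ n = 1 + n * x := by
  induction n with
  | zero => simp
  | succ n ih =>
    rw [pow_succ, ih]
    push_cast
    linear_combination (n : R) * hx

end Units

/-! ### The layer -/

section Layer

variable (p : ℕ) [Fact p.Prime]

/-- `Gal(ℚ̄/ℚ_1)`, `ℚ_1 ⊂ ℚ(μ_{p²})` the first layer of the cyclotomic `ℤ_p`-extension: the
kernel of `g ↦ χ(g) ^ (p - 1)`, `χ` the cyclotomic character modulo `p²`. -/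
noncomputable def cycV1 : Subgroup GQ :=
  ((powMonoidHom (p - 1) : (ZMod (p ^ 2))ˣ →* (ZMod (p ^ 2))ˣ).comp (Cyclo.modChar (p ^ 2))).ker

theorem mem_cycV1 (g : GQ) : g ∈ cycV1 p ↔ Cyclo.modChar (p ^ 2) g ^ (p - 1) = 1 :=
  Iff.rfl

instance cycV1_normal : (cycV1 p).Normal := by
  unfold cycV1
  infer_instance

/-- `ℚ_1 ⊂ ℚ(μ_{p²}) ⊂ ℚ_S` when `p ∈ S`. -/
theorem fixingSubgroup_cycloField_le_cycV1 :
    (Cyclo.cycloField (p ^ 2)).fixingSubgroup ≤ cycV1 p := by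
  intro s hs
  have h1 : Cyclo.modChar (p ^ 2) s = 1 :=
    Cyclo.modChar_eq_one_of_fix_cycloField (p ^ 2) s fun x hx =>
      (IntermediateField.mem_fixingSubgroup_iff _ _).1 hs x hx
  rw [mem_cycV1, h1, one_pow]

/-- `V = Gal(ℚ̄/ℚ_1)` is open in `G_S` when `p ∈ S`. -/
theorem cycV1_isOpen {S : Finset Nat.Primes} (hpS : pPrime p ∈ S) :
    (levelsS S).IsOpen (cycV1 p) := by
  have hp : p.Prime := Fact.out
  refine ⟨(Cyclo.cycloField (p ^ 2)).fixingSubgroup,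
    Loc.cycloField_mem_levelsS (p ^ 2) S ?_, fixingSubgroup_cycloField_le_cycV1 p⟩
  intro ℓ hℓ
  have h1 : (ℓ : ℕ) ∣ p := ℓ.2.dvd_of_dvd_pow hℓ
  have h2 : (ℓ : ℕ) = p := (Nat.prime_dvd_prime_iff_eq ℓ.2 hp).1 h1
  have h3 : ℓ = pPrime p := Subtype.ext h2
  rw [h3]; exact hpS

/-- `(⊤, V, σ)` is a cyclic layer of degree `p` for every `σ ∉ V`. -/
theorem isCyc_cycV1 {σ : GQ} (hσ : σ ∉ cycV1 p) : IsCyc p ⊤ (cycV1 p) σ where
  le := le_top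
  normal := fun u _ v hv => (cycV1_normal p).conj_mem v hv u
  mem := Subgroup.mem_top σ
  not_mem := hσ
  pow_mem := by
    rw [mem_cycV1, map_pow, ← pow_mul, mul_comm, pow_mul]
    exact rc1_pow_pow_eq_one p _
  gen := fun u _ => by
    obtain ⟨i, hi, h⟩ := rc1_exists_pow p (rc1_pow_pow_eq_one p (Cyclo.modChar (p ^ 2) σ))
      (fun h => hσ ((mem_cycV1 p σ).2 h)) (rc1_pow_pow_eq_one p (Cyclo.modChar (p ^ 2) u))
    refine ⟨i, hi, ?_⟩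
    rw [mem_cycV1, map_mul, map_inv, map_pow, mul_pow, inv_pow, ← pow_mul, mul_comm i, pow_mul,
      h, inv_mul_cancel]

/-- The value of `χ ^ (p - 1)` at a Frobenius element at `ℓ ≠ p`. -/
theorem modChar_pow_frob {ℓ : ℕ} (hℓ : ℓ.Prime) (hℓp : ℓ ≠ p)
    (A : ValuationSubring (AlgebraicClosure ℚ)) (hA : A.LiesOverPrime ℓ) (τ : GQ)
    (hτ : A.IsFrobeniusAt τ ℓ) :
    (((Cyclo.modChar (p ^ 2) τ) ^ (p - 1) : (ZMod (p ^ 2))ˣ) : ZMod (p ^ 2)) =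
      (ℓ : ZMod (p ^ 2)) ^ (p - 1) := by
  have hp : p.Prime := Fact.out
  have hn : ¬ ℓ ∣ p ^ 2 := fun h =>
    hℓp ((Nat.prime_dvd_prime_iff_eq hℓ hp).1 (hℓ.dvd_of_dvd_pow h))
  rw [Units.val_pow_eq_pow_val, Cyclo.modChar_frobenius (p ^ 2) hℓ hn A hA τ hτ]

/-- **`ℓ` inert in `ℚ_1`**: the Frobenius elements at a prime `ℓ ≠ p` with
`ℓ ^ (p - 1) ≢ 1 mod p²` are not in `V`. -/
theorem frob_not_mem_cycV1 {ℓ : ℕ} (hℓ : ℓ.Prime) (hℓp : ℓ ≠ p)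
    (hin : (ℓ : ZMod (p ^ 2)) ^ (p - 1) ≠ 1)
    (A : ValuationSubring (AlgebraicClosure ℚ)) (hA : A.LiesOverPrime ℓ) (τ : GQ)
    (hτ : A.IsFrobeniusAt τ ℓ) : τ ∉ cycV1 p := by
  intro hmem
  apply hin
  rw [← modChar_pow_frob p hℓ hℓp A hA τ hτ, (mem_cycV1 p τ).1 hmem, Units.val_one]

/-- `ℓ` split in `ℚ_1`: the Frobenius elements at a prime `ℓ ≠ p` with `ℓ ^ (p - 1) ≡ 1 mod p²`
are in `V`. -/
theorem mem_cycV1_of_frob {ℓ : ℕ} (hℓ : ℓ.Prime) (hℓp : ℓ ≠ p)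
    (hsp : (ℓ : ZMod (p ^ 2)) ^ (p - 1) = 1)
    (A : ValuationSubring (AlgebraicClosure ℚ)) (hA : A.LiesOverPrime ℓ) (τ : GQ)
    (hτ : A.IsFrobeniusAt τ ℓ) : τ ∈ cycV1 p := by
  rw [mem_cycV1]
  apply Units.ext
  rw [modChar_pow_frob p hℓ hℓp A hA τ hτ, hsp, Units.val_one]

/-- The inertia groups at the primes `ℓ ≠ p` are contained in `V` (`ℚ_1/ℚ` is unramified outside
`p`). -/
theorem inertia_le_cycV1 {ℓ : ℕ} (hℓ : ℓ.Prime) (hℓp : ℓ ≠ p)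
    (A : ValuationSubring (AlgebraicClosure ℚ)) (hA : A.LiesOverPrime ℓ) (τ : GQ)
    (hτ : τ ∈ A.inertiaSubgroupIn ℚ) : τ ∈ cycV1 p := by
  have hp : p.Prime := Fact.out
  have hn : ¬ ℓ ∣ p ^ 2 := fun h =>
    hℓp ((Nat.prime_dvd_prime_iff_eq hℓ hp).1 (hℓ.dvd_of_dvd_pow h))
  rw [mem_cycV1, Cyclo.modChar_inertia (p ^ 2) hℓ hn A hA τ hτ, one_pow]

end Layer

/-! ### An inert prime outside `S` -/

section Inert

variable (p : ℕ) [Fact p.Prime]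

omit [Fact p.Prime] in
/-- A natural number `m ≠ 0` with `m ^ (p - 1) ≠ 1` in `ZMod (p ^ 2)` has a prime factor with the
same property. -/
theorem rc1_exists_prime_factor (m : ℕ) (hm0 : m ≠ 0) (hm : (m : ZMod (p ^ 2)) ^ (p - 1) ≠ 1) :
    ∃ ℓ : ℕ, ℓ.Prime ∧ ℓ ∣ m ∧ (ℓ : ZMod (p ^ 2)) ^ (p - 1) ≠ 1 := by
  induction m using Nat.recOnMul with
  | zero => exact absurd rfl hm0
  | one => exact absurd (by simp) hm
  | prime ℓ hℓ => exact ⟨ℓ, hℓ, dvd_rfl, hm⟩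
  | mul a b iha ihb =>
    have ha0 : a ≠ 0 := fun h => hm0 (by rw [h, zero_mul])
    have hb0 : b ≠ 0 := fun h => hm0 (by rw [h, mul_zero])
    by_cases ha : (a : ZMod (p ^ 2)) ^ (p - 1) = 1
    · have hb : (b : ZMod (p ^ 2)) ^ (p - 1) ≠ 1 := by
        intro hb
        apply hm
        rw [Nat.cast_mul, mul_pow, ha, hb, one_mul]
      obtain ⟨ℓ, hℓ, hd, h⟩ := ihb hb0 hb
      exact ⟨ℓ, hℓ, hd.trans (dvd_mul_left b a), h⟩
    · obtain ⟨ℓ, hℓ, hd, h⟩ := iha ha0 ha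
      exact ⟨ℓ, hℓ, hd.trans (dvd_mul_right a b), h⟩

/-- **An inert prime outside `S`**: there is a prime `ℓ ∉ S`, `ℓ ≠ p`, with
`ℓ ^ (p - 1) ≢ 1 mod p²`. -/
theorem exists_inert_prime (S : Finset Nat.Primes) :
    ∃ ℓ : Nat.Primes, ℓ ∉ S ∧ (ℓ : ℕ) ≠ p ∧ ((ℓ : ℕ) : ZMod (p ^ 2)) ^ (p - 1) ≠ 1 := by
  classical
  have hp : p.Prime := Fact.out
  set N : ℕ := ∏ q ∈ S.erase (pPrime p), (q : ℕ) with hN
  have hpN : ¬ p ∣ N := by
    intro h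
    rw [hN] at h
    obtain ⟨q, hq, hpq⟩ := (Prime.dvd_finsetProd_iff (Nat.prime_iff.1 hp) _).1 h
    have h1 : p = (q : ℕ) := (Nat.prime_dvd_prime_iff_eq hp q.2).1 hpq
    have h2 : q = pPrime p := Subtype.ext h1.symm
    exact (Finset.mem_erase.1 hq).1 h2
  have hx : ((p * N : ℕ) : ZMod (p ^ 2)) ^ 2 = 0 := by
    rw [← Nat.cast_pow, ZMod.natCast_eq_zero_iff]
    exact ⟨N ^ 2, by ring⟩
  have hm : ((1 + p * N : ℕ) : ZMod (p ^ 2)) ^ (p - 1) ≠ 1 := by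
    intro h
    rw [Nat.cast_add, Nat.cast_one, rc1_one_add_pow hx] at h
    have h1 : (((p - 1) * (p * N) : ℕ) : ZMod (p ^ 2)) = 0 := by
      have h2 : (1 : ZMod (p ^ 2)) + ((p - 1 : ℕ) : ZMod (p ^ 2)) * ((p * N : ℕ) : ZMod (p ^ 2))
          = 1 + 0 := by rw [h, add_zero]
      rw [Nat.cast_mul]
      exact add_left_cancel h2
    rw [ZMod.natCast_eq_zero_iff, pow_two] at h1
    have h3 : p * p ∣ p * ((p - 1) * N) := by
      have e : (p - 1) * (p * N) = p * ((p - 1) * N) := by ring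
      rwa [e] at h1
    have h4 : p ∣ (p - 1) * N := (Nat.mul_dvd_mul_iff_left hp.pos).1 h3
    rcases (Nat.Prime.dvd_mul hp).1 h4 with h5 | h5
    · have h6 : 0 < p - 1 := by have := hp.two_le; omega
      have := Nat.le_of_dvd h6 h5
      omega
    · exact hpN h5
  obtain ⟨ℓ, hℓ, hd, hne⟩ := rc1_exists_prime_factor p (1 + p * N) (by omega) hm
  refine ⟨⟨ℓ, hℓ⟩, ?_, ?_, hne⟩
  · intro hS
    by_cases hℓp : (⟨ℓ, hℓ⟩ : Nat.Primes) = pPrime p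
    · have h1 : ℓ = p := congrArg Subtype.val hℓp
      rw [h1] at hd
      have h2 : p ∣ 1 := (Nat.dvd_add_left (dvd_mul_right p N)).1 hd
      exact hp.one_lt.ne' (Nat.dvd_one.1 h2)
    · have hmem : (⟨ℓ, hℓ⟩ : Nat.Primes) ∈ S.erase (pPrime p) := Finset.mem_erase.2 ⟨hℓp, hS⟩
      have h1 : ℓ ∣ N := Finset.dvd_prod_of_mem (fun q : Nat.Primes => (q : ℕ)) hmem
      have h2 : ℓ ∣ 1 := (Nat.dvd_add_left (h1.trans (dvd_mul_left N p))).1 hd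
      exact hℓ.one_lt.ne' (Nat.dvd_one.1 h2)
  · intro h1
    have h1' : ℓ = p := h1
    rw [h1'] at hd
    have h2 : p ∣ 1 := (Nat.dvd_add_left (dvd_mul_right p N)).1 hd
    exact hp.one_lt.ne' (Nat.dvd_one.1 h2)

end Inert

/-! ### The package -/

/-- **R-C1b.**  The cyclic layer of `dict_local` at `q = p`: `U = ⊤`, `V = cycV1 p` (open for
`levelsS S`), a prime `ℓ ∉ S` all of whose Frobenius elements lie outside `V` (`ℓ` is inert in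
`ℚ_1`), and `σ` a Frobenius element at `ℓ`. -/
theorem exists_layer_at_p (p : ℕ) [Fact p.Prime] {S : Finset Nat.Primes} (hpS : pPrime p ∈ S) :
    ∃ (σ : GQ) (ℓ : Nat.Primes) (A : ValuationSubring (AlgebraicClosure ℚ)),
      (levelsS S).IsOpen (cycV1 p) ∧ IsCyc p ⊤ (cycV1 p) σ ∧ ℓ ∉ S ∧ (ℓ : ℕ) ≠ p ∧
      ((ℓ : ℕ) : ZMod (p ^ 2)) ^ (p - 1) ≠ 1 ∧
      A.LiesOverPrime (ℓ : ℕ) ∧ A.IsFrobeniusAt σ (ℓ : ℕ) ∧
      (∀ A' : ValuationSubring (AlgebraicClosure ℚ), A'.LiesOverPrime (ℓ : ℕ) →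
        ∀ τ : GQ, A'.IsFrobeniusAt τ (ℓ : ℕ) → τ ∉ cycV1 p) ∧
      (∀ (q : ℕ), q.Prime → q ≠ p → ∀ A' : ValuationSubring (AlgebraicClosure ℚ),
        A'.LiesOverPrime q → ∀ τ : GQ, τ ∈ A'.inertiaSubgroupIn ℚ → τ ∈ cycV1 p) := by
  obtain ⟨ℓ, hℓS, hℓp, hin⟩ := exists_inert_prime p S
  obtain ⟨A, σ, hA, hσ⟩ := Fermat.Agent.FrobExists.exists_frobenius (ℓ : ℕ) ℓ.2
  have hnot := frob_not_mem_cycV1 p ℓ.2 hℓp hin
  exact ⟨σ, ℓ, A, cycV1_isOpen p hpS, isCyc_cycV1 p (hnot A hA σ hσ), hℓS, hℓp, hin, hA, hσ,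
    hnot, fun q hq hqp A' hA' τ hτ => inertia_le_cycV1 p hq hqp A' hA' τ hτ⟩

end Fermat.Agent.F4Cf
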