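import Fermat.Agent.F4.Cf.RecipCFin
import Fermat.Agent.F4.Dict.Level

/-!
# F4 / Cf / RecipCGlue : the finite-level arithmetic of `RecipCFin` for a `LayerS` (helper29)

`ℓ : LayerS p S` a layer with `ker χ_n ≤ ℓ.top.U` (so `M = ℓ.top.field ⊆ ℚ(μ_n)`), `r ∤ n` a prime
with `χ_n(ℓ.σ) = r`.  Then

* `LayerS.top_le_cycloField` : `M ≤ ℚ(μ_n)`;
* `LayerS.unramOutside_cyclo` : `M / F` is unramified outside any `T` containing the primes of
  `F` dividing `n`;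
* `LayerS.isFrobRel_gen` : `ℓ.gen` is a Frobenius element (exponent `r`) at every prime of `M`
  over `r`;  `LayerS.absNorm_under_cyclo` : the primes of `F` over `r` have norm `r`;
* `LayerS.frob_eq_gen` : every Frobenius element of `M / F` at a prime over `r` is `ℓ.gen`.
-/

set_option autoImplicit false
set_option linter.unusedSectionVars false
set_option synthInstance.maxHeartbeats 400000

open NumberField IsDedekindDomain ExtCitation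

namespace Fermat.Agent.F4

open Fermat.Agent.Cyclo Fermat.Agent.F4Rec Fermat.Agent.F4RCF

attribute [local instance] Fermat.Agent.FrobExists.isGalois_Qb

variable {p : ℕ} {S : Finset Nat.Primes} (ℓ : LayerS p S) (n : ℕ) [NeZero n]

/-- `M ≤ ℚ(μ_n)` if `ker χ_n ≤ V`. -/
theorem LayerS.top_le_cycloField (hker : ∀ g : GQ, modChar n g = 1 → g ∈ ℓ.top.U) :
    ℓ.top.field ≤ cycloField n := by
  intro x hx
  rw [← InfiniteGalois.fixedField_fixingSubgroup (cycloField n),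
    IntermediateField.mem_fixedField_iff]
  intro h hh
  have h1 : modChar n h = 1 := by
    apply modChar_eq_one_of_fix_cycloField
    rw [IntermediateField.mem_fixingSubgroup_iff] at hh
    exact hh
  exact (ℓ.top.mem_field_iff x).1 hx h (hker h h1)

theorem LayerS.σ_mem_fixingSubgroup_bot : ℓ.σ ∈ ℓ.bot.field.fixingSubgroup := by
  rw [ℓ.bot.fixingSubgroup_field]
  exact ℓ.cyc.mem

/-- `M / F` is unramified outside the primes dividing `n`. -/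
theorem LayerS.unramOutside_cyclo (hker : ∀ g : GQ, modChar n g = 1 → g ∈ ℓ.top.U)
    (T : Finset (HeightOneSpectrum (𝓞 ℓ.bot.field)))
    (hT : ∀ v : HeightOneSpectrum (𝓞 ℓ.bot.field), ((n : ℕ) : 𝓞 ℓ.bot.field) ∈ v.asIdeal → v ∈ T) :
    UnramOutside ℓ.bot.field ℓ.top.field T :=
  rcf_unramOutside n ℓ.bot.field ℓ.top.field (ℓ.top_le_cycloField n hker) T hT

variable {r : ℕ}

/-- `ℓ.gen` is a Frobenius element at every prime of `M` over `r`. -/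
theorem LayerS.isFrobRel_gen (hker : ∀ g : GQ, modChar n g = 1 → g ∈ ℓ.top.U)
    (hr : r.Prime) (hrn : ¬ r ∣ n)
    (hσ : ((modChar n ℓ.σ : (ZMod n)ˣ) : ZMod n) = (r : ZMod n))
    (Q : Ideal (𝓞 ℓ.top.field)) (hQ : Q.IsPrime) (hrQ : ((r : ℕ) : 𝓞 ℓ.top.field) ∈ Q) :
    IsFrobRel ℓ.gen Q r :=
  rcf_isFrobRel n ℓ.bot.field ℓ.top.field hr hrn (ℓ.top_le_cycloField n hker) ℓ.σ hσ ℓ.gen
    (fun x => ℓ.coe_gen x) Q hQ hrQ

/-- The primes of `F` over `r` have norm `r`. -/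
theorem LayerS.absNorm_under_cyclo (hker : ∀ g : GQ, modChar n g = 1 → g ∈ ℓ.top.U)
    (hr : r.Prime) (hrn : ¬ r ∣ n)
    (hσ : ((modChar n ℓ.σ : (ZMod n)ˣ) : ZMod n) = (r : ZMod n))
    (Q : Ideal (𝓞 ℓ.top.field)) (hQ : Q.IsPrime) (hrQ : ((r : ℕ) : 𝓞 ℓ.top.field) ∈ Q) :
    Ideal.absNorm (Q.under (𝓞 ℓ.bot.field)) = r :=
  rcf_absNorm_under n ℓ.bot.field ℓ.top.field hr hrn (ℓ.top_le_cycloField n hker) ℓ.σ hσ
    ℓ.σ_mem_fixingSubgroup_bot Q hQ hrQ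

/-- Every Frobenius element of `M / F` at a prime over `r` is `ℓ.gen`. -/
theorem LayerS.frob_eq_gen (hker : ∀ g : GQ, modChar n g = 1 → g ∈ ℓ.top.U)
    (hr : r.Prime) (hrn : ¬ r ∣ n)
    (hσ : ((modChar n ℓ.σ : (ZMod n)ˣ) : ZMod n) = (r : ZMod n))
    (Q : Ideal (𝓞 ℓ.top.field)) (hQ : Q.IsPrime) (hrQ : ((r : ℕ) : 𝓞 ℓ.top.field) ∈ Q)
    (τ' : ℓ.top.field ≃ₐ[ℓ.bot.field] ℓ.top.field)
    (hτ' : IsFrobRel τ' Q (Ideal.absNorm (Q.under (𝓞 ℓ.bot.field)))) : τ' = ℓ.gen :=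
  rcf_frob_eq n ℓ.bot.field ℓ.top.field hr hrn (ℓ.top_le_cycloField n hker) ℓ.σ hσ
    ℓ.σ_mem_fixingSubgroup_bot ℓ.gen (fun x => ℓ.coe_gen x) Q hQ hrQ τ' hτ'

/-- ... and it is not `1`. -/
theorem LayerS.frob_ne_one [Fact p.Prime] (hker : ∀ g : GQ, modChar n g = 1 → g ∈ ℓ.top.U)
    (hr : r.Prime) (hrn : ¬ r ∣ n)
    (hσ : ((modChar n ℓ.σ : (ZMod n)ˣ) : ZMod n) = (r : ZMod n))
    (Q : Ideal (𝓞 ℓ.top.field)) (hQ : Q.IsPrime) (hrQ : ((r : ℕ) : 𝓞 ℓ.top.field) ∈ Q)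
    (τ' : ℓ.top.field ≃ₐ[ℓ.bot.field] ℓ.top.field)
    (hτ' : IsFrobRel τ' Q (Ideal.absNorm (Q.under (𝓞 ℓ.bot.field)))) : τ' ≠ 1 := by
  rw [ℓ.frob_eq_gen n hker hr hrn hσ Q hQ hrQ τ' hτ']
  exact ℓ.gen_ne_one

end Fermat.Agent.F4
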