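import Fermat.Agent.F4.Dict.LocalCore
import Fermat.Agent.F4.Dict.InertDiv
import Fermat.Agent.F4.Cf.RecipC1
import Fermat.Agent.F4.Cf.RecipCGlue

/-!
# F4 / Cf / RecipC2eq : seat RC2-EQ — `dict_local` at the prime `q = p`  (helper31)
-/

set_option autoImplicit false
set_option synthInstance.maxHeartbeats 400000
set_option linter.style.haveILetI false
set_option linter.unusedSectionVars false
set_option linter.unusedVariables false

open CategoryTheory groupCohomology ExtCitation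
open NumberField IsDedekindDomain

namespace Fermat.Agent.F4Cf

open Fermat.Agent.F4

attribute [local instance] fact_prime_coe86

variable {p : ℕ} {S : Finset Nat.Primes}

/-- **RC2-EQ.**  `dict_local` at the prime `q = p`. -/
theorem dict_local_eq [Fact p.Prime] (hp2 : p ≠ 2) (hpS : pPrime p ∈ S) (q : ↥S)
    (hq : ((q : Nat.Primes) : ℕ) = p) :
    ∃ (U V : Subgroup GQ) (σ : GQ) (j : Jrep S), (levelsS S).IsOpen V ∧ IsCyc p U V σ ∧
      Fix (Jrep S) U j ∧ (∀ q' : ↥S, q' ≠ q → j q' = 0) ∧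
      ¬ IsNormFrom (Crep S) p V σ (CMk S j) := by
  classical
  have hp : p.Prime := Fact.out
  obtain ⟨σ, r, A, hVopen, hcyc, hrS, hrp, hin, hA, hσ, hnot, hinertia⟩ :=
    exists_layer_at_p p hpS
  set ℓ : LayerS p S := LayerS.ofCyc hVopen hcyc with hℓ
  have hS : S.Nonempty := ⟨_, hpS⟩
  have hID : ℓ.LcInertDiv := fun t ht f hfe v hv hin' =>
    ℓ.dvd_log_of_inert ht f hfe v hv hin'
  have hrn : ¬ (r : ℕ) ∣ p ^ 2 := fun h =>
    hrp ((Nat.prime_dvd_prime_iff_eq r.2 hp).1 (r.2.dvd_of_dvd_pow h))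
  have hker : ∀ g : GQ, Cyclo.modChar (p ^ 2) g = 1 → g ∈ ℓ.top.U := by
    intro g hg
    show g ∈ cycV1 p
    rw [mem_cycV1, hg, one_pow]
  have hσr : ((Cyclo.modChar (p ^ 2) ℓ.σ : (ZMod (p ^ 2))ˣ) : ZMod (p ^ 2)) =
      ((r : ℕ) : ZMod (p ^ 2)) :=
    Cyclo.modChar_frobenius (p ^ 2) r.2 hrn A hA σ hσ
  -- the primes of `F` over `p`
  set Tp : Finset (HeightOneSpectrum (𝓞 ℓ.bot.field)) :=
    ℓ.bot.T.filter (fun v => ((p : ℕ) : 𝓞 ℓ.bot.field) ∈ v.asIdeal) with hTpdef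
  have hTsub : Tp ⊆ ℓ.bot.T := Finset.filter_subset _ _
  have hqp : (((q : Nat.Primes) : ℕ) : 𝓞 ℓ.bot.field) = ((p : ℕ) : 𝓞 ℓ.bot.field) :=
    congrArg (fun n : ℕ => (n : 𝓞 ℓ.bot.field)) hq
  have hqTp : ∀ g : GQ, F4G.primeOf (ℓ.bot.emb q.1 g) ∈ Tp := by
    intro g
    rw [hTpdef, Finset.mem_filter]
    refine ⟨ja_primeOf_mem_T ℓ.bot q g, ?_⟩
    rw [← hqp]
    exact F4G.natCast_mem_primeOf (ℓ.bot.emb q.1 g)
  have hTp : Tp.Nonempty := ⟨_, hqTp 1⟩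
  have hunr : F4Rec.UnramOutside ℓ.bot.field ℓ.top.field Tp := by
    refine ℓ.unramOutside_cyclo (p ^ 2) hker Tp (fun v hv => ?_)
    have hpv : ((p : ℕ) : 𝓞 ℓ.bot.field) ∈ v.asIdeal := by
      have h2 : (((p : ℕ) : 𝓞 ℓ.bot.field)) ^ 2 ∈ v.asIdeal := by
        have e : (((p ^ 2 : ℕ) : ℕ) : 𝓞 ℓ.bot.field) = (((p : ℕ) : 𝓞 ℓ.bot.field)) ^ 2 := by
          push_cast; rfl
        rw [← e]; exact hv
      exact v.isPrime.mem_of_pow_mem 2 h2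
    rw [hTpdef, Finset.mem_filter]
    refine ⟨(ℓ.bot.mem_T v).2 ⟨pPrime p, hpS, hpv⟩, hpv⟩
  -- the prime `P` of `F` over `r`, and the prime `Q` of `M` above it
  set P : HeightOneSpectrum (𝓞 ℓ.bot.field) := ℓ.bot.primeBelowAt r A hA with hPdef
  have hPT : P ∉ ℓ.bot.T := ℓ.bot.primeBelowAt_not_mem_T r hrS A hA
  have hP : P ∉ Tp := fun h => hPT (hTsub h)
  set Qw : HeightOneSpectrum (𝓞 ℓ.top.field) := ℓ.top.primeBelowAt r A hA with hQwdef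
  have hQP : Qw.asIdeal.under (𝓞 ℓ.bot.field) = P.asIdeal := (ℓ.primeBelow_bot A).symm
  have hrQ : (((r : ℕ) : ℕ) : 𝓞 ℓ.top.field) ∈ Qw.asIdeal :=
    Fermat.Agent.KFin.natCast_mem_primeBelow ℓ.top.field A r hA
  have hFr : ∀ τ : ℓ.top.field ≃ₐ[ℓ.bot.field] ℓ.top.field,
      F4Rec.IsFrobRel τ Qw.asIdeal (Ideal.absNorm (Qw.asIdeal.under (𝓞 ℓ.bot.field))) → τ ≠ 1 :=
    fun τ hτ => ℓ.frob_ne_one (p ^ 2) hker r.2 hrn hσr Qw.asIdeal Qw.isPrime hrQ τ hτ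
  -- the idele `j`: `r` at the places over `q`, `1` elsewhere
  have hr0 : (((r : ℕ) : ℕ) : @PadicAlgCl ((q : Nat.Primes) : ℕ) ⟨(q : Nat.Primes).2⟩) ≠ 0 :=
    Nat.cast_ne_zero.2 r.2.ne_zero
  set y : (@PadicAlgCl ((q : Nat.Primes) : ℕ) ⟨(q : Nat.Primes).2⟩)ˣ := Units.mk0 _ hr0 with hydef
  have hy : ∀ d ∈ ℓ.bot.Dsub q.1 1,
      locAct q.1 d (y : @PadicAlgCl ((q : Nat.Primes) : ℕ) ⟨(q : Nat.Primes).2⟩) = y :=
    fun d _ => map_natCast (locAct q.1 d) r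
  set j : Jrep S := ℓ.bot.single q 1 y hy with hjdef
  have hj : j ∈ ℓ.bot.JU := ℓ.bot.single_mem_JU q 1 y hy
  have hjq : ∀ g : GQ, Jval j q g =
      (((r : ℕ) : ℕ) : @PadicAlgCl ((q : Nat.Primes) : ℕ) ⟨(q : Nat.Primes).2⟩) := by
    intro g
    rw [Jval_def, hjdef, OpenS.Jfun_single_self]
    have e : g = primeLocalToGlobal q.1 1 * 1 * g := by rw [map_one, one_mul, one_mul]
    conv_lhs => rw [e]
    rw [ℓ.bot.singleFun_eq q 1 y hy 1 g (Subgroup.mem_top g), map_one, Module.End.one_apply]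
    rfl
  have hjne : ∀ (q' : ↥S), q' ≠ q → ∀ g : GQ, Jval j q' g = 1 := by
    intro q' hq' g
    rw [Jval_def, hjdef, OpenS.Jfun_single_of_ne _ _ _ _ _ _ hq', smUnits.val_zero]
    rfl
  have hsupp : ∀ q' : ↥S, q' ≠ q → j q' = 0 := by
    intro q' hq'
    rw [hjdef]
    unfold OpenS.single
    rw [dif_neg hq']
  -- the global element `c = r`
  have hrF : (((r : ℕ) : ℕ) : ℓ.bot.field) ≠ 0 := Nat.cast_ne_zero.2 r.2.ne_zero
  set c : (ℓ.bot.field)ˣ := Units.mk0 _ hrF with hcdef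
  have hcval : ∀ (q' : ↥S) (g : GQ), ℓ.bot.emb q'.1 g (c : ℓ.bot.field) =
      (((r : ℕ) : ℕ) : @PadicAlgCl ((q' : Nat.Primes) : ℕ) ⟨(q' : Nat.Primes).2⟩) :=
    fun q' g => map_natCast (ℓ.bot.emb q'.1 g) r
  -- a place in `Tp` is a place over `q`
  have hq_of_Tp : ∀ (q' : ↥S) (g : GQ), F4G.primeOf (ℓ.bot.emb q'.1 g) ∈ Tp → q' = q := by
    intro q' g hmem
    rw [hTpdef, Finset.mem_filter] at hmem
    have h1 : (((q' : Nat.Primes) : ℕ) : 𝓞 ℓ.bot.field) ∈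
        (F4G.primeOf (ℓ.bot.emb q'.1 g)).asIdeal := F4G.natCast_mem_primeOf (ℓ.bot.emb q'.1 g)
    haveI := (F4G.primeOf (ℓ.bot.emb q'.1 g)).isPrime
    have e : ((q' : Nat.Primes) : ℕ) = p :=
      div_prime_unique (F4G.primeOf (ℓ.bot.emb q'.1 g)).asIdeal q'.1.2 hp h1 hmem.2
    exact Subtype.ext (Subtype.ext (e.trans hq.symm))
  have hjTp : ∀ (q' : ↥S) (g : GQ), F4G.primeOf (ℓ.bot.emb q'.1 g) ∈ Tp →
      Jval j q' g = ℓ.bot.emb q'.1 g (c : ℓ.bot.field) := by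
    intro q' g hmem
    have hq'q := hq_of_Tp q' g hmem
    rw [hcval, hq'q]
    exact hjq g
  -- `r` is a unit at the places of `S`
  have hr_notMem : ∀ (q' : ↥S) (g : GQ),
      (((r : ℕ) : ℕ) : 𝓞 ℓ.bot.field) ∉ (F4G.primeOf (ℓ.bot.emb q'.1 g)).asIdeal := by
    intro q' g hmem
    have h1 : (((q' : Nat.Primes) : ℕ) : 𝓞 ℓ.bot.field) ∈
        (F4G.primeOf (ℓ.bot.emb q'.1 g)).asIdeal := F4G.natCast_mem_primeOf (ℓ.bot.emb q'.1 g)
    haveI := (F4G.primeOf (ℓ.bot.emb q'.1 g)).isPrime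
    have e : ((q' : Nat.Primes) : ℕ) = (r : ℕ) :=
      div_prime_unique (F4G.primeOf (ℓ.bot.emb q'.1 g)).asIdeal q'.1.2 r.2 h1 hmem
    exact hrS ((Subtype.ext e : q'.1 = r) ▸ q'.2)
  have hjT : ∀ (q' : ↥S) (g : GQ), F4G.primeOf (ℓ.bot.emb q'.1 g) ∉ Tp →
      F4G.primeOf (ℓ.bot.emb q'.1 g) ≠ P →
      ‖Jval j q' g‖ = ‖ℓ.bot.emb q'.1 g (c : ℓ.bot.field)‖ := by
    intro q' g hnotTp _
    have hq'q : q' ≠ q := fun h => hnotTp (h ▸ hqTp g)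
    rw [hjne q' hq'q g, norm_one]
    have h1 := F4G.norm_eq_one_of_notMem (ℓ.bot.emb q'.1 g) (hr_notMem q' g)
    rw [← h1]
    congr 1
  -- `r` is a unit outside `P` and `S`
  have hc : ∀ v : HeightOneSpectrum (𝓞 ℓ.bot.field), v ∉ ℓ.bot.T → v ≠ P →
      F4Rec.ordV v c = 0 := by
    intro v _ hvP
    have hnm : (((r : ℕ) : ℕ) : 𝓞 ℓ.bot.field) ∉ v.asIdeal := by
      intro hmem
      obtain ⟨A', hA', hvA'⟩ := ℓ.bot.exists_primeBelowAt_of_mem v r hmem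
      obtain ⟨g, hg⟩ := Fermat.Agent.F4.exists_smul_eq_of_liesOverPrime A A' r.2 hA hA'
      apply hvP
      rw [hvA']
      apply HeightOneSpectrum.ext
      rw [OpenS.primeBelowAt_asIdeal, hPdef, OpenS.primeBelowAt_asIdeal, ← hg]
      have h1 := ℓ.bot.primeBelow_inv_smul_of_mem g⁻¹ (Subgroup.mem_top _) A
      rwa [inv_inv] at h1
    apply F4Rec.ordV_eq_zero_of_valuation_eq_one
    have e : ((c : (ℓ.bot.field)ˣ) : ℓ.bot.field) =
        algebraMap (𝓞 ℓ.bot.field) ℓ.bot.field (((r : ℕ) : ℕ) : 𝓞 ℓ.bot.field) := by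
      rw [map_natCast]
      rfl
    rw [e]
    exact (HeightOneSpectrum.valuation_eq_one_iff_notMem v).2 hnm
  -- the order of `r` at `P` is `1`
  have hordc : F4Rec.ordV P c = 1 := by
    have h1 := ℓ.bot.capit_valuation_natCast_field r hrS A hA P rfl
    show -(WithZero.log (P.valuation ℓ.bot.field (((r : ℕ) : ℕ) : ℓ.bot.field))) = 1
    rw [h1, WithZero.log_exp]
    norm_num
  have hPj : ∀ f : (ℓ.bot.field)ˣ,
      (∀ (q' : ↥S) (g : GQ), F4G.primeOf (ℓ.bot.emb q'.1 g) = P →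
        ‖ℓ.bot.emb q'.1 g (f : ℓ.bot.field)‖ = ‖Jval j q' g‖) →
      (P ∉ ℓ.bot.T → (p : ℤ) ∣ F4Rec.ordV P f) → ¬ (p : ℤ) ∣ F4Rec.ordV P (f / c) := by
    intro f _ h2 hdiv
    have h3 := h2 hPT
    rw [lc_ordV_div, hordc] at hdiv
    have h4 : (p : ℤ) ∣ 1 := by
      have h5 := dvd_sub h3 hdiv
      simpa using h5
    have h6 : p ∣ 1 := by exact_mod_cast h4
    exact hp.one_lt.ne' (Nat.dvd_one.1 h6)
  have hcore := ℓ.not_isNormFrom_core hp2 hS hID Tp hTp hTsub hunr P hP Qw.asIdeal Qw.isPrime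
    Qw.ne_bot hQP hFr hj c hjTp hjT hc hPj
  exact ⟨⊤, cycV1 p, σ, j, hVopen, hcyc, hj, hsupp, hcore⟩

end Fermat.Agent.F4Cf
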