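import Fermat.Agent.F4.Dict.LocalCore
import Fermat.Agent.F4.Dict.InertDiv
import Fermat.Agent.F4.Dict.PlaceSurj
import Fermat.Agent.F4.Dict.CapitLevel
import Fermat.Agent.F4.Cf.CycLayer
import Fermat.Agent.F4.Cf.RecipCGlue

/-!
# F4 / Cf / RecipC2ne : `dict_local` at a prime `q ≠ p` of `S` (seat RC2-NE, helper29)

The cyclotomic layer of helper13 (`cycLayer_ne`: `U = χ⁻¹⟨q⟩`, `V = χ⁻¹⟨q ^ p⟩`, `χ` the cyclotomic
character mod `p ^ k`), the idèle `j = (q at the place of ι_q, 1 elsewhere)`, the core of helper55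
(`LayerS.not_isNormFrom_core`) with `Tp` = the primes over `p`, `P` = the place of `ι_q`, `c = 1`,
and the finite-level arithmetic of `RecipCFin` / `RecipCGlue`.
-/

set_option autoImplicit false
set_option synthInstance.maxHeartbeats 400000
set_option maxHeartbeats 1000000
set_option linter.unusedSectionVars false
set_option linter.style.haveILetI false

open CategoryTheory groupCohomology ExtCitation
open NumberField IsDedekindDomain
open scoped Pointwise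

namespace Fermat.Agent.F4Cf

open Fermat.Agent.F4

attribute [local instance] fact_prime_coe86

/-- Two coprime natural numbers cannot both lie in a proper ideal. -/
lemma rc2_one_mem_of_coprime {R : Type*} [CommRing R] (I : Ideal R) {a b : ℕ}
    (hab : Nat.Coprime a b) (ha : (a : R) ∈ I) (hb : (b : R) ∈ I) : (1 : R) ∈ I := by
  have h := Nat.gcd_eq_gcd_ab a b
  rw [hab] at h
  have h2 : (1 : R) = (a : R) * ((Nat.gcdA a b : ℤ) : R) + (b : R) * ((Nat.gcdB a b : ℤ) : R) := by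
    have := congrArg (Int.cast : ℤ → R) h
    push_cast at this
    exact this
  rw [h2]
  exact I.add_mem (I.mul_mem_right _ ha) (I.mul_mem_right _ hb)

section Layer

variable {p : ℕ} {S : Finset Nat.Primes} (ℓ : LayerS p S)

/-- The prime of `M` at `(q, g)` lies over the prime of `F` at `(q, g)`. -/
lemma rc2_under_primeOf (q : Nat.Primes) (g : GQ) :
    (F4G.primeOf (ℓ.top.emb q g)).asIdeal.under (𝓞 ℓ.bot.field) =
      (F4G.primeOf (ℓ.bot.emb q g)).asIdeal := by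
  ext x
  rw [Ideal.under_def, Ideal.mem_comap, F4G.mem_primeOf, F4G.mem_primeOf]
  rfl

/-- (INERT-DIV) in the form of the core. -/
lemma rc2_lcInertDiv [Fact p.Prime] : ℓ.LcInertDiv :=
  fun _ ht f hfe v hv hin => ℓ.dvd_log_of_inert ht f hfe v hv hin

end Layer

section Single

variable {S : Finset Nat.Primes} (L : OpenS S) (q : ↥S) (g₀ : GQ)
  (y : (@PadicAlgCl ((q : Nat.Primes) : ℕ) ⟨(q : Nat.Primes).2⟩)ˣ)
  (hy : ∀ d ∈ L.Dsub q.1 g₀,
    locAct q.1 d (y : @PadicAlgCl ((q : Nat.Primes) : ℕ) ⟨(q : Nat.Primes).2⟩) = y)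

lemma rc2_Jval_single_self :
    Jval (L.single q g₀ y hy) q g₀ = (y : @PadicAlgCl ((q : Nat.Primes) : ℕ) ⟨(q : Nat.Primes).2⟩) := by
  have h := OpenS.singleFun_eq L q g₀ y hy 1 1 L.U.one_mem
  rw [map_one, one_mul, mul_one] at h
  rw [Jval_def, OpenS.Jfun_single_self, h, smUnits.val_ρ]
  rfl

lemma rc2_Jval_single_of_not (g : GQ) (hg : ¬ L.InDC q.1 g₀ g) :
    Jval (L.single q g₀ y hy) q g = 1 := by
  rw [Jval_def, OpenS.Jfun_single_self, L.singleFun_of_not q g₀ y hy g hg]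
  rfl

lemma rc2_Jval_single_of_ne (q' : ↥S) (hq : q' ≠ q) (g : GQ) :
    Jval (L.single q g₀ y hy) q' g = 1 := by
  rw [Jval_def, OpenS.Jfun_single_of_ne _ _ _ _ _ _ hq]
  rfl

lemma rc2_single_apply_of_ne (q' : ↥S) (hq : q' ≠ q) : L.single q g₀ y hy q' = 0 := by
  unfold OpenS.single
  rw [dif_neg hq]

end Single

section Core

variable {p : ℕ} [Fact p.Prime] {S : Finset Nat.Primes}

/-- **The case `q ≠ p` for an abstract cyclotomic layer.** -/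
theorem rc2_ne_core (hp2 : p ≠ 2) (hpS : pPrime p ∈ S) (q : ↥S)
    (hq : ((q : Nat.Primes) : ℕ) ≠ p) (ℓ : LayerS p S) (n : ℕ) [NeZero n]
    (hn : ∀ v : HeightOneSpectrum (𝓞 ℓ.bot.field), ((n : ℕ) : 𝓞 ℓ.bot.field) ∈ v.asIdeal →
      ((p : ℕ) : 𝓞 ℓ.bot.field) ∈ v.asIdeal)
    (hqn : ¬ ((q : Nat.Primes) : ℕ) ∣ n)
    (hker : ∀ g : GQ, Cyclo.modChar n g = 1 → g ∈ ℓ.top.U)
    (hσ : ((Cyclo.modChar n ℓ.σ : (ZMod n)ˣ) : ZMod n) = ((((q : Nat.Primes) : ℕ) : ℕ) : ZMod n))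
    (hval : (F4G.primeOf (ℓ.bot.emb q.1 1)).valuation ℓ.bot.field
      ((((q : Nat.Primes) : ℕ) : ℕ) : ℓ.bot.field) = WithZero.exp (-1 : ℤ))
    (y : (@PadicAlgCl ((q : Nat.Primes) : ℕ) ⟨(q : Nat.Primes).2⟩)ˣ)
    (hy : ∀ d ∈ ℓ.bot.Dsub q.1 1,
      locAct q.1 d (y : @PadicAlgCl ((q : Nat.Primes) : ℕ) ⟨(q : Nat.Primes).2⟩) = y)
    (hyq : (y : @PadicAlgCl ((q : Nat.Primes) : ℕ) ⟨(q : Nat.Primes).2⟩) =
      ((((q : Nat.Primes) : ℕ) : ℕ) : @PadicAlgCl ((q : Nat.Primes) : ℕ) ⟨(q : Nat.Primes).2⟩)) :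
    ¬ IsNormFrom (Crep S) p ℓ.top.U ℓ.σ (CMk S (ℓ.bot.single q 1 y hy)) := by
  classical
  have hp : p.Prime := Fact.out
  have hcop : Nat.Coprime ((q : Nat.Primes) : ℕ) p := (Nat.coprime_primes q.1.2 hp).2 hq
  have hnot : ∀ v : HeightOneSpectrum (𝓞 ℓ.bot.field),
      ((((q : Nat.Primes) : ℕ) : ℕ) : 𝓞 ℓ.bot.field) ∈ v.asIdeal →
      ((p : ℕ) : 𝓞 ℓ.bot.field) ∈ v.asIdeal → False := fun v h1 h2 =>
    v.isPrime.ne_top ((Ideal.eq_top_iff_one _).2 (rc2_one_mem_of_coprime _ hcop h1 h2))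
  have hTp : (ℓ.bot.T.filter
      (fun v => ((p : ℕ) : 𝓞 ℓ.bot.field) ∈ v.asIdeal)).Nonempty :=
    ⟨F4G.primeOf (ℓ.bot.emb (pPrime p) 1), Finset.mem_filter.2
      ⟨ℓ.bot.primeOf_emb_mem_T_of_mem (pPrime p) hpS 1,
        F4G.natCast_mem_primeOf (ℓ.bot.emb (pPrime p) 1)⟩⟩
  have hunr := ℓ.unramOutside_cyclo n hker
    (ℓ.bot.T.filter (fun v => ((p : ℕ) : 𝓞 ℓ.bot.field) ∈ v.asIdeal))
    (fun v hv => Finset.mem_filter.2
      ⟨(ℓ.bot.mem_T v).2 ⟨pPrime p, hpS, hn v hv⟩, hn v hv⟩)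
  have hP : F4G.primeOf (ℓ.bot.emb q.1 1) ∉
      ℓ.bot.T.filter (fun v => ((p : ℕ) : 𝓞 ℓ.bot.field) ∈ v.asIdeal) := fun h =>
    hnot _ (F4G.natCast_mem_primeOf (ℓ.bot.emb q.1 1)) (Finset.mem_filter.1 h).2
  have hFr : ∀ τ : ℓ.top.field ≃ₐ[ℓ.bot.field] ℓ.top.field,
      F4Rec.IsFrobRel τ (F4G.primeOf (ℓ.top.emb q.1 1)).asIdeal
        (Ideal.absNorm ((F4G.primeOf (ℓ.top.emb q.1 1)).asIdeal.under (𝓞 ℓ.bot.field))) →
      τ ≠ 1 := fun τ hτ =>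
    ℓ.frob_ne_one n hker q.1.2 hqn hσ _ (F4G.primeOf (ℓ.top.emb q.1 1)).isPrime
      (F4G.natCast_mem_primeOf (ℓ.top.emb q.1 1)) τ hτ
  refine ℓ.not_isNormFrom_core hp2 ⟨_, hpS⟩ (rc2_lcInertDiv ℓ) _ hTp (Finset.filter_subset _ _)
    hunr (F4G.primeOf (ℓ.bot.emb q.1 1)) hP _ (F4G.primeOf (ℓ.top.emb q.1 1)).isPrime
    (F4G.primeOf (ℓ.top.emb q.1 1)).ne_bot (rc2_under_primeOf ℓ q.1 1) hFr
    (ℓ.bot.single_mem_JU q 1 y hy) 1 ?_ ?_ ?_ ?_
  · -- the places over `p`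
    intro q' g hmem
    have hpv := (Finset.mem_filter.1 hmem).2
    by_cases hq' : q' = q
    · subst hq'
      exact (hnot _ (F4G.natCast_mem_primeOf (ℓ.bot.emb q'.1 g)) hpv).elim
    · rw [rc2_Jval_single_of_ne ℓ.bot q 1 y hy q' hq' g, Units.val_one, map_one]
  · -- the other places over `S`
    intro q' g _ hne
    rw [Units.val_one, map_one, norm_one]
    by_cases hq' : q' = q
    · subst hq'
      have hdc : ¬ ℓ.bot.InDC q'.1 1 g := fun h =>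
        hne ((ℓ.bot.primeOf_emb_eq_iff q'.1 1 g).2 h).symm
      rw [rc2_Jval_single_of_not ℓ.bot q' 1 y hy g hdc, norm_one]
    · rw [rc2_Jval_single_of_ne ℓ.bot q 1 y hy q' hq' g, norm_one]
  · -- `c = 1`
    intro v _ _
    exact F4Rec.ordV_eq_zero_of_valuation_eq_one v 1 (by simp)
  · -- the place `P`
    intro f hf _ hdvd
    have h1 := hf q 1 rfl
    rw [rc2_Jval_single_self ℓ.bot q 1 y hy, hyq] at h1
    have hq0 : ((((q : Nat.Primes) : ℕ) : ℕ) : ℓ.bot.field) ≠ 0 :=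
      Nat.cast_ne_zero.2 q.1.2.ne_zero
    have h2 : ‖ℓ.bot.emb q.1 1 ((f : ℓ.bot.field) /
        ((((q : Nat.Primes) : ℕ) : ℕ) : ℓ.bot.field))‖ = 1 := by
      rw [map_div₀, norm_div, h1, map_natCast]
      exact div_self (norm_ne_zero_iff.2 (Nat.cast_ne_zero.2 q.1.2.ne_zero))
    have h3 := (F4G.norm_eq_one_iff (ℓ.bot.emb q.1 1) _).1 h2
    rw [map_div₀, hval] at h3
    have h4 : (F4G.primeOf (ℓ.bot.emb q.1 1)).valuation ℓ.bot.field (f : ℓ.bot.field) =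
        WithZero.exp (-1 : ℤ) := by
      have hne : (WithZero.exp (-1 : ℤ) : WithZero (Multiplicative ℤ)) ≠ 0 :=
        WithZero.exp_ne_zero
      exact (div_eq_one_iff_eq hne).1 h3
    have h5 : F4Rec.ordV (F4G.primeOf (ℓ.bot.emb q.1 1)) f = 1 := by
      unfold F4Rec.ordV
      rw [h4, WithZero.log_exp]
      norm_num
    rw [div_one, h5] at hdvd
    have h6 : ((p : ℕ) : ℤ) ∣ ((1 : ℕ) : ℤ) := by simpa using hdvd
    exact hp.one_lt.ne' (Nat.dvd_one.1 (Int.natCast_dvd_natCast.1 h6))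

/-- **RC2-NE**: `dict_local` at a prime `q ≠ p` of `S`. -/
theorem dict_local_ne (hp2 : p ≠ 2) (hpS : pPrime p ∈ S) (q : ↥S)
    (hq : ((q : Nat.Primes) : ℕ) ≠ p) :
    ∃ (U V : Subgroup GQ) (σ : GQ) (j : Jrep S), (levelsS S).IsOpen V ∧ IsCyc p U V σ ∧
      Fix (Jrep S) U j ∧ (∀ q' : ↥S, q' ≠ q → j q' = 0) ∧
      ¬ IsNormFrom (Crep S) p V σ (CMk S j) := by
  classical
  have hp : p.Prime := Fact.out
  obtain ⟨k, hne, hqn, τ₀, hk0, hVo, hUo, hcyc, hχ, hD, hker⟩ := cycLayer_ne hpS q.1 hq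
  haveI := hne
  let y : (@PadicAlgCl ((q : Nat.Primes) : ℕ) ⟨(q : Nat.Primes).2⟩)ˣ :=
    Units.mk0 ((((q : Nat.Primes) : ℕ) : ℕ) : @PadicAlgCl ((q : Nat.Primes) : ℕ) ⟨(q : Nat.Primes).2⟩)
      (Nat.cast_ne_zero.2 q.1.2.ne_zero)
  have hy : ∀ d ∈ (LayerS.ofCyc hVo hcyc).bot.Dsub q.1 1,
      locAct q.1 d (y : @PadicAlgCl ((q : Nat.Primes) : ℕ) ⟨(q : Nat.Primes).2⟩) = y :=
    fun d _ => map_natCast (locAct q.1 d) _
  refine ⟨_, _, _, (LayerS.ofCyc hVo hcyc).bot.single q 1 y hy, hVo, hcyc,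
    (LayerS.ofCyc hVo hcyc).bot.single_mem_JU q 1 y hy,
    fun q' hq' => rc2_single_apply_of_ne _ q 1 y hy q' hq', ?_⟩
  refine rc2_ne_core hp2 hpS q hq (LayerS.ofCyc hVo hcyc) (p ^ k) ?_ ?_ hker ?_ ?_ y hy rfl
  · intro v hv
    refine v.isPrime.mem_of_pow_mem k ?_
    rw [← Nat.cast_pow]
    exact hv
  · exact (Nat.Prime.coprime_iff_not_dvd q.1.2).1 hqn
  · show ((Cyclo.modChar (p ^ k) (primeLocalToGlobal q.1 τ₀) : (ZMod (p ^ k))ˣ) : ZMod (p ^ k)) = _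
    rw [hχ]
    exact ZMod.coe_unitOfCoprime _ _
  · let L' : OpenS ({pPrime p} : Finset Nat.Primes) :=
      ⟨cycU (p ^ k) q hqn, cycU_isOpen (Finset.mem_singleton_self _) k q hqn⟩
    have hqS' : q.1 ∉ ({pPrime p} : Finset Nat.Primes) := by
      rw [Finset.mem_singleton]
      intro h
      exact hq (congrArg Subtype.val h)
    have hv := (LayerS.ofCyc hVo hcyc).bot.primeOf_emb_asIdeal q.1 1
    have e : (1 : GQ)⁻¹ • primeLocalPlace q.1 = primeLocalPlace q.1 := by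
      rw [inv_one]
      exact one_smul _ _
    rw [e] at hv
    exact L'.capit_valuation_natCast_field q.1 hqS' (primeLocalPlace q.1)
      (primeLocalPlace_liesOverPrime q.1)
      (F4G.primeOf ((LayerS.ofCyc hVo hcyc).bot.emb q.1 1)) hv

end Core

end Fermat.Agent.F4Cf
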