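import Fermat.Agent.F4.Cf.RecipDefs

/-!
# F4 / Cf / RecipQ : the quotient hypotheses for `E ≤ J` (seat R-Q)

`quotHyp_of_packs_pf` : the exact statement of the stub `quotHyp_of_packs` of `F4/Cf/Recip.lean`:
`E = diagJ (S-units) ≤ J` is stable, `p`-divisible (`EsRep_div`), and `E[p] = f(μ_p)` inside `I_J`
(`IsRootMap`, `LocPack.compat`; all maps are pointwise in `(q, g)`).
-/

set_option autoImplicit false

open CategoryTheory groupCohomology ExtCitation

namespace Fermat.Agent.F4Cf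

open Fermat.Agent.F4

variable {p : ℕ} [Fact p.Prime] {S : Finset Nat.Primes}

/-- `diagJ` is injective as soon as `S` is nonempty. -/
lemma recipQ_diagJ_injective (q : ↥S) : Function.Injective (diagJ S) := by
  rw [injective_iff_map_eq_zero]
  intro t ht
  have h1 := congrFun (congrArg Subtype.val (congrFun ht q)) 1
  have h2 : locUnit S q.1 ((QSx S).ρ 1 t) = 0 := h1
  rw [map_one] at h2
  have h3 : locUnit S q.1 t = locUnit S q.1 0 := h2.trans (map_zero _).symm
  exact locUnit_injective S q.1 h3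

/-- The image of `μ_p` in `I_J`, computed through `E`. -/
lemma recipQ_key (hpS : pPrime p ∈ S) {φ : Fp1 p →+ EsRep S} (hφ : IsRootMap φ)
    (P : ∀ q : ↥S, LocPack p S φ q.1) (m : Fp1 p) :
    (datJ (fun q => (P q).loc) (fun q => (P q).dat) (fun q => (P q).smoothI)).ι
        (diagJ S (EsIncl S (φ m))) =
      (datJ (fun q => (P q).loc) (fun q => (P q).dat) (fun q => (P q).smoothI)).i0
        ((coindF (fun q => (P q).loc) (isSmooth_Fp1 S hpS)).f0 m) := by
  refine funext fun q => Subtype.ext (funext fun g => ?_)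
  show (P q).dat.ι (locUnit S q.1 ((QSx S).ρ g (EsIncl S (φ m)))) =
    (P q).dat.i0 ((P q).loc.ε.f0 ((Fp1 p).ρ g m))
  rw [(P q).compat, hφ.comm]
  rfl

/-- **R-Q.**  The quotient hypotheses for `E ≤ J` (the exact statement of the stub
`quotHyp_of_packs`). -/
theorem quotHyp_of_packs_pf (hpS : pPrime p ∈ S) {φ : Fp1 p →+ EsRep S} (hφ : IsRootMap φ)
    (P : ∀ q : ↥S, LocPack p S φ q.1) :
    (datJ (fun q => (P q).loc) (fun q => (P q).dat) (fun q => (P q).smoothI)).QuotHyp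
      (coindF (fun q => (P q).loc) (isSmooth_Fp1 S hpS)) (EinJ S) where
  stable := EinJ_stable S
  div := by
    rintro _ ⟨t, ht, rfl⟩
    obtain ⟨y, hy⟩ := EsRep_div S hpS (⟨t, ht⟩ : EsRep S)
    refine ⟨diagJ S (EsIncl S y), ⟨EsIncl S y, y.2, rfl⟩, ?_⟩
    rw [← map_zsmul (diagJ S), ← map_zsmul (EsIncl S), hy]
    rfl
  f_mem := fun m =>
    ⟨diagJ S (EsIncl S (φ m)), ⟨EsIncl S (φ m), (φ m).2, rfl⟩, recipQ_key hpS hφ P m⟩
  mem_f := by
    rintro _ ⟨t, ht, rfl⟩ hpt
    have h0 : (p : ℤ) • t = 0 := by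
      apply recipQ_diagJ_injective (⟨pPrime p, hpS⟩ : ↥S)
      rw [map_zsmul, hpt, map_zero]
    have h1 : (p : ℤ) • (⟨t, ht⟩ : EsRep S) = 0 := Subtype.ext h0
    obtain ⟨m, hm⟩ := hφ.surj _ h1
    refine ⟨m, ?_⟩
    rw [← recipQ_key hpS hφ P m, hm]
    rfl

end Fermat.Agent.F4Cf
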