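import Fermat.Agent.F4.Cf.Lines
import Fermat.Agent.F4.Cf.Cor
import Fermat.Agent.F4.Cf.H1

/-!
# F4 / Cf / PGroup : seat ACF-3c — `p`-torsion classes inflated from a `p`-group are cyclic

`cyclic_of_pGroup_pf` : **Claim C** of `F4/Cf/Statements.lean`, from the statements of the seats
ACF-0 (`PCF.res`) and ACF-2 (`carryCo_of_norm`, `carryCo_inj`, `carryCo_exact`) for all
formations, packaged as `Acf3cHyp p`.

Proof: induction on `a` over all formations.  `a = 0`: `w` is constant, hence a coboundary.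
`a + 1`: `ψ` a character whose kernel `V ⊇ W` has index `p`; by induction `w|_V` is a cyclic
class; by `two`, `distinct`, `lines` (on `V`), the projection formula and `cor ∘ res = p`
the class `w|_V` vanishes; then `carryCo_exact`.
-/

set_option autoImplicit false
set_option linter.unusedSectionVars false

open CategoryTheory groupCohomology

namespace Fermat.Agent.F4Cf

open Fermat.Agent.F4 Fermat.Agent.F4CfCore

variable {G : Type} [Group G] {p : ℕ} [Fact p.Prime] {𝓤 : Levels G} {C : Rep.{0} ℤ G}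

/-! ### the character of a cyclic layer -/

/-- a power of `σ` lying in `V` has exponent divisible by `p` -/
lemma acf3c_dvd_of_pow_mem {V : Subgroup G} {σ : G} (hσ : σ ∉ V) (hσp : σ ^ p ∈ V) {n : ℕ}
    (hn : σ ^ n ∈ V) : p ∣ n := by
  have hp : p.Prime := Fact.out
  by_contra hdiv
  have hcop : Nat.Coprime n p := ((Nat.Prime.coprime_iff_not_dvd hp).2 hdiv).symm
  obtain ⟨m, -, hm⟩ := Nat.exists_mul_mod_eq_one_of_coprime hcop hp.one_lt
  have e : n * m = 1 + p * (n * m / p) := by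
    have := Nat.mod_add_div (n * m) p
    omega
  apply hσ
  have h1 : σ ^ (n * m) ∈ V := by rw [pow_mul]; exact V.pow_mem hn m
  rw [e, pow_add, pow_one, pow_mul] at h1
  exact (V.mul_mem_cancel_right (V.pow_mem hσp _)).1 h1

/-- the class of `g` in a cyclic layer is well defined modulo `p` -/
lemma acf3c_class_unique {V : Subgroup G} {σ : G} (hcyc : IsCyc p ⊤ V σ) {g : G} {i j : ℕ}
    (hi : (σ ^ i)⁻¹ * g ∈ V) (hj : (σ ^ j)⁻¹ * g ∈ V) : (i : ZMod p) = (j : ZMod p) := by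
  wlog hij : j ≤ i generalizing i j
  · exact (this hj hi (le_of_not_ge hij)).symm
  have h1 : σ ^ (i - j) ∈ V := by
    have h2 : (σ ^ j)⁻¹ * g * ((σ ^ i)⁻¹ * g)⁻¹ ∈ V := V.mul_mem hj (V.inv_mem hi)
    have e : (σ ^ j)⁻¹ * g * ((σ ^ i)⁻¹ * g)⁻¹ = σ ^ (i - j) := by
      have : σ ^ i = σ ^ j * σ ^ (i - j) := by rw [← pow_add, Nat.add_sub_cancel' hij]
      rw [this]
      group
    rwa [e] at h2
  have hd := acf3c_dvd_of_pow_mem hcyc.not_mem hcyc.pow_mem h1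
  have : ((i - j : ℕ) : ZMod p) = 0 := (ZMod.natCast_eq_zero_iff _ _).2 hd
  rw [Nat.cast_sub hij, sub_eq_zero] at this
  exact this

/-- The character of a cyclic layer of the whole group. -/
noncomputable def acf3cChar {V : Subgroup G} {σ : G} (hcyc : IsCyc p ⊤ V σ) : G → ZMod p :=
  fun g => ((Classical.choose (hcyc.gen g (Subgroup.mem_top g)) : ℕ) : ZMod p)

lemma acf3cChar_eq {V : Subgroup G} {σ : G} (hcyc : IsCyc p ⊤ V σ) {g : G} {j : ℕ}
    (hj : (σ ^ j)⁻¹ * g ∈ V) : acf3cChar hcyc g = (j : ZMod p) :=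
  acf3c_class_unique hcyc (Classical.choose_spec (hcyc.gen g (Subgroup.mem_top g))).2 hj

lemma acf3cChar_spec {V : Subgroup G} {σ : G} (hcyc : IsCyc p ⊤ V σ) (g : G) :
    ∃ i : ℕ, i < p ∧ (σ ^ i)⁻¹ * g ∈ V ∧ acf3cChar hcyc g = (i : ZMod p) :=
  ⟨_, (Classical.choose_spec (hcyc.gen g (Subgroup.mem_top g))).1,
    (Classical.choose_spec (hcyc.gen g (Subgroup.mem_top g))).2, rfl⟩

lemma acf3cChar_add {V : Subgroup G} {σ : G} (hcyc : IsCyc p ⊤ V σ) (g h : G) :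
    acf3cChar hcyc (g * h) = acf3cChar hcyc g + acf3cChar hcyc h := by
  obtain ⟨i, -, hi, ei⟩ := acf3cChar_spec hcyc g
  obtain ⟨j, -, hj, ej⟩ := acf3cChar_spec hcyc h
  rw [ei, ej, ← Nat.cast_add]
  apply acf3cChar_eq hcyc
  have h1 : (σ ^ j)⁻¹ * ((σ ^ i)⁻¹ * g) * ((σ ^ j)⁻¹)⁻¹ ∈ V :=
    hcyc.normal _ (Subgroup.mem_top _) _ hi
  have e : (σ ^ (i + j))⁻¹ * (g * h)
      = (σ ^ j)⁻¹ * ((σ ^ i)⁻¹ * g) * ((σ ^ j)⁻¹)⁻¹ * ((σ ^ j)⁻¹ * h) := by
    rw [pow_add]; group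
  rw [e]
  exact V.mul_mem h1 hj

lemma acf3cChar_eq_zero_iff {V : Subgroup G} {σ : G} (hcyc : IsCyc p ⊤ V σ) (g : G) :
    acf3cChar hcyc g = 0 ↔ g ∈ V := by
  constructor
  · intro h0
    obtain ⟨i, hip, hi, ei⟩ := acf3cChar_spec hcyc g
    rw [ei, ZMod.natCast_eq_zero_iff] at h0
    have : i = 0 := Nat.eq_zero_of_dvd_of_lt h0 hip
    subst this
    simpa using hi
  · intro hg
    have := acf3cChar_eq hcyc (g := g) (j := 0) (by simpa using hg)
    simpa using this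

lemma acf3cChar_gen {V : Subgroup G} {σ : G} (hcyc : IsCyc p ⊤ V σ) :
    acf3cChar hcyc σ = 1 := by
  have := acf3cChar_eq hcyc (g := σ) (j := 1) (by simp)
  simpa using this

lemma acf3cChar_isSmChar {V : Subgroup G} {σ : G} (hcyc : IsCyc p ⊤ V σ) (hV : 𝓤.IsOpen V) :
    IsSmChar 𝓤 (acf3cChar hcyc) := by
  refine ⟨acf3cChar_add hcyc, ?_⟩
  obtain ⟨U, hU, hUV⟩ := hV
  refine ⟨U, hU, fun g s hs => ?_⟩
  rw [acf3cChar_add, (acf3cChar_eq_zero_iff hcyc s).2 (hUV hs), add_zero]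

lemma acf3cChar_ker {V : Subgroup G} {σ : G} (hcyc : IsCyc p ⊤ V σ) :
    charKer (acf3cChar hcyc) (acf3cChar_add hcyc) = V := by
  ext g
  exact acf3cChar_eq_zero_iff hcyc g

/-! ### a layer of index `p` above a normal subgroup of `p`-power index -/

lemma acf3c_exists_layer {W : Subgroup G} (hWn : W.Normal) {a : ℕ}
    (hidx : W.index = p ^ (a + 1)) :
    ∃ (V : Subgroup G) (σ : G), IsCyc p ⊤ V σ ∧ W ≤ V ∧ V.index = p ∧
      W.relIndex V = p ^ a := by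
  have hp : p.Prime := Fact.out
  have hcard : Nat.card (G ⧸ W) = p ^ (a + 1) := by rw [← hidx]; rfl
  have hfin : Finite (G ⧸ W) :=
    Nat.finite_of_card_ne_zero (by rw [hcard]; exact pow_ne_zero _ hp.ne_zero)
  obtain ⟨Q', hQ'⟩ := Sylow.exists_subgroup_card_pow_prime (G := G ⧸ W) p
    (n := a) (by rw [hcard]; exact pow_dvd_pow p (Nat.le_succ a))
  have hQidx : Q'.index = p := by
    have h1 := Q'.card_mul_index
    rw [hQ', hcard, pow_succ] at h1
    exact Nat.eq_of_mul_eq_mul_left (pow_pos hp.pos a) h1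
  have hQn : Q'.Normal := by
    apply Subgroup.normal_of_index_eq_minFac_card
    rw [hQidx, hcard, Nat.Prime.pow_minFac hp (Nat.succ_ne_zero a)]
  set V : Subgroup G := Q'.comap (QuotientGroup.mk' W) with hV
  have hVn : V.Normal := hQn.comap _
  have hVidx : V.index = p := by
    rw [hV, Subgroup.index_comap_of_surjective Q' (QuotientGroup.mk'_surjective W), hQidx]
  have hWV : W ≤ V := by
    intro x hx
    rw [hV, Subgroup.mem_comap]
    have : (QuotientGroup.mk' W) x = 1 := (QuotientGroup.eq_one_iff x).2 hx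
    rw [this]
    exact Q'.one_mem
  have hrel : W.relIndex V = p ^ a := by
    have h1 := Subgroup.relIndex_mul_index hWV
    rw [hVidx, hidx, pow_succ] at h1
    exact Nat.eq_of_mul_eq_mul_right hp.pos h1
  have hnorm : NormalIn ⊤ V := fun g _ x hx => hVn.conj_mem x hx g
  have hrelV : V.relIndex ⊤ = p := by rw [Subgroup.relIndex_top_right, hVidx]
  obtain ⟨σ, hσ, hσV⟩ := exists_not_mem (p := p) hrelV
  exact ⟨V, σ, isCyc_of_relIndex le_top hnorm hrelV hσ hσV, hWV, hVidx, hrel⟩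

/-- The kernel of a character taking the value `1` has index `p`. -/
lemma acf3c_index_charKer {ψ : G → ZMod p} (hψ : ∀ g h : G, ψ (g * h) = ψ g + ψ h) {σ : G}
    (hψσ : ψ σ = 1) : (charKer ψ hψ).index = p := by
  let f : G →* Multiplicative (ZMod p) :=
    { toFun := fun g => Multiplicative.ofAdd (ψ g)
      map_one' := by rw [acf3_char_one hψ]; rfl
      map_mul' := fun g h => by rw [hψ]; rfl }
  have hker : f.ker = charKer ψ hψ := by
    ext g
    rw [MonoidHom.mem_ker]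
    show Multiplicative.ofAdd (ψ g) = 1 ↔ ψ g = 0
    exact Iff.rfl
  have hsurj : Function.Surjective f := by
    intro z
    refine ⟨σ ^ (Multiplicative.toAdd z).val, ?_⟩
    show Multiplicative.ofAdd (ψ (σ ^ (Multiplicative.toAdd z).val)) = z
    rw [acf3_char_pow hψ, hψσ, mul_one, ZMod.natCast_zmod_val]
    rfl
  rw [← hker, Subgroup.index_ker, MonoidHom.range_eq_top.2 hsurj]
  simp

/-! ### restriction to a subgroup -/

section Res

variable (V : Subgroup G)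

lemma acf3c_res_ρ (v : V) (x : C) : (Rep.res V.subtype C).ρ v x = C.ρ (v : G) x := rfl

lemma acf3c_fix_res {y : C} (hy : Fix C V y) : Fix (Rep.res V.subtype C) ⊤ y :=
  fun v _ => hy (v : G) v.2

lemma acf3c_isSmChar_res {χ : G → ZMod p} (hχ : IsSmChar 𝓤 χ) :
    IsSmChar (𝓤.sub V) (fun v : V => χ (v : G)) :=
  ⟨fun g h => hχ.1 g h, IsLC₁.comp_hom 𝓤 V.subtype hχ.2⟩

lemma acf3c_isOpen_subgroupOf {W : Subgroup G} (hW : 𝓤.IsOpen W) :
    (𝓤.sub V).IsOpen (W.subgroupOf V) := by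
  obtain ⟨U, hU, hUW⟩ := hW
  exact ⟨U.comap V.subtype, ⟨U, hU, rfl⟩, Subgroup.comap_mono hUW⟩

lemma acf3c_resC2_mem_B2 {w : G × G → C} (hw : w ∈ B2 𝓤 C) :
    resC2 V C w ∈ B2 (𝓤.sub V) (Rep.res V.subtype C) := by
  obtain ⟨e, he, rfl⟩ := (UC.mem_B2 𝓤 C w).1 hw
  refine (UC.mem_B2 (𝓤.sub V) (Rep.res V.subtype C) _).2
    ⟨fun v => e (v : G), IsLC₁.comp_hom 𝓤 V.subtype he, ?_⟩
  funext q
  rfl

lemma acf3c_infl2_res {W : Subgroup G} {w : G × G → C} (hinf : Infl2 W w) :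
    Infl2 (W.subgroupOf V) (resC2 V C w) := by
  intro g g' v v' hv hv'
  exact hinf (g : G) (g' : G) (v : G) (v' : G) hv hv'

end Res

/-! ### coprimality -/

lemma acf3c_eq_zero_of_coprime {M : Type*} [AddCommGroup M] {c : M} {a : ℤ}
    (ha : ¬ (p : ℤ) ∣ a) (h1 : a • c = 0) (h2 : p • c = 0) : c = 0 := by
  have hp : p.Prime := Fact.out
  have hcop : IsCoprime a (p : ℤ) := by
    rw [isCoprime_comm]
    exact (Int.isCoprime_iff_gcd_eq_one).2
      ((Nat.Prime.coprime_iff_not_dvd hp).2 (fun hd => ha (by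
        have := Int.natCast_dvd.2 hd
        simpa using this)))
  obtain ⟨u, v, huv⟩ := hcop
  have : c = (u * a + v * (p : ℤ)) • c := by rw [huv, one_smul]
  rw [this, add_smul, mul_smul, mul_smul, h1, natCast_zsmul, h2, smul_zero, smul_zero, add_zero]

/-! ### the hypotheses (statements of the other seats, for all formations) -/

/-- The statements of the seats ACF-0 and ACF-2 for all formations. -/
structure Acf3cHyp (p : ℕ) [Fact p.Prime] : Prop where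
  res : ∀ {G : Type} [Group G] {𝓤 : Levels G} {C : Rep.{0} ℤ G} {U₀ : Subgroup G},
    PCF p 𝓤 C U₀ → ∀ {U : Subgroup G}, 𝓤.IsOpen U →
      PCF p (𝓤.sub U) (Rep.res U.subtype C) (U₀.subgroupOf U)
  norm : ∀ {G : Type} [Group G] {𝓤 : Levels G} {C : Rep.{0} ℤ G}, IsSmooth 𝓤 C →
    Acf3HypNorm p 𝓤 C
  inj : ∀ {G : Type} [Group G] {𝓤 : Levels G} {C : Rep.{0} ℤ G} {U₀ : Subgroup G},
    PCF p 𝓤 C U₀ → Acf3HypInj p 𝓤 C
  exact : ∀ {G : Type} [Group G] {𝓤 : Levels G} {C : Rep.{0} ℤ G} {U₀ : Subgroup G},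
    PCF p 𝓤 C U₀ → ∀ (χ : G → ZMod p) (hχ : IsSmChar 𝓤 χ) (σ : G), χ σ = 1 →
      ∀ w : G × G → C, w ∈ Z2 𝓤 C → (fun q => (p : ℤ) • w q) ∈ B2 𝓤 C →
        resC2 (charKer χ hχ.1) C w
          ∈ B2 (𝓤.sub (charKer χ hχ.1)) (Rep.res (charKer χ hχ.1).subtype C) →
        ∃ x : C, Fix C ⊤ x ∧ (fun q => w q - UC.carryCo C χ x q) ∈ B2 𝓤 C

/-! ### the key step: the restriction to the layer vanishes -/

/-- If `w` is `p`-torsion and `w|_V` (`V = ker ψ`) is a cyclic class of the formation `V`, then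
`w|_V` is a smooth coboundary. -/
theorem acf3c_res_vanish (H : Acf3cHyp p) (h : PCF p 𝓤 C ⊤) {ψ : G → ZMod p}
    (hψ : IsSmChar 𝓤 ψ) {σ : G} (hψσ : ψ σ = 1) {w : G × G → C} (hw : w ∈ Z2 𝓤 C)
    (hpw : (fun q => (p : ℤ) • w q) ∈ B2 𝓤 C)
    {φ : ↥(charKer ψ hψ.1) → ZMod p} {y : C}
    (hφ : IsSmChar (𝓤.sub (charKer ψ hψ.1)) φ)
    (hy : Fix (Rep.res (charKer ψ hψ.1).subtype C) ⊤ y)
    (hwφ : (fun q => resC2 (charKer ψ hψ.1) C w q
        - UC.carryCo (Rep.res (charKer ψ hψ.1).subtype C) φ y q)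
      ∈ B2 (𝓤.sub (charKer ψ hψ.1)) (Rep.res (charKer ψ hψ.1).subtype C)) :
    resC2 (charKer ψ hψ.1) C w
      ∈ B2 (𝓤.sub (charKer ψ hψ.1)) (Rep.res (charKer ψ hψ.1).subtype C) := by
  have hp : p.Prime := Fact.out
  have hVo : 𝓤.IsOpen (charKer ψ hψ.1) := acf3_isOpen_charKer hψ
  have hcycV : IsCyc p ⊤ (charKer ψ hψ.1) σ := acf3_isCyc_of_char hψ.1 hψσ
  have h' : PCF p (𝓤.sub (charKer ψ hψ.1)) (Rep.res (charKer ψ hψ.1).subtype C) ⊤ := by
    have := H.res h hVo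
    rwa [Subgroup.top_subgroupOf] at this
  -- a second layer, different from `V`
  obtain ⟨V₁, V₂, σ₁, σ₂, hV₁o, hV₂o, hc₁, hc₂, hne⟩ := h.two ⊤ 𝓤.isOpen_top le_top
  obtain ⟨Vs, σs, hVso, hcs, hVsV⟩ : ∃ (Vs : Subgroup G) (σs : G), 𝓤.IsOpen Vs ∧
      IsCyc p ⊤ Vs σs ∧ charKer ψ hψ.1 ≠ Vs := by
    by_cases e : charKer ψ hψ.1 = V₁
    · exact ⟨V₂, σ₂, hV₂o, hc₂, by rw [e]; exact hne⟩
    · exact ⟨V₁, σ₁, hV₁o, hc₁, e⟩
  have hχ : IsSmChar 𝓤 (acf3cChar hcs) := acf3cChar_isSmChar hcs hVso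
  have hχσ : acf3cChar hcs σs = 1 := acf3cChar_gen hcs
  have hkerχ : charKer (acf3cChar hcs) hχ.1 = Vs := acf3cChar_ker hcs
  obtain ⟨y₀, hy₀, hn₀⟩ := h.distinct ⊤ _ Vs σ σs hVo hVso hcycV hcs hVsV
  have hn₀fix : Fix C ⊤ (cnorm C p σ y₀) := acf3_fix_cnorm hcycV hy₀
  -- the class `κ = (N y₀) ∪ δχ` on `G` is nonzero and `p`-torsion
  have hκ : acf3_cyc 𝓤 C (acf3cChar hcs) (cnorm C p σ y₀) ≠ 0 := by
    intro h0
    have := acf3_norm_of_cyc (H.inj h) hχ hχσ hn₀fix h0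
    rw [hkerχ] at this
    exact hn₀ this
  -- the classes on `V`
  have hχ' := acf3c_isSmChar_res (𝓤 := 𝓤) (charKer ψ hψ.1) hχ
  have hy₀' : Fix (Rep.res (charKer ψ hψ.1).subtype C) ⊤ y₀ := acf3c_fix_res _ hy₀
  obtain ⟨a, b, hab, hcomb⟩ := lines_pf h' (H.norm h'.smooth) (H.inj h') hχ' hφ hy₀' hy
  rw [acf3_comb_mem_iff] at hcomb
  have hwφ' : acf3_cls (𝓤.sub (charKer ψ hψ.1)) (Rep.res (charKer ψ hψ.1).subtype C)
      (resC2 (charKer ψ hψ.1) C w)
      = acf3_cls (𝓤.sub (charKer ψ hψ.1)) (Rep.res (charKer ψ hψ.1).subtype C)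
        (UC.carryCo (Rep.res (charKer ψ hψ.1).subtype C) φ y) := by
    rw [← sub_eq_zero, ← map_sub]
    exact acf3_cls_eq_zero.2 hwφ
  rw [← hwφ'] at hcomb
  -- `hcomb : a • [ε] + b • [w|_V] = 0`
  have hcomb' : (fun q => a • UC.carryCo (Rep.res (charKer ψ hψ.1).subtype C)
        (fun v : ↥(charKer ψ hψ.1) => acf3cChar hcs (v : G)) y₀ q
      + b • resC2 (charKer ψ hψ.1) C w q)
      ∈ B2 (𝓤.sub (charKer ψ hψ.1)) (Rep.res (charKer ψ hψ.1).subtype C) :=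
    (acf3_comb_mem_iff a b _ _).2 hcomb
  -- corestriction
  have : (charKer ψ hψ.1).FiniteIndex := by
    obtain ⟨U, hU, hUV⟩ := hVo
    have := 𝓤.finiteIndex U hU
    exact Subgroup.finiteIndex_of_le hUV
  let _ : Fintype (G ⧸ charKer ψ hψ.1) := Subgroup.fintypeQuotientOfFiniteIndex
  have hidxV : Fintype.card (G ⧸ charKer ψ hψ.1) = p := by
    rw [← Nat.card_eq_fintype_card]
    exact acf3c_index_charKer hψ.1 hψσ
  have hcor := corC2_mem_B2 (charKer ψ hψ.1) C hVo hcomb'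
  have e1 : corC2 (charKer ψ hψ.1) C (fun q => a • UC.carryCo
        (Rep.res (charKer ψ hψ.1).subtype C)
        (fun v : ↥(charKer ψ hψ.1) => acf3cChar hcs (v : G)) y₀ q
      + b • resC2 (charKer ψ hψ.1) C w q)
      = a • corC2 (charKer ψ hψ.1) C (UC.carryCo (Rep.res (charKer ψ hψ.1).subtype C)
        (fun v : ↥(charKer ψ hψ.1) => acf3cChar hcs (v : G)) y₀)
        + b • corC2 (charKer ψ hψ.1) C (resC2 (charKer ψ hψ.1) C w) := by
    rw [← corC2_zsmul, ← corC2_zsmul, ← corC2_add]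
    rfl
  rw [e1, ← acf3_cls_eq_zero, map_add, map_zsmul, map_zsmul] at hcor
  have hres0 : acf3_cls 𝓤 C (corC2 (charKer ψ hψ.1) C (resC2 (charKer ψ hψ.1) C w)) = 0 := by
    rw [acf3_cls_eq_zero]
    have h1 := corC2_res_sub_mem_B2 (charKer ψ hψ.1) C hVo hw
    rw [hidxV] at h1
    have h2 : (p • w : G × G → C) ∈ B2 𝓤 C := by
      have e : (p • w : G × G → C) = fun q => (p : ℤ) • w q := by
        funext q
        rw [Pi.smul_apply, natCast_zsmul]
      rw [e]; exact hpw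
    have := (B2 𝓤 C).add_mem h1 h2
    rwa [sub_add_cancel] at this
  have hproj : acf3_cls 𝓤 C (corC2 (charKer ψ hψ.1) C (UC.carryCo
        (Rep.res (charKer ψ hψ.1).subtype C)
        (fun v : ↥(charKer ψ hψ.1) => acf3cChar hcs (v : G)) y₀))
      = acf3_cyc 𝓤 C (acf3cChar hcs) (cnorm C p σ y₀) := by
    unfold acf3_cyc
    rw [← sub_eq_zero, ← map_sub, acf3_cls_eq_zero]
    exact corC_carryCo_pf h.smooth hχ hψ hψσ hy₀
  rw [hres0, hproj, smul_zero, add_zero] at hcor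
  -- `p ∣ a`
  have hpκ := acf3_p_smul_cyc (H.norm h.smooth) hχ hχσ hn₀fix
  have hpa : (p : ℤ) ∣ a := by
    by_contra hna
    exact hκ (acf3c_eq_zero_of_coprime hna hcor hpκ)
  have hpb : ¬ (p : ℤ) ∣ b := by
    rcases hab with h1 | h1
    · exact absurd hpa h1
    · exact h1
  -- `a • [ε] = 0`
  have hpε : p • acf3_cyc (𝓤.sub (charKer ψ hψ.1)) (Rep.res (charKer ψ hψ.1).subtype C)
      (fun v : ↥(charKer ψ hψ.1) => acf3cChar hcs (v : G)) y₀ = 0 := by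
    by_cases hz : ∀ v : ↥(charKer ψ hψ.1), acf3cChar hcs (v : G) = 0
    · have : (fun v : ↥(charKer ψ hψ.1) => acf3cChar hcs (v : G)) = 0 := funext hz
      rw [this, acf3_cyc_zero_char, smul_zero]
    · push Not at hz
      obtain ⟨v, hv⟩ := hz
      obtain ⟨σv, hσv⟩ := acf3_exists_eq_one
        (χ := fun v : ↥(charKer ψ hψ.1) => acf3cChar hcs (v : G)) hχ'.1 (g := v) hv
      exact acf3_p_smul_cyc (H.norm h'.smooth) hχ' hσv hy₀'
  obtain ⟨a', rfl⟩ := hpa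
  have haε : ((p : ℤ) * a') • acf3_cls (𝓤.sub (charKer ψ hψ.1))
      (Rep.res (charKer ψ hψ.1).subtype C)
      (UC.carryCo (Rep.res (charKer ψ hψ.1).subtype C)
        (fun v : ↥(charKer ψ hψ.1) => acf3cChar hcs (v : G)) y₀) = 0 := by
    rw [mul_comm, mul_smul, natCast_zsmul]
    unfold acf3_cyc at hpε
    rw [hpε, smul_zero]
  rw [haε, zero_add] at hcomb
  -- `p • [w|_V] = 0`
  have hpw' : p • acf3_cls (𝓤.sub (charKer ψ hψ.1)) (Rep.res (charKer ψ hψ.1).subtype C)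
      (resC2 (charKer ψ hψ.1) C w) = 0 := by
    rw [← map_nsmul, acf3_cls_eq_zero]
    have := acf3c_resC2_mem_B2 (charKer ψ hψ.1) hpw
    have e : (p • resC2 (charKer ψ hψ.1) C w : ↥(charKer ψ hψ.1) × ↥(charKer ψ hψ.1) → C)
        = resC2 (charKer ψ hψ.1) C (fun q => (p : ℤ) • w q) := by
      funext q
      show p • w _ = (p : ℤ) • w _
      rw [natCast_zsmul]
    rw [e]; exact this
  exact acf3_cls_eq_zero.1 (acf3c_eq_zero_of_coprime hpb hcomb hpw')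

/-! ### the induction -/

/-- a cocycle inflated from the trivial group is a coboundary -/
lemma acf3c_mem_B2_of_infl_top {w : G × G → C} (hw : w ∈ Z2 𝓤 C) (hinf : Infl2 ⊤ w) :
    w ∈ B2 𝓤 C := by
  have hconst : ∀ g h : G, w (g, h) = w (1, 1) := by
    intro g h
    have := hinf 1 1 g h (Subgroup.mem_top g) (Subgroup.mem_top h)
    simpa using this
  have hcoc := ((UC.mem_Z2 𝓤 C w).1 hw).1
  have hfix : ∀ g : G, C.ρ g (w (1, 1)) = w (1, 1) := by
    intro g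
    have := congrFun hcoc (g, 1, 1)
    simp only [δ2_apply, Pi.zero_apply, hconst] at this
    have h2 : C.ρ g (w (1, 1)) - w (1, 1) = 0 := by
      rw [← this]; abel
    exact sub_eq_zero.1 h2
  refine (UC.mem_B2 𝓤 C w).2 ⟨fun _ => w (1, 1), isLC₁_const 𝓤 _, ?_⟩
  funext q
  obtain ⟨g, h⟩ := q
  rw [δ1_apply, hconst g h]
  show C.ρ g (w (1, 1)) - w (1, 1) + w (1, 1) = w (1, 1)
  rw [hfix g]; abel

/-- **Claim C**, over all formations. -/
theorem acf3c_cyclic_aux (H : Acf3cHyp p) : ∀ (a : ℕ) (G : Type) [Group G] (𝓤 : Levels G)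
    (C : Rep.{0} ℤ G), PCF p 𝓤 C ⊤ → ∀ W : Subgroup G, W.Normal → 𝓤.IsOpen W →
    W.index = p ^ a → ∀ w : G × G → C, w ∈ Z2 𝓤 C → Infl2 W w →
    (fun q => (p : ℤ) • w q) ∈ B2 𝓤 C →
    ∃ (χ : G → ZMod p) (x : C), IsSmChar 𝓤 χ ∧ Fix C ⊤ x ∧
      (fun q => w q - UC.carryCo C χ x q) ∈ B2 𝓤 C := by
  intro a
  induction a with
  | zero =>
    intro G _ 𝓤 C h W hWn hW hidx w hw hinf hpw
    have hWtop : W = ⊤ := Subgroup.index_eq_one.1 (by simpa using hidx)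
    subst hWtop
    refine ⟨0, 0, acf3_isSmChar_zero, fun g _ => map_zero _, ?_⟩
    have e : (fun q => w q - UC.carryCo C (0 : G → ZMod p) (0 : C) q) = w := by
      funext q
      simp [UC.carryCo_apply]
    rw [e]
    exact acf3c_mem_B2_of_infl_top hw hinf
  | succ a ih =>
    intro G _ 𝓤 C h W hWn hW hidx w hw hinf hpw
    obtain ⟨V₀, σ, hcyc, hWV, hVidx, hrel⟩ := acf3c_exists_layer hWn hidx
    have hV₀o : 𝓤.IsOpen V₀ := Levels.IsOpen.mono 𝓤 hW hWV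
    have hψ : IsSmChar 𝓤 (acf3cChar hcyc) := acf3cChar_isSmChar hcyc hV₀o
    have hψσ : acf3cChar hcyc σ = 1 := acf3cChar_gen hcyc
    have hker : charKer (acf3cChar hcyc) hψ.1 = V₀ := acf3cChar_ker hcyc
    have hVo : 𝓤.IsOpen (charKer (acf3cChar hcyc) hψ.1) := acf3_isOpen_charKer hψ
    have h' : PCF p (𝓤.sub (charKer (acf3cChar hcyc) hψ.1))
        (Rep.res (charKer (acf3cChar hcyc) hψ.1).subtype C) ⊤ := by
      have := H.res h hVo
      rwa [Subgroup.top_subgroupOf] at this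
    have hidx' : (W.subgroupOf (charKer (acf3cChar hcyc) hψ.1)).index = p ^ a := by
      rw [hker]; exact hrel
    have hpw' : (fun q => (p : ℤ) • resC2 (charKer (acf3cChar hcyc) hψ.1) C w q)
        ∈ B2 (𝓤.sub (charKer (acf3cChar hcyc) hψ.1))
          (Rep.res (charKer (acf3cChar hcyc) hψ.1).subtype C) :=
      acf3c_resC2_mem_B2 (charKer (acf3cChar hcyc) hψ.1) hpw
    obtain ⟨φ, y, hφ, hy, hwφ⟩ := ih ↥(charKer (acf3cChar hcyc) hψ.1)
      (𝓤.sub (charKer (acf3cChar hcyc) hψ.1))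
      (Rep.res (charKer (acf3cChar hcyc) hψ.1).subtype C) h'
      (W.subgroupOf (charKer (acf3cChar hcyc) hψ.1)) (hWn.subgroupOf _)
      (acf3c_isOpen_subgroupOf _ hW) hidx'
      (resC2 (charKer (acf3cChar hcyc) hψ.1) C w)
      (resC2_mem_Z2 (charKer (acf3cChar hcyc) hψ.1) C hw)
      (acf3c_infl2_res _ hinf) hpw'
    have hres := acf3c_res_vanish H h hψ hψσ hw hpw hφ hy hwφ
    obtain ⟨x, hx, hwx⟩ := H.exact h (acf3cChar hcyc) hψ σ hψσ w hw hpw hres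
    exact ⟨acf3cChar hcyc, x, hψ, hx, hwx⟩

/-- **Claim C** (= `cyclic_of_pGroup` of `F4/Cf/Statements.lean`, seat ACF-3c). -/
theorem cyclic_of_pGroup_pf (H : Acf3cHyp p) (h : PCF p 𝓤 C ⊤) (a : ℕ) (W : Subgroup G)
    (hWn : W.Normal) (hW : 𝓤.IsOpen W) (hidx : W.index = p ^ a) {w : G × G → C}
    (hw : w ∈ Z2 𝓤 C) (hinf : Infl2 W w) (hpw : (fun q => (p : ℤ) • w q) ∈ B2 𝓤 C) :
    ∃ (χ : G → ZMod p) (x : C), IsSmChar 𝓤 χ ∧ Fix C ⊤ x ∧
      (fun q => w q - UC.carryCo C χ x q) ∈ B2 𝓤 C :=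
  acf3c_cyclic_aux H a G 𝓤 C h W hWn hW hidx w hw hinf hpw

end Fermat.Agent.F4Cf
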