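import Fermat.Agent.F4.Cf.Defs
import Fermat.Agent.F4.Cf.Cor
import Fermat.Agent.F4.Shapiro.ModCor
import Fermat.Agent.F4.Shapiro.Torsion
import Fermat.Agent.F4.Cf.Lines
import Fermat.Agent.F4.Cf.PGroup
import Fermat.Agent.F4.Cf.Res
import Fermat.Agent.F4.Cf.H1
import Fermat.Agent.F4.Cf.Cyc
import Fermat.Agent.F4.Cf.F34
import Fermat.Agent.F4.Cf.F1sm

/-!
# F4 / Cf / Statements : abstract class formations mod `p` — the formation-level statements
(owner: helper53; blueprint `NOTES/blueprint-F4-GLOB.md`, v2.  ALL PROVED: this file only wires the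
proofs of the seats.)

Input: `h : PCF p 𝓤 C U₀` (`F4/Cf/Defs.lean`).  Output: the formation-level statements of
`F4/UC/KLevel.lean`, `F4/UC/Bridge.lean` for every open subgroup:

    H1slack (⇒ UC.H1p0),  UC.F3sm,  UC.F4sm (below U₀),  UC.F1sm.

Seats (all landed).
 ACF-0  `PCF.res`                      helper9   `F4/Cf/Res.lean`
 ACF-1  `h1slack`, `H1slack.h1p0`      helper49  `F4/Cf/H1.lean` (core: helper87 `F4/CfCore`)
 ACF-2  `carryCo_of_norm`, `carryCo_inj`, `carryCo_exact`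
                                       helper71  `F4/Cf/Cyc.lean`, `CycMul.lean`
 ACF-3a `carryCo_add_char`, `lines`    helper91  `F4/Cf/Lines.lean`
 ACF-3b `corC_carryCo`                 helper48  `F4/Cf/Cor.lean`
 ACF-3c `cyclic_of_pGroup`             helper91  `F4/Cf/PGroup.lean`
 ACF-3d `f1sm`                         helper13  `F4/Cf/F1sm.lean`
 ACF-4  `f3sm`, `f4sm`                 helper13  `F4/Cf/F34.lean`
-/

set_option autoImplicit false

open CategoryTheory groupCohomology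

namespace Fermat.Agent.F4Cf

open Fermat.Agent.F4

variable {G : Type} [Group G] {p : ℕ} [Fact p.Prime] {𝓤 : Levels G} {C : Rep.{0} ℤ G}
  {U₀ : Subgroup G}

/-! ### ACF-0 : restriction to an open subgroup -/

/-- The axioms restrict to open subgroups. -/
theorem PCF.res (h : PCF p 𝓤 C U₀) {U : Subgroup G} (hU : 𝓤.IsOpen U) :
    PCF p (𝓤.sub U) (Rep.res U.subtype C) (U₀.subgroupOf U) :=
  PCF.res_pf h hU

/-! ### ACF-1 : Hilbert 90 up to prime-to-`p` slack -/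

/-- **T1.**  `H¹(C)` is torsion prime to `p`.
Proof: `c` is inflated from `G/W`, `W ∈ 𝓤`; `P/W` a Sylow `p`-subgroup; on `P` induct along a
chain `W = V_0 ◁ V_1 ◁ … ◁ V_k = P` of index-`p` steps: a cocycle trivial on `V_i` is inflated
from the cyclic group `V_{i+1}/V_i`, hence given by `y = c(σ)` with `N y = 0`, so `m y = σz - z`
(`hasse`).  Finally `[G : P] · c` is a coboundary (average over `G/P`). -/
theorem h1slack (h : PCF p 𝓤 C U₀) : H1slack p 𝓤 C :=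
  h1slack_pf h

/-- `H1slack` implies `H¹(C)[p] = 0`. -/
theorem H1slack.h1p0 (h : H1slack p 𝓤 C) : UC.H1p0 p 𝓤 C :=
  h1p0_pf h

/-! ### ACF-2 : the cyclic layer -/

/-- The cyclic cocycle of a norm is a smooth coboundary. -/
theorem carryCo_of_norm (hC : IsSmooth 𝓤 C) {χ : G → ZMod p} (hχ : IsSmChar 𝓤 χ) {σ : G}
    (hσ : χ σ = 1) {y : C} (hy : Fix C (charKer χ hχ.1) y) :
    UC.carryCo C χ (cnorm C p σ y) ∈ B2 𝓤 C :=
  carryCo_of_norm_pf hC hχ hσ hy

/-- **T2a, injectivity.**  If the cyclic cocycle of `x ∈ C^G` is a smooth coboundary, then `x` is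
a norm from the cyclic layer of `χ`.
Proof: `carryCo χ x = ∂s`; `s` restricted to `V = ker χ` is a cocycle, `m s|_V = ∂b` (`h1slack`
for `V`); the proof of `Loc.infl_injective` gives `carryCo χ (m x) = ∂s'`, `s'` inflated from
`G/V`; `Loc.norm_of_cycCocycle_eq_mulD1` gives `m x = N(s' σ)`; finally `p x = N x`. -/
theorem carryCo_inj (h : PCF p 𝓤 C U₀) {χ : G → ZMod p} (hχ : IsSmChar 𝓤 χ) {σ : G}
    (hσ : χ σ = 1) {x : C} (hx : Fix C ⊤ x) (hcob : UC.carryCo C χ x ∈ B2 𝓤 C) :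
    IsNormFrom C p (charKer χ hχ.1) σ x :=
  carryCo_inj_pf hχ (h1slack (h.res (cf_isOpen_charKer hχ))) hσ hx hcob

/-- **T2a, exactness.**  A `p`-torsion class whose restriction to `V = ker χ` vanishes is a
cyclic class of `χ`.
Proof: `Loc.infl_res_exact` with slack (`m w ~` inflated from `G/V`), the cyclic normal form
`Loc.exists_cycCocycle_mul_mulD1`, and `w = (u m + v p) w`. -/
theorem carryCo_exact (h : PCF p 𝓤 C U₀) {χ : G → ZMod p} (hχ : IsSmChar 𝓤 χ) {σ : G}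
    (hσ : χ σ = 1) {w : G × G → C} (hw : w ∈ Z2 𝓤 C)
    (hpw : (fun q => (p : ℤ) • w q) ∈ B2 𝓤 C)
    (hres : (fun q : ↥(charKer χ hχ.1) × ↥(charKer χ hχ.1) => w ((q.1 : G), (q.2 : G)))
      ∈ B2 (𝓤.sub (charKer χ hχ.1)) (Rep.res (charKer χ hχ.1).subtype C)) :
    ∃ x : C, Fix C ⊤ x ∧ (fun q => w q - UC.carryCo C χ x q) ∈ B2 𝓤 C :=
  carryCo_exact_pf hχ (h1slack (h.res (cf_isOpen_charKer hχ))) hσ hw hpw hres

/-! ### ACF-3a : all cyclic classes lie on one line -/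

/-- The cyclic cocycle is additive in the character, up to an explicit coboundary. -/
theorem carryCo_add_char (hC : IsSmooth 𝓤 C) {χ χ' : G → ZMod p} (hχ : IsSmChar 𝓤 χ)
    (hχ' : IsSmChar 𝓤 χ') {x : C} (hx : Fix C ⊤ x) :
    (fun q => UC.carryCo C (χ + χ') x q - UC.carryCo C χ x q - UC.carryCo C χ' x q)
      ∈ B2 𝓤 C :=
  carryCo_add_char_pf hχ hχ' hx

/-- **Claim B.**  Any two cyclic classes are dependent.
Proof: same kernel: `second`.  Different kernels `V ≠ V'`: with `χ'' = χ + χ'`, `n ∈ N_V ∖ N_V'`,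
`n' ∈ N_V' ∖ N_V` (`distinct`): `n ∪ δχ'' ~ n ∪ δχ'`, `n' ∪ δχ'' ~ n' ∪ δχ`, and `n, n'` are
dependent modulo `N_V''` (`second`). -/
theorem lines (h : PCF p 𝓤 C U₀) {χ χ' : G → ZMod p} (hχ : IsSmChar 𝓤 χ) (hχ' : IsSmChar 𝓤 χ')
    {x x' : C} (hx : Fix C ⊤ x) (hx' : Fix C ⊤ x') :
    ∃ a b : ℤ, (¬ (p : ℤ) ∣ a ∨ ¬ (p : ℤ) ∣ b) ∧
      (fun q => a • UC.carryCo C χ x q + b • UC.carryCo C χ' x' q) ∈ B2 𝓤 C :=
  lines_pf h (fun _ hψ _ hσ _ hy => carryCo_of_norm h.smooth hψ hσ hy)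
    (fun _ hψ _ hσ _ hy hc => carryCo_inj h hψ hσ hy hc) hχ hχ' hx hx'

/-! ### ACF-3b : the projection formula

Corestriction on `C`-valued cochains is `corC2` of `F4/Shapiro/ModCor.lean` (helper48), with
`corC2_mem_Z2`, `corC2_mem_B2`, `corC2_res_sub_mem_B2` (`cor ∘ res = [G : V]`). -/

/-- **Projection formula.**  For a character `χ` of `G`, a cyclic layer `V = ker ψ` of `G`
generated by `σ`, and `y ∈ C^V`:  `cor_V (y ∪ δ(χ|_V)) ~ (N_{G/V} y) ∪ δχ`.
(Explicitly: with `χ̃ (w_x g) = χ̃ g - χ̃ (s_x) + χ̃ (s_{g⁻¹x}) + p ε_x(g)` the difference is the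
coboundary of `g ↦ Σ_x ε_x(g) • s_x y`.) -/
theorem corC_carryCo (hC : IsSmooth 𝓤 C) {χ ψ : G → ZMod p} (hχ : IsSmChar 𝓤 χ)
    (hψ : IsSmChar 𝓤 ψ) {σ : G} (hσ : ψ σ = 1) [Fintype (G ⧸ charKer ψ hψ.1)]
    {y : C} (hy : Fix C (charKer ψ hψ.1) y) :
    (fun q => corC2 (charKer ψ hψ.1) C
        (UC.carryCo (Rep.res (charKer ψ hψ.1).subtype C) (fun v => χ (v : G)) y) q
      - UC.carryCo C χ (cnorm C p σ y) q) ∈ B2 𝓤 C :=
  corC_carryCo_pf hC hχ hψ hσ hy

/-! ### ACF-3c : induction on `p`-groups -/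

/-- **Claim C.**  Below `U₀` (`U₀ = ⊤`): a `p`-torsion class which is inflated from a quotient
`G/W` of `p`-power order is a cyclic class.
Proof: induction on `a` (all formations at once).  `a = 0`: `w` is constant, a coboundary.
`a ≥ 1`: `V ⊇ W` normal of index `p`, `ψ` with kernel `V`.  By induction (formation `V`,
`PCF.res`) `w|_V ~ y ∪ δφ`.  If `y ∪ δφ ≁ 0`: take `χ` a character of `G` with `χ|_V ≠ 0` (`two`),
`y₀ ∈ C^V` with `N y₀ ∉ N_{ker χ}` (`distinct`), `ε = y₀ ∪ δ(χ|_V)`; by `lines` on `V`,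
`ε ~ k (w|_V)`; then `cor ε ~ k p w ~ 0` (`corC2_res_sub_mem_B2`), but `cor ε ~ (N y₀) ∪ δχ ≁ 0`
(`corC_carryCo`, `carryCo_inj`): contradiction.  So `w|_V ~ 0` and `carryCo_exact` applies. -/
theorem cyclic_of_pGroup (h : PCF p 𝓤 C ⊤) (a : ℕ) (W : Subgroup G) (hWn : W.Normal)
    (hW : 𝓤.IsOpen W) (hidx : W.index = p ^ a) {w : G × G → C} (hw : w ∈ Z2 𝓤 C)
    (hinf : Infl2 W w) (hpw : (fun q => (p : ℤ) • w q) ∈ B2 𝓤 C) :
    ∃ (χ : G → ZMod p) (x : C), IsSmChar 𝓤 χ ∧ Fix C ⊤ x ∧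
      (fun q => w q - UC.carryCo C χ x q) ∈ B2 𝓤 C :=
  cyclic_of_pGroup_pf
    ⟨fun h' _ hU => PCF.res h' hU,
      fun hC _ hχ _ hσ _ hy => carryCo_of_norm hC hχ hσ hy,
      fun h' _ hχ _ hσ _ hx hc => carryCo_inj h' hχ hσ hx hc,
      fun h' _ hχ _ hσ _ hw' hpw' hres => carryCo_exact h' hχ hσ hw' hpw' hres⟩
    h a W hWn hW hidx hw hinf hpw

/-! ### ACF-3d, ACF-4 : the formation-level statements -/

/-- **F1sm.**  Any two `p`-torsion classes of `H²(C)` are dependent.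
Proof: `W ∈ 𝓤`, `W ≤ U₀`, with `w₁, w₂` inflated from `G/W`; `P/W` a Sylow `p`-subgroup of `G/W`;
then `P ≤ U₀` (`U₀` normal of index prime to `p`); `cyclic_of_pGroup` + `lines` on `P`
(`PCF.res`); `card_smul_mem_B2_of_res` for `P` and `p ∤ [G : P]`. -/
theorem f1sm (h : PCF p 𝓤 C U₀) : UC.F1sm p 𝓤 C :=
  f1sm_pf h (fun _ hP => h.res hP)
    (fun _ _ hPCF a W hWn hW hidx _ hw hinf hpw => cyclic_of_pGroup hPCF a W hWn hW hidx hw hinf hpw)
    (fun _ _ hPCF _ _ hχ hχ' _ _ hx hx' => lines hPCF hχ hχ' hx hx')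

/-- **F3sm.**  For every nonzero character there is a non-trivial cyclic class
(`first` + `carryCo_inj`). -/
theorem f3sm (h : PCF p 𝓤 C U₀) : UC.F3sm p 𝓤 C :=
  f3sm_pf h (fun hχ _ hσ _ hx hcob => carryCo_inj h hχ hσ hx hcob)

/-- **F4sm** below `U₀`: an invariant all of whose cyclic classes vanish is divisible by `p`
(`carryCo_inj` + `exist`; the slack is absorbed by `x = (u m + v p) x`). -/
theorem f4sm (h : PCF p 𝓤 C ⊤) : UC.F4sm p 𝓤 C :=
  f4sm_pf h (fun hχ _ hσ _ hx hcob => carryCo_inj h hχ hσ hx hcob)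

end Fermat.Agent.F4Cf
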