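import Fermat.Agent.F4.Cf.RecipDefs
import Fermat.Agent.F4.Cf.RecipQ
import Fermat.Agent.F4.Cf.RecipA2
import Fermat.Agent.F4.Cf.RecipB
import Fermat.Agent.F4.Cf.CharGQ
import Fermat.Agent.F4.Cf.Statements
import Fermat.Agent.F4.Cf.RecipC2ne
import Fermat.Agent.F4.Cf.RecipC2eq

/-!
# F4 / Cf / Recip : the reciprocity law `GlobalDatum.recip`, by rescaling the local invariants
(STUBS — layer RECIP of GLOB; statements by helper53, blueprint `NOTES/blueprint-F4-GLOB.md`)

`GlobalDatum.recip` :  `inv (g z) = Σ_{q ∈ S} inv_q (ev_q (res_q z))`  for `z ∈ ZZ²(G_S, KJ)`.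

GLOB is free to choose `inv` (ANY injective linear form on `HH²(G_S, KC)` has the duality
properties, `F4/Cf/Assembly.lean`) and to rescale the local invariants `inv_q` by units
(`rescaleLoc`: all fields of `LocalDatum` are invariant).  By Shapiro (`shapiro2`, injectivity of
`inv_q`) the forms `λ_q = inv_q ∘ ev_q ∘ res_q` separate the points of `HH²(G_S, KJ)`, hence
`inv ∘ g = Σ c_q λ_q`; the ONLY arithmetic input is `c_q ≠ 0` for every `q ∈ S`:

  **T3**  for every `q ∈ S` there is a class `z_q` of `KJ`, locally trivial away from `q`,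
          with `g z_q ≠ 0` in `HH²(G_S, KC)`.

Seats.
 R-A  `rescaleLoc` (Prop-fields), `exists_rescale_recip`      linear algebra + Shapiro
 R-B  `t3_of_nonNorm`                                          `z_q = cor_U (α¹(j) ∪ χ)`
 R-C  `dict_local`                                             number theory (Artin symbol)
 R-C0 `exists_char_GQ`                                         `ℚ_1 ⊂ ℚ(μ_{p²}) ⊂ ℚ_S`
 R-Q  `quotHyp_of_packs`                                       `E` is `p`-divisible, `E[p] = μ_p`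
 R-D  assembly `F4/Cf/Final.lean`                              (helper53)

DEFINITIONS: `F4/Cf/RecipDefs.lean` (provers import THAT file).

INTERFACE WITH LOC (`LocPack`): LOC delivers, for ONE global root map `φ : μ_p → E` (DK1,
`exists_rootMap`), at every `q ∈ S` a local datum `loc` TOGETHER WITH its universal-coefficient
datum `dat : UCData p loc.K (LqS S q) I Q` (`K = hullK`, `I = hullI`), `I` smooth, and the
compatibility `dat.i0 (ε m) = dat.ι (ι_q (φ m))`  (`ε` is "`μ_p ⊂ L_q` via `φ`").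

R-B: `j ∈ J^U` supported at `q`, `a = [j] ∈ C^U` not a norm from the cyclic layer `(U, V, σ)`,
`χ : U → 𝔽_p` the character of the layer.  Then `z_U = α¹_J(j) ∪ χ ∈ ZZ²(U, KJ)` (`UC.cupχ`,
`Rel1α` of `F4/UC/Seq1.lean`, chosen supported at `q`), `g z_U = α¹_C(a) ∪ χ`
(`rel1α_quot0`), whose image under `β²` is the cyclic cocycle `carryCo χ a` (`rel2_cupχ`), not a
coboundary (`carryCo_inj` for the formation of `U`); `z = cor_U z_U` (`corT2`) is supported at
`q`, and `inv (g z) = inv (cor_U (g z_U)) ≠ 0` since `inv ∘ cor_U` is injective (`A2InjU`).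

R-C: `q ≠ p`: `U = Gal(ℚ̄/ℚ_n)`, `V = Gal(ℚ̄/ℚ_{n+1})` (layers of the cyclotomic `ℤ_p`-extension,
ramified only at `p ∈ S`) with `n` such that the places over `q` of `ℚ_n` are inert in `ℚ_{n+1}`
(`q^{p-1} ∈ 1 + p^{n+1}ℤ_p ∖ 1 + p^{n+2}ℤ_p`); `j` = a uniformizer at ONE place `v | q` of `ℚ_n`.
If `[j] = N c'` then (as in the derivation of `first`/`distinct`) `v^m · (f)^S · N 𝔄 = 1` with
`f` a local norm at the places over `p`, so the Artin symbol of `v` is trivial: contradiction.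
`q = p`: `U = G`, `V = Gal(ℚ̄/ℚ_1)`; `ℓ ∉ S` a prime inert in `ℚ_1`; `[diagJ ℓ] = cl((ℓ))` is not a
norm (Artin symbol) and `diagJ ℓ ≡ (ℓ at p)` modulo local norms (units at unramified places):
`j = (ℓ at p)`.
-/

set_option autoImplicit false

open CategoryTheory groupCohomology ExtCitation

namespace Fermat.Agent.F4Cf

open Fermat.Agent.F4

variable {p : ℕ} [Fact p.Prime] {S : Finset Nat.Primes}

/-! ### R-A : reciprocity up to units -/

/-- **R-A.**  Reciprocity up to units.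
Proof: `λ_q(z) := inv_q (ev_q res_q z)`; `inv_q` is injective on `HH²(D_q, K_q)` (`a2inj` for
`U = ⊤`); if `λ_q(z) = 0` for all `q` then `[z] = 0` (`shapiro2` for `N = 𝔽_p`).  With `z_q` of
`T3`: `λ_{q'}(z_q) = 0` for `q' ≠ q`, so `λ_q(z_q) ≠ 0`; `c_q := inv (g z_q) / λ_q(z_q)`;
`z - Σ (λ_q(z)/λ_q(z_q)) z_q` is killed by all `λ_q`. -/
theorem exists_rescale_recip {loc : ∀ q : ↥S, LocalDatum p S q.1} (C : CoindDatum p S loc)
    (inv : HH2 (levelsS S) C.KC →ₗ[ZMod p] ZMod p) (hT3 : T3 C inv) :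
    ∃ c : ↥S → (ZMod p)ˣ, ∀ z : ↥(ZZ2 (levelsS S) C.KJ),
      inv (HH2π _ _ (C.g.mapZZ2 _ z)) =
        ∑ q : ↥S, (c q : ZMod p) * (loc q).inv (HH2π _ _ ((C.ev q).mapZZ2 _
          ⟨resT2 (primeLocalToGlobal q.1) C.KJ z.1, resT2_mem_ZZ2 _ _ C.KJ z.2⟩)) :=
  exists_rescale_recip_pf C inv hT3

/-! ### R-B : a class from a local non-norm -/

/-- **R-B.**  A non-norm `[j]`, `j ∈ J^U` supported at `q`, gives a class of `KJ` locally trivial
away from `q` with non-zero image in `HH²(G_S, KC)`. -/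
theorem t3_of_nonNorm (hpS : pPrime p ∈ S) (loc : ∀ q : ↥S, LocalDatum p S q.1)
    {I Q : ∀ q : ↥S, Rep.{0} ℤ (primeLocalGaloisGroup q.1)}
    (Dat : ∀ q : ↥S, UCData p (loc q).K (LqS S q.1) (I q) (Q q))
    (hI : ∀ q : ↥S, IsSmooth (locLevelsS S q.1) (I q))
    (hQ : (datJ loc Dat hI).QuotHyp (coindF loc (isSmooth_Fp1 S hpS)) (EinJ S))
    {U₀ : Subgroup GQ} (h : PCF p (levelsS S) (Crep S) U₀)
    (inv : HH2 (levelsS S) (coindKC loc (isSmooth_Fp1 S hpS)) →ₗ[ZMod p] ZMod p)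
    (hA2 : ∀ (W : Subgroup GQ) [Fintype (GQ ⧸ W)] (hW : (levelsS S).IsOpen W),
      A2InjU W (coindKC loc (isSmooth_Fp1 S hpS)) inv hW)
    (q : ↥S) (U V : Subgroup GQ) (σ : GQ) (hV : (levelsS S).IsOpen V) (hc : IsCyc p U V σ)
    (j : Jrep S) (hj : Fix (Jrep S) U j) (hsupp : ∀ q' : ↥S, q' ≠ q → j q' = 0)
    (hnn : ¬ IsNormFrom (Crep S) p V σ (CMk S j)) :
    ∃ z : ↥(ZZ2 (levelsS S) (coindKJ loc)),
      LocTrivAway (coindDatum hpS loc) q z ∧
        inv (HH2π _ _ ((coindG loc (isSmooth_Fp1 S hpS)).mapZZ2 _ z)) ≠ 0 :=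
  t3_of_nonNorm_pf hpS loc Dat hI hQ h inv hA2 q U V σ hV hc j hj hsupp hnn

/-! ### R-Q : the quotient hypotheses (helper9, `F4/Cf/RecipQ.lean`) -/

/-- **R-Q.**  `E ≤ J` is `p`-divisible (`EsRep_div`) and `E[p] = f(μ_p)` (`IsRootMap`, `compat`,
pointwise: `(datJ).ι`, `(datJ).i0`, `coindF`, `diagJ` are all given by `(q, g) ↦ …`). -/
theorem quotHyp_of_packs (hpS : pPrime p ∈ S) {φ : Fp1 p →+ EsRep S} (hφ : IsRootMap φ)
    (P : ∀ q : ↥S, LocPack p S φ q.1) :
    (datJ (fun q => (P q).loc) (fun q => (P q).dat) (fun q => (P q).smoothI)).QuotHyp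
      (coindF (fun q => (P q).loc) (isSmooth_Fp1 S hpS)) (EinJ S) :=
  quotHyp_of_packs_pf hpS hφ P

/-! ### R-C : the arithmetic input -/

/-- **R-C0.**  `G_S` has a non-zero smooth character of order `p` (`p ∈ S`): the Fermat quotient
of the cyclotomic character modulo `p²`. -/
theorem exists_char_GQ (hp2 : p ≠ 2) (hpS : pPrime p ∈ S) :
    ∃ χ : GQ → ZMod p, IsSmChar (levelsS S) χ ∧ χ ≠ 0 :=
  exists_char_GQ_pf hp2 hpS

/-- **R-C.**  For every `q ∈ S` there are a cyclic layer `(U, V, σ)` of degree `p` of `G_S` and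
`j ∈ J^U`, supported at `q`, whose class in `C = J / E` is not a norm from `V`. -/
theorem dict_local (hp2 : p ≠ 2) (hpS : pPrime p ∈ S) (q : ↥S) :
    ∃ (U V : Subgroup GQ) (σ : GQ) (j : Jrep S), (levelsS S).IsOpen V ∧ IsCyc p U V σ ∧
      Fix (Jrep S) U j ∧ (∀ q' : ↥S, q' ≠ q → j q' = 0) ∧
      ¬ IsNormFrom (Crep S) p V σ (CMk S j) := by
  by_cases hq : ((q : Nat.Primes) : ℕ) = p
  · exact dict_local_eq hp2 hpS q hq
  · exact dict_local_ne hp2 hpS q hq

end Fermat.Agent.F4Cf
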