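import Fermat.Agent.F4.Cf.Assembly
import Fermat.Agent.F4.Cf.Recip
import Fermat.Agent.F4.Glob.Fin.Main

/-!
# F4 / Cf / Final : the global datum from the local packs (seat R-D, helper53)

`globalDatum_of_packs` : `Nonempty (GlobalDatum p S)` from `LocPack`s at all `q ∈ S` (LOC),
the class formation `pcf_Crep` (DICT), the abstract theory (ACF) and reciprocity (RECIP).
-/

set_option autoImplicit false

open CategoryTheory groupCohomology ExtCitation

namespace Fermat.Agent.F4Cf

open Fermat.Agent.F4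

/-- A space all of whose pairs of vectors are dependent has an injective linear form. -/
theorem exists_injective_of_KF1 {G : Type} [Group G] {p : ℕ} [Fact p.Prime] {𝓤 : Levels G}
    {K : Cx (ZMod p) G} (h : UC.KF1 𝓤 K) :
    ∃ inv : HH2 𝓤 K →ₗ[ZMod p] ZMod p, Function.Injective inv := by
  by_cases h0 : ∀ v : HH2 𝓤 K, v = 0
  · exact ⟨0, fun a b _ => (h0 a).trans (h0 b).symm⟩
  · obtain ⟨v, hv⟩ := not_forall.1 h0
    obtain ⟨c, rfl⟩ := Submodule.mkQ_surjective _ v
    have hspan : ∀ w : HH2 𝓤 K, ∃ a : ZMod p, w = a • HH2π 𝓤 K c := by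
      intro w
      obtain ⟨c', rfl⟩ := Submodule.mkQ_surjective _ w
      obtain ⟨x, y, hxy, hB⟩ := h c.1 c'.1 c.2 c'.2
      have hsum : x • HH2π 𝓤 K c + y • HH2π 𝓤 K c' = 0 := by
        rw [← map_smul, ← map_smul, ← map_add]
        exact (HH2π_eq_zero_iff 𝓤 K _).2 hB
      have hy : y ≠ 0 := by
        rintro rfl
        rw [zero_smul, add_zero] at hsum
        rcases hxy with hx | hy
        · exact hv ((smul_eq_zero.1 hsum).resolve_left hx)
        · exact hy rfl
      refine ⟨-(y⁻¹ * x), ?_⟩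
      have h1 : y • HH2π 𝓤 K c' = -(x • HH2π 𝓤 K c) := eq_neg_of_add_eq_zero_right hsum
      calc HH2π 𝓤 K c' = y⁻¹ • (y • HH2π 𝓤 K c') := by rw [smul_smul, inv_mul_cancel₀ hy, one_smul]
        _ = -(y⁻¹ * x) • HH2π 𝓤 K c := by rw [h1, smul_neg, smul_smul, neg_smul]
    let f : ZMod p →ₗ[ZMod p] HH2 𝓤 K := LinearMap.toSpanSingleton (ZMod p) _ (HH2π 𝓤 K c)
    have hf : LinearMap.ker f = ⊥ := by
      rw [LinearMap.ker_eq_bot']
      intro a ha
      exact (smul_eq_zero.1 ha).resolve_right hv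
    obtain ⟨g, hg⟩ := LinearMap.exists_leftInverse_of_injective f hf
    refine ⟨g, (injective_iff_map_eq_zero g).2 fun w hw => ?_⟩
    obtain ⟨a, rfl⟩ := hspan w
    have h2 : g (f a) = a := by
      have := congrArg (fun φ : ZMod p →ₗ[ZMod p] ZMod p => φ a) hg
      simpa using this
    have h3 : f a = a • HH2π 𝓤 K c := rfl
    rw [← h3, h2] at hw
    rw [hw, zero_smul]

section

variable {p : ℕ} [Fact p.Prime] {S : Finset Nat.Primes}

/-- The product of coinduced modules is smooth. -/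
lemma smooth_piCoind (A : ∀ q : ↥S, Rep.{0} ℤ (primeLocalGaloisGroup q.1)) :
    IsSmooth (levelsS S)
      (cxPiRep fun q : ↥S => coInd (primeLocalToGlobal q.1) (levelsS S) (A q)) := by
  classical
  intro x
  have h : ∀ q : ↥S, ∃ U ∈ (levelsS S).sets, ∀ g ∈ U,
      (coInd (primeLocalToGlobal q.1) (levelsS S) (A q)).ρ g (x q) = x q :=
    fun q => coInd_smooth (A q) (x q)
  obtain ⟨U, hU, hUq⟩ := (levelsS S).coind_exists_le_of_finite (Set.univ : Set ↥S)
    Set.finite_univ
    (fun q V => ∀ g ∈ V, (coInd (primeLocalToGlobal q.1) (levelsS S) (A q)).ρ g (x q) = x q)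
    (fun q _ => h q) (fun q U V hVU hP g hg => hP g (hVU hg))
  exact ⟨U, hU, fun g hg => funext fun q => hUq q (Set.mem_univ _) g hg⟩

/-- **GLOB**: the global datum from the local packs. -/
theorem globalDatum_of_packs (hp2 : p ≠ 2) (hpS : pPrime p ∈ S) {φ : Fp1 p →+ EsRep S}
    (hφ : IsRootMap φ) (P : ∀ q : ↥S, LocPack p S φ q.1) : Nonempty (GlobalDatum p S) := by
  classical
  -- the algebra
  have hQ := quotHyp_of_packs hpS hφ P
  have hIJ := smooth_piCoind (S := S) (fun q => (P q).I)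
  have hIC : IsSmooth (levelsS S) hQ.IC := hQ.smoothIC hIJ
  have DC : UCData p (coindKC (fun q => (P q).loc) (isSmooth_Fp1 S hpS)) (Crep S) hQ.IC _ :=
    (datJ (fun q => (P q).loc) (fun q => (P q).dat) (fun q => (P q).smoothI)).quot0 hQ
  -- the class formation
  have h := pcf_Crep p S hp2 hpS
  have hχ := exists_char_GQ (S := S) hp2 hpS
  have hfin : ∀ U : Subgroup GQ, (levelsS S).IsOpen U → ¬ p ∣ U.index →
      Module.Finite (ZMod p) ↥(Z1 ((levelsS S).sub U) (Rep.trivial (ZMod p) ↥U (ZMod p))) := by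
    intro U hU _
    have := Fermat.Agent.F4Fin.finH1 (p := p) S U hU
    exact Module.Finite.equiv (shH1Equiv U hU)
  -- the invariant
  obtain ⟨inv, hinv⟩ := exists_injective_of_KF1
    (DC.kF1_of_H1p0 hIC (h1slack h).h1p0 (f1sm h))
  -- reciprocity
  have hA2 : ∀ (W : Subgroup GQ) [Fintype (GQ ⧸ W)] (hW : (levelsS S).IsOpen W),
      A2InjU W (coindKC (fun q => (P q).loc) (isSmooth_Fp1 S hpS)) inv hW :=
    fun W _ hW => a2injU_all DC hIC h inv hinv hχ hfin W hW
  have hT3 : T3 (coindDatum hpS (fun q => (P q).loc)) inv := by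
    intro q
    obtain ⟨U, V, σ, j, hV, hc, hj, hsupp, hnn⟩ := dict_local hp2 hpS q
    exact t3_of_nonNorm hpS (fun q => (P q).loc) (fun q => (P q).dat) (fun q => (P q).smoothI)
      hQ h inv hA2 q U V σ hV hc j hj hsupp hnn
  obtain ⟨c, hc⟩ := exists_rescale_recip (coindDatum hpS (fun q => (P q).loc)) inv hT3
  -- the datum
  exact ⟨GlobalDatum.ofCoind
    (coindDatum hpS (fun q => rescaleLoc (P q).loc (c q))) inv
    (fun z => by
      refine (hc z).trans (Finset.sum_congr rfl fun q _ => ?_)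
      rfl)
    (fun U hU hidx => a2inj_of_PCF DC hIC h inv hinv hχ U hU hidx)
    (fun U hU hidx => a1surj_of_PCF DC hIC h inv hinv hχ U hU hidx (hfin U hU hidx))
    (fun V hV => a1inj_of_PCF DC hIC h inv hinv hχ hfin V ((levelsS S).isOpen_of_mem hV))
    (fun U hU _ => Fermat.Agent.F4Fin.finH1 (p := p) S U hU)⟩

/-- **GLOB + LOC**: the global datum, given the local packs for every root map
(`exists_locPack`, LOC seat DATUM) — the statement of `exists_globalDatum` (`F4/Glob/Main.lean`). -/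
theorem exists_globalDatum_of_locPack (hp2 : p ≠ 2) (hpS : pPrime p ∈ S)
    (hloc : ∀ φ : Fp1 p →+ EsRep S, IsRootMap φ → ∀ q : Nat.Primes,
      Nonempty (LocPack p S φ q)) : Nonempty (GlobalDatum p S) := by
  obtain ⟨φ, hinj, hcomm, hsurj⟩ := exists_rootMap (p := p) (S := S) hpS
  have hφ : IsRootMap φ := ⟨hinj, hcomm, hsurj⟩
  exact globalDatum_of_packs hp2 hpS hφ (fun q => (hloc φ hφ q.1).some)

end

end Fermat.Agent.F4Cf
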