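import Fermat.Agent.F4.Cf.Dict
import Fermat.Agent.F4.Cf.RecipA
import Fermat.Agent.F4.Coind.Datum
import Fermat.Agent.F4.UC.Coind
import Fermat.Agent.F4.UC.Quot
import Fermat.Agent.F4.Dict.Kummer

/-!
# F4 / Cf / RecipDefs : definitions of the layer RECIP (sorry-free; owner helper53)

* `rescaleLoc l c`     : the local datum `l` with `inv`, `invAll` multiplied by the unit `c`
                         (Prop-fields: helper49, `F4/Cf/RecipA.lean`);
* `LocTrivAway C q z`  : the class `z` of `KJ` is locally trivial away from `q`;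
* `T3 C inv`           : every local factor contributes to `HH²(G_S, KC)`;
* `IsRootMap φ`, `LocPack p S φ q` : the interface with LOC;
* `datJ`               : the universal-coefficient datum of `KJ`.

PROVERS of the seats R-A2, R-B, R-C, R-C0: import THIS file (not `F4/Cf/Recip.lean`, which imports
your files).  Statements of the seats: `F4/Cf/Recip.lean`; design: its header.
-/

set_option autoImplicit false

open CategoryTheory groupCohomology ExtCitation

namespace Fermat.Agent.F4Cf

open Fermat.Agent.F4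

variable {p : ℕ} [Fact p.Prime] {S : Finset Nat.Primes}

/-! ### The interface with LOC -/

/-- A root map `μ_p → E`: injective, equivariant, onto `E[p]` (exists by DK1, `exists_rootMap`). -/
structure IsRootMap (φ : Fp1 p →+ EsRep S) : Prop where
  inj : Function.Injective φ
  comm : ∀ (g : GQ) (x : Fp1 p), φ ((Fp1 p).ρ g x) = (EsRep S).ρ g (φ x)
  surj : ∀ y : EsRep S, (p : ℤ) • y = 0 → ∃ x : Fp1 p, φ x = y

/-- **What LOC delivers at `q`**: a local datum with its universal-coefficient datum, compatible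
with the global root map `φ`. -/
structure LocPack (p : ℕ) [Fact p.Prime] (S : Finset Nat.Primes) (φ : Fp1 p →+ EsRep S)
    (q : Nat.Primes) where
  loc : LocalDatum p S q
  I : Rep.{0} ℤ (primeLocalGaloisGroup q)
  Q : Rep.{0} ℤ (primeLocalGaloisGroup q)
  dat : UCData p loc.K (LqS S q) I Q
  smoothI : IsSmooth (locLevelsS S q) I
  compat : ∀ m : Fp1 p, dat.i0 (loc.ε.f0 m) = dat.ι (locUnit S q (EsIncl S (φ m)))

/-! ### Rescaling -/

/-- Rescaling the two invariants of a local datum by a unit of `𝔽_p`. -/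
noncomputable def rescaleLoc {q : Nat.Primes} (l : LocalDatum p S q) (c : (ZMod p)ˣ) :
    LocalDatum p S q where
  K := l.K
  smooth := l.smooth
  ε := l.ε
  ε_inj := l.ε_inj
  inv := (c : ZMod p) • l.inv
  a2inj := rescaleLoc_a2inj_pf l c
  a1surj := rescaleLoc_a1surj_pf l c
  invAll := (c : ZMod p) • l.invAll
  a2injAll := rescaleLoc_a2injAll_pf l c
  a1surjAll := rescaleLoc_a1surjAll_pf l c
  inv_ε := rescaleLoc_inv_ε_pf l c

/-- The class `z` of `KJ` is locally trivial away from `q`. -/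
def LocTrivAway {loc : ∀ q : ↥S, LocalDatum p S q.1} (C : CoindDatum p S loc) (q : ↥S)
    (z : ↥(ZZ2 (levelsS S) C.KJ)) : Prop :=
  ∀ q' : ↥S, q' ≠ q →
    (((C.ev q').mapZZ2 _ ⟨resT2 (primeLocalToGlobal q'.1) C.KJ z.1,
        resT2_mem_ZZ2 _ _ C.KJ z.2⟩ : ↥(ZZ2 (locLevelsS S q'.1) (loc q').K)) : T2 (loc q').K)
      ∈ BB2 (locLevelsS S q'.1) (loc q').K

/-- **T3**: every local factor contributes to `HH²(G_S, KC)`. -/
def T3 {loc : ∀ q : ↥S, LocalDatum p S q.1} (C : CoindDatum p S loc)
    (inv : HH2 (levelsS S) C.KC →ₗ[ZMod p] ZMod p) : Prop :=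
  ∀ q : ↥S, ∃ z : ↥(ZZ2 (levelsS S) C.KJ),
    LocTrivAway C q z ∧ inv (HH2π _ _ (C.g.mapZZ2 _ z)) ≠ 0

/-- The universal-coefficient datum of `KJ`. -/
noncomputable abbrev datJ (loc : ∀ q : ↥S, LocalDatum p S q.1)
    {I Q : ∀ q : ↥S, Rep.{0} ℤ (primeLocalGaloisGroup q.1)}
    (Dat : ∀ q : ↥S, UCData p (loc q).K (LqS S q.1) (I q) (Q q))
    (hI : ∀ q : ↥S, IsSmooth (locLevelsS S q.1) (I q)) :
    UCData p (coindKJ loc) (Jrep S)
      (cxPiRep fun q : ↥S => coInd (primeLocalToGlobal q.1) (levelsS S) (I q))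
      (cxPiRep fun q : ↥S => coInd (primeLocalToGlobal q.1) (levelsS S) (Q q)) :=
  UCData.coindPi (fun q : ↥S => primeLocalToGlobal q.1) (levelsS S) Dat hI

end Fermat.Agent.F4Cf
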