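import Fermat.Agent.F4.Cf.Defs
import Fermat.Agent.F4.BR.Smooth

/-!
# F4 / Cf / U0 : `Gal(ℚ̄/ℚ(μ_p))` is open in `G_S` (`p ∈ S`) of index prime to `p`

Statements of the two small stubs `U0_isOpen`, `U0_index` of `F4/Cf/Dict.lean`, for the kernel of
the mod `p` cyclotomic character (names `cf_ker_cycloChar_*`; `U0 p` of `Dict.lean` unfolds to
`MonoidHom.ker (cycloChar p)`).
-/

set_option autoImplicit false

open CategoryTheory groupCohomology ExtCitation

namespace Fermat.Agent.F4Cf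

open Fermat.Agent.F4

variable (p : ℕ) [Fact p.Prime] (S : Finset Nat.Primes)

/-- `ℚ(μ_p) ⊂ ℚ_S` when `p ∈ S`. -/
theorem cf_ker_cycloChar_isOpen (hpS : pPrime p ∈ S) :
    (levelsS S).IsOpen (MonoidHom.ker (cycloChar p)) := by
  obtain ⟨V, hV, hfix⟩ := isSmooth_Fp1 (p := p) S hpS (1 : ZMod p)
  refine ⟨V, hV, fun g hg => ?_⟩
  rw [MonoidHom.mem_ker]
  have h := hfix g hg
  rw [br_smooth_Fp1_ρ] at h
  apply Units.ext
  rw [Units.val_one]
  have h' : ((cycloChar p g : (ZMod p)ˣ) : ZMod p) * 1 = 1 := h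
  rwa [mul_one] at h'

/-- `[G_ℚ : Gal(ℚ̄/ℚ(μ_p))]` divides `p - 1`. -/
theorem cf_ker_cycloChar_index_dvd : (MonoidHom.ker (cycloChar p)).index ∣ p - 1 := by
  have hp : p.Prime := Fact.out
  rw [Subgroup.index_ker]
  have h1 : Nat.card ((cycloChar p).range) ∣ Nat.card (ZMod p)ˣ :=
    Subgroup.card_subgroup_dvd_card _
  have h2 : Nat.card (ZMod p)ˣ = p - 1 := by
    rw [Nat.card_eq_fintype_card, ZMod.card_units_eq_totient, Nat.totient_prime hp]
  rwa [h2] at h1

theorem cf_ker_cycloChar_index : ¬ p ∣ (MonoidHom.ker (cycloChar p)).index := by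
  have hp : p.Prime := Fact.out
  intro h
  have h1 : p ∣ p - 1 := h.trans (cf_ker_cycloChar_index_dvd p)
  have h2 : p ≤ p - 1 := Nat.le_of_dvd (Nat.sub_pos_of_lt hp.one_lt) h1
  have := hp.pos
  omega

end Fermat.Agent.F4Cf
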